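import Fermat.Agent.S24.JFun
import Fermat.Agent.S24.QExp

set_option autoImplicit false

open UpperHalfPlane ModularForm EisensteinSeries ModularCurve Filter Topology
open scoped MatrixGroups Manifold Real

noncomputable section

namespace Fermat.Agent.S28.RelAff

open Fermat.Agent.S24

local notation "𝕢" => Function.Periodic.qParam

/-- `q = e(z)` -/
def qf (τ : ℍ) : ℂ := 𝕢 1 (τ : ℂ)

theorem qf_ne_zero (τ : ℍ) : qf τ ≠ 0 := Complex.exp_ne_zero _

theorem periodic_comp_ofComplex_of {f : ℍ → ℂ} {g : ℂ → ℂ} (hfg : ∀ τ : ℍ, f τ = g τ)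
    (hg : Function.Periodic g 1) : Function.Periodic (f ∘ ofComplex) 1 := by
  intro z
  by_cases hz : 0 < z.im
  · have hz1 : 0 < (z + 1).im := by simpa using hz
    simp only [Function.comp_apply, ofComplex_apply_of_im_pos hz, ofComplex_apply_of_im_pos hz1]
    rw [hfg, hfg]
    exact hg z
  · have hz1 : ¬ 0 < (z + 1).im := by simpa using hz
    simp only [Function.comp_apply, ofComplex_apply_of_im_nonpos (not_lt.mp hz),
      ofComplex_apply_of_im_nonpos (not_lt.mp hz1)]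

theorem mdiff_of_differentiable {f : ℍ → ℂ} {g : ℂ → ℂ} (hfg : ∀ τ : ℍ, f τ = g τ)
    (hg : Differentiable ℂ g) : MDiff f := by
  rw [UpperHalfPlane.mdifferentiable_iff]
  refine hg.differentiableOn.congr fun z hz => ?_
  simp only [Function.comp_apply, ofComplex_apply_of_im_pos hz]
  exact hfg _

theorem differentiable_qParam_one : Differentiable ℂ (𝕢 1) := fun z =>
  (JFun.hasDerivAt_qParam_one z).differentiableAt

theorem qParam_one_add (z w : ℂ) : 𝕢 1 (z + w) = 𝕢 1 z * 𝕢 1 w := by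
  simp only [Function.Periodic.qParam, ← Complex.exp_add]
  congr 1
  ring

theorem qParam_one_natCast_mul (n : ℕ) (z : ℂ) : 𝕢 1 ((n : ℂ) * z) = 𝕢 1 z ^ n := by
  rw [Function.Periodic.qParam, Function.Periodic.qParam, ← Complex.exp_nat_mul]
  congr 1
  ring

theorem qParam_one_one : 𝕢 1 (1 : ℂ) = 1 := by
  simp [Function.Periodic.qParam, Complex.exp_two_pi_mul_I]

theorem periodic_qParam_one : Function.Periodic (𝕢 1) (1 : ℂ) := fun z => by
  rw [qParam_one_add, qParam_one_one, mul_one]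

theorem isQ_qf : IsQ qf :=
  ⟨mdiff_of_differentiable (fun _ => rfl) differentiable_qParam_one,
    periodic_comp_ofComplex_of (g := 𝕢 1) (fun _ => rfl) periodic_qParam_one,
    (qParam_tendsto_atImInfty one_pos).isBigO_one ℝ⟩

theorem qExpansion_qf : qExpansion 1 qf = PowerSeries.X := by
  ext m
  rw [← qExpansion_coeff_unique' (c := fun m => if m = 1 then 1 else 0) isQ_qf.analytic,
    PowerSeries.coeff_X]
  intro τ
  have h := hasSum_ite_eq (1 : ℕ) (qf τ)
  convert h using 2 with k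
  by_cases hk : k = 1
  · subst hk; simp [qf]
  · simp [hk]

/-- `q / Δ` -/
def qDivΔ (τ : ℍ) : ℂ := (discriminant τ)⁻¹ * qf τ

theorem isQ_discriminant' : IsQ discriminant :=
  ⟨CuspForm.discriminant.holo',
    SlashInvariantFormClass.periodic_comp_ofComplex CuspForm.discriminant
      one_mem_strictPeriods_SL,
    ModularFormClass.bdd_at_infty CuspForm.discriminant⟩

theorem tendsto_qDivΔ : Tendsto qDivΔ atImInfty (𝓝 1) := by
  have h := tendsto_atImInfty_tprod_one_sub_eta_q_pow.inv₀ one_ne_zero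
  rw [inv_one] at h
  refine h.congr fun z => ?_
  have hq : qf z ≠ 0 := qf_ne_zero z
  have hΔ := discriminant_ne_zero z
  rw [qDivΔ, discriminant_eq_q_prod] at *
  have hp : (∏' n, (1 - eta_q n z) ^ 24) ≠ 0 := right_ne_zero_of_mul hΔ
  show _ = (qf z * _)⁻¹ * qf z
  field_simp

theorem isQ_qDivΔ : IsQ qDivΔ := by
  refine ⟨?_, ?_, tendsto_qDivΔ.isBigO_one ℝ⟩
  · have h1 : MDiff (fun _ : ℍ => (1 : ℂ)) := mdifferentiable_const
    have h2 := (h1.div JFun.mdiff_Δ discriminant_ne_zero).mul isQ_qf.holo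
    have h3 : qDivΔ = ((fun _ : ℍ => (1 : ℂ)) / (discriminant : ℍ → ℂ)) * qf := by
      ext z; simp [qDivΔ]
    rw [h3]; exact h2
  · intro z
    have h1 := isQ_discriminant'.per z
    have h2 := isQ_qf.per z
    simp only [Function.comp_apply, qDivΔ] at h1 h2 ⊢
    rw [h1, h2]

theorem qExpansion_qDivΔ :
    qExpansion 1 qDivΔ = dedekindEtaUnitInv.map (Int.castRingHom ℂ) := by
  have h1 : qDivΔ * discriminant = qf := by
    ext z
    simp only [Pi.mul_apply, qDivΔ]
    field_simp [discriminant_ne_zero z]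
  have h2 := qExpansion_mul isQ_qDivΔ.analytic isQ_discriminant'.analytic
  rw [h1, qExpansion_qf, qExpansion_discriminant, map_mul, PowerSeries.map_X] at h2
  have h3 : qExpansion 1 qDivΔ * dedekindEtaUnit.map (Int.castRingHom ℂ) = 1 := by
    have h4 : PowerSeries.X * (qExpansion 1 qDivΔ * dedekindEtaUnit.map (Int.castRingHom ℂ))
        = PowerSeries.X * 1 := by
      rw [mul_one]
      calc PowerSeries.X * (qExpansion 1 qDivΔ * dedekindEtaUnit.map (Int.castRingHom ℂ))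
          = qExpansion 1 qDivΔ * (PowerSeries.X * dedekindEtaUnit.map (Int.castRingHom ℂ)) := by
            ring
        _ = PowerSeries.X := h2.symm
    exact mul_left_cancel₀ PowerSeries.X_ne_zero h4
  have h5 : dedekindEtaUnit.map (Int.castRingHom ℂ) * dedekindEtaUnitInv.map (Int.castRingHom ℂ)
      = 1 := by
    rw [← map_mul, dedekindEtaUnit_mul_inv, map_one]
  calc qExpansion 1 qDivΔ = qExpansion 1 qDivΔ * (dedekindEtaUnit.map (Int.castRingHom ℂ) *
        dedekindEtaUnitInv.map (Int.castRingHom ℂ)) := by rw [h5, mul_one]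
    _ = dedekindEtaUnitInv.map (Int.castRingHom ℂ) := by rw [← mul_assoc, h3, one_mul]

/-- `z ↦ A z + β` -/
def affR (A : ℕ) (hA : 0 < A) (β : ℝ) (τ : ℍ) : ℍ :=
  ⟨(A : ℂ) * τ + β, by
    have hA' : (0 : ℝ) < A := by exact_mod_cast hA
    have : ((A : ℂ) * (τ : ℂ) + β).im = A * τ.im := by simp
    rw [this]; exact mul_pos hA' τ.im_pos⟩

variable (A : ℕ) (hA : 0 < A) (β : ℝ)

@[simp] theorem coe_affR (τ : ℍ) : ((affR A hA β τ : ℍ) : ℂ) = (A : ℂ) * τ + β := rfl

theorem im_affR (τ : ℍ) : (affR A hA β τ).im = A * τ.im := by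
  change ((A : ℂ) * (τ : ℂ) + β).im = _
  simp

theorem mdiff_affR : MDiff (affR A hA β) := by
  have hd : (0 : ℝ) < A := by exact_mod_cast hA
  have hdet : (!![(A : ℝ), β; 0, 1] : Matrix (Fin 2) (Fin 2) ℝ).det ≠ 0 := by
    simp [Matrix.det_fin_two, hd.ne']
  let g : GL (Fin 2) ℝ := Matrix.GeneralLinearGroup.mkOfDetNeZero !![(A : ℝ), β; 0, 1] hdet
  have hg : 0 < g.det.val := by
    simp [g, Matrix.GeneralLinearGroup.mkOfDetNeZero, Matrix.det_fin_two, hd]
  have : affR A hA β = fun τ : ℍ => g • τ := by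
    funext τ
    apply UpperHalfPlane.ext
    rw [UpperHalfPlane.coe_smul_of_det_pos hg]
    simp [g, num, denom, Matrix.GeneralLinearGroup.mkOfDetNeZero]
  rw [this]
  exact UpperHalfPlane.mdifferentiable_smul hg

theorem tendsto_affR : Tendsto (affR A hA β) atImInfty atImInfty := by
  rw [atImInfty, tendsto_comap_iff]
  have hd : (0 : ℝ) < A := by exact_mod_cast hA
  have : (im ∘ affR A hA β) = fun τ : ℍ => (A : ℝ) * τ.im := by
    ext τ; exact im_affR A hA β τ
  rw [this]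
  exact Tendsto.const_mul_atTop hd tendsto_comap

theorem isQ_comp_affR {f : ℍ → ℂ} (hf : IsQ f) : IsQ (f ∘ affR A hA β) := by
  refine ⟨hf.holo.comp (mdiff_affR A hA β), ?_, hf.bdd.comp_tendsto (tendsto_affR A hA β)⟩
  intro z
  by_cases hz : 0 < z.im
  · have hz1 : 0 < (z + 1).im := by simpa using hz
    simp only [Function.comp_apply, ofComplex_apply_of_im_pos hz, ofComplex_apply_of_im_pos hz1]
    have hper := (hf.per.nat_mul A) ((A : ℂ) * z + β)
    have hdz : 0 < ((A : ℂ) * z + β).im := by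
      have hd : (0 : ℝ) < A := by exact_mod_cast hA
      simpa using mul_pos hd hz
    have hdz1 : 0 < ((A : ℂ) * z + β + (A : ℂ) * 1).im := by
      simpa using hdz
    simp only [Function.comp_apply, ofComplex_apply_of_im_pos hdz,
      ofComplex_apply_of_im_pos hdz1] at hper
    convert hper using 2
    · ext; simp [mul_add]; ring
    · rfl
  · have hz1 : ¬ 0 < (z + 1).im := by simpa using hz
    simp only [Function.comp_apply, ofComplex_apply_of_im_nonpos (not_lt.mp hz),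
      ofComplex_apply_of_im_nonpos (not_lt.mp hz1)]

theorem qf_affR (τ : ℍ) : qf (affR A hA β τ) = 𝕢 1 (β : ℂ) * qf τ ^ A := by
  rw [qf, coe_affR, qParam_one_add, qParam_one_natCast_mul, mul_comm]
  rfl

theorem hasSum_affR {f : ℍ → ℂ} (hf : IsQ f) (τ : ℍ) :
    HasSum (fun m : ℕ ↦ (if A ∣ m then (qExpansion 1 f).coeff (m / A) * 𝕢 1 (β : ℂ) ^ (m / A)
      else 0) • 𝕢 (1 : ℝ) (τ : ℂ) ^ m) (f (affR A hA β τ)) := by
  have h1 := hasSum_qExpansion one_pos hf.per hf.holo hf.bdd (affR A hA β τ)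
  have hinj : Function.Injective (fun n : ℕ => A * n) := fun a b h =>
    Nat.eq_of_mul_eq_mul_left hA h
  rw [← hinj.hasSum_iff]
  · have e : ((fun m : ℕ ↦ (if A ∣ m then (qExpansion 1 f).coeff (m / A) * 𝕢 1 (β : ℂ) ^ (m / A)
        else 0) • 𝕢 (1 : ℝ) (τ : ℂ) ^ m) ∘ fun n : ℕ => A * n) =
        fun m : ℕ ↦ (qExpansion 1 f).coeff m • 𝕢 (1 : ℝ) ((affR A hA β τ : ℍ) : ℂ) ^ m := by
      funext n
      have hq := qf_affR A hA β τ
      simp only [qf] at hq
      simp only [Function.comp_apply, dvd_mul_right, if_true,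
        Nat.mul_div_cancel_left _ hA, hq, pow_mul, mul_pow, smul_eq_mul]
      ring
    rw [e]
    exact h1
  · intro x hx
    have : ¬ A ∣ x := fun ⟨k, hk⟩ => hx ⟨k, hk.symm⟩
    simp only [this, if_false, zero_smul]

theorem qExpansion_affR_coeff {f : ℍ → ℂ} (hf : IsQ f) (m : ℕ) :
    (qExpansion 1 (f ∘ affR A hA β)).coeff m =
      if A ∣ m then (qExpansion 1 f).coeff (m / A) * 𝕢 1 (β : ℂ) ^ (m / A) else 0 :=
  (qExpansion_coeff_unique' (isQ_comp_affR A hA β hf).analytic (hasSum_affR A hA β hf) m).symm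

theorem coeff_single_neg_mul {R : Type*} [CommRing R] (m : ℕ) (p : PowerSeries R) (n : ℤ) :
    (HahnSeries.single (-(m : ℤ)) (1 : R) * HahnSeries.ofPowerSeries ℤ R p).coeff n =
      if 0 ≤ n + m then p.coeff (n + m).toNat else 0 := by
  rw [HahnSeries.coeff_single_mul, one_mul, sub_neg_eq_add]
  have := PowerSeries.coeff_coe (R := R) p (n + m)
  rw [this]
  by_cases h : 0 ≤ n + (m : ℤ)
  · rw [if_neg (not_lt.mpr h), if_pos h, show (n + (m : ℤ)).natAbs = (n + m).toNat by omega]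
  · rw [if_pos (not_le.mp h), if_neg h]

/-- the root of unity `e(b n / D)` as an algebraic integer -/
def rootZ (b : ℤ) (D : ℕ) (hD : 0 < D) (n : ℤ) : ↥(integralClosure ℤ ℂ) :=
  ⟨Complex.exp (2 * π * Complex.I * b * n / D), by
    apply IsIntegral.of_pow hD
    have hD' : (D : ℂ) ≠ 0 := by exact_mod_cast hD.ne'
    have : Complex.exp (2 * π * Complex.I * b * n / D) ^ D = 1 := by
      rw [← Complex.exp_nat_mul]
      have e : (D : ℂ) * (2 * π * Complex.I * b * n / D) = ((b * n : ℤ) : ℂ) * (2 * π * Complex.I) := by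
        push_cast
        field_simp
      rw [e, Complex.exp_int_mul_two_pi_mul_I]
    rw [this]
    exact isIntegral_one⟩

theorem coe_rootZ (b : ℤ) (D : ℕ) (hD : 0 < D) (n : ℤ) :
    ((rootZ b D hD n : ↥(integralClosure ℤ ℂ)) : ℂ) = Complex.exp (2 * π * Complex.I * b * n / D) :=
  rfl

theorem qParam_pow_eq (b : ℤ) (D : ℕ) (n : ℕ) :
    𝕢 1 (((b / D : ℝ) : ℝ) : ℂ) ^ n = Complex.exp (2 * π * Complex.I * b * n / D) := by
  rw [Function.Periodic.qParam, ← Complex.exp_nat_mul]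
  congr 1
  push_cast
  ring

theorem affine_core {N M : ℕ} [NeZero N] [NeZero M] {F : ℍ → ℂ} (m : ℕ)
    (p : PowerSeries ↥(integralClosure ℤ ℂ))
    (hQ : IsQ ((F ∘ scaleH M) * qf ^ m))
    (hp : qExpansion 1 ((F ∘ scaleH M) * qf ^ m) = p.map (algebraMap ↥(integralClosure ℤ ℂ) ℂ))
    (a d : ℕ) (b : ℤ) (hd : 0 < d) (A : ℕ) (hA0 : 0 < A) (hA : a * N = A * (d * M))
    (hD : 0 < d * M)
    (φ : ℍ → ℍ) (hφ : ∀ τ : ℍ, ((φ τ : ℍ) : ℂ) = ((a : ℂ) * τ + b) / d) :
    ∃ p' : PowerSeries ↥(integralClosure ℤ ℂ), IsQ (((F ∘ φ) ∘ scaleH N) * qf ^ (A * m)) ∧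
      qExpansion 1 (((F ∘ φ) ∘ scaleH N) * qf ^ (A * m)) =
        p'.map (algebraMap ↥(integralClosure ℤ ℂ) ℂ) ∧
      ∀ k : ℕ, p'.coeff k = if A ∣ k then p.coeff (k / A) * rootZ b (d * M) hD (((k / A : ℕ) : ℤ) - m)
        else 0 := by
  set β : ℝ := (b / (d * M : ℕ) : ℝ) with hβ
  set G : ℍ → ℂ := (F ∘ scaleH M) * qf ^ m with hG
  have hdC : (d : ℂ) ≠ 0 := by exact_mod_cast hd.ne'
  have hMC : (M : ℂ) ≠ 0 := by exact_mod_cast NeZero.ne M
  have hpt : ∀ τ : ℍ, scaleH M (affR A hA0 β τ) = φ (scaleH N τ) := by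
    intro τ
    ext
    rw [hφ, coe_scaleH, coe_scaleH, coe_affR, hβ]
    have hA' : (a : ℂ) * N = A * (d * M) := by exact_mod_cast hA
    push_cast
    field_simp
    linear_combination (-(τ : ℂ)) * hA'
  have hc : ((rootZ b (d * M) hD (-(m : ℤ)) : ↥(integralClosure ℤ ℂ)) : ℂ) * 𝕢 1 (β : ℂ) ^ m = 1 := by
    rw [coe_rootZ, hβ, qParam_pow_eq, ← Complex.exp_add]
    have : 2 * π * Complex.I * b * ((-(m : ℤ) : ℤ) : ℂ) / ((d * M : ℕ) : ℂ) +
        2 * π * Complex.I * b * (m : ℂ) / ((d * M : ℕ) : ℂ) = 0 := by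
      push_cast; ring
    rw [this, Complex.exp_zero]
  have hfun : ((F ∘ φ) ∘ scaleH N) * qf ^ (A * m) =
      ((rootZ b (d * M) hD (-(m : ℤ)) : ↥(integralClosure ℤ ℂ)) : ℂ) • (G ∘ affR A hA0 β) := by
    ext τ
    simp only [Pi.mul_apply, Function.comp_apply, Pi.pow_apply, Pi.smul_apply, smul_eq_mul, hG,
      hpt, qf_affR, mul_pow, ← pow_mul]
    linear_combination (-(F (φ (scaleH N τ)) * qf τ ^ (A * m))) * hc
  have hQ' : IsQ (G ∘ affR A hA0 β) := isQ_comp_affR A hA0 β hQ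
  refine ⟨PowerSeries.mk fun k => if A ∣ k then p.coeff (k / A) *
    rootZ b (d * M) hD (((k / A : ℕ) : ℤ) - m) else 0, ?_, ?_, fun k => PowerSeries.coeff_mk _ _⟩
  · rw [hfun]
    exact (IsQ.const _).mul hQ'
  · rw [hfun, qExpansion_smul hQ'.analytic]
    ext k
    rw [PowerSeries.coeff_smul, qExpansion_affR_coeff A hA0 β hQ, hp, PowerSeries.coeff_map,
      PowerSeries.coeff_map, PowerSeries.coeff_mk]
    by_cases hk : A ∣ k
    · simp only [hk, if_true, map_mul, smul_eq_mul]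
      have e1 : algebraMap ↥(integralClosure ℤ ℂ) ℂ (rootZ b (d * M) hD (((k / A : ℕ) : ℤ) - m)) =
          ((rootZ b (d * M) hD (-(m : ℤ)) : ↥(integralClosure ℤ ℂ)) : ℂ) * 𝕢 1 (β : ℂ) ^ (k / A) := by
        show ((rootZ b (d * M) hD (((k / A : ℕ) : ℤ) - m) : ↥(integralClosure ℤ ℂ)) : ℂ) = _
        generalize k / A = t
        rw [coe_rootZ, coe_rootZ, hβ, qParam_pow_eq, ← Complex.exp_add]
        congr 1
        push_cast
        ring
      rw [e1]
      ring
    · simp only [hk, if_false, map_zero, smul_zero]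

end Fermat.Agent.S28.RelAff
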