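import Mathlib

set_option autoImplicit false

open Polynomial

namespace Fermat.Agent.S28

variable {Γ B : Type*} [Group Γ] [CommRing B] [MulSemiringAction Γ B]

namespace Stab

/-- The conjugates of `b`, indexed by the cosets of a subgroup acting trivially. -/
def orb (K : Subgroup Γ) (hK : ∀ k ∈ K, ∀ b : B, k • b = b) (b : B) : Γ ⧸ K → B :=
  fun x => Quotient.liftOn' x (fun g => g • b) (by
    intro g g' h
    have h1 : g⁻¹ * g' ∈ K := QuotientGroup.leftRel_apply.mp h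
    have h2 := hK _ h1 b
    rw [mul_smul] at h2
    show g • b = g' • b
    calc g • b = g • (g⁻¹ • g' • b) := by rw [h2]
      _ = g' • b := smul_inv_smul _ _)

theorem orb_mk (K : Subgroup Γ) (hK : ∀ k ∈ K, ∀ b : B, k • b = b) (b : B) (g : Γ) :
    orb K hK b (g : Γ ⧸ K) = g • b := rfl

theorem orb_smul (K : Subgroup Γ) (hK : ∀ k ∈ K, ∀ b : B, k • b = b) (b : B) (g : Γ)
    (x : Γ ⧸ K) : orb K hK b (g • x) = g • orb K hK b x := by
  induction x using QuotientGroup.induction_on with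
  | H h =>
    show orb K hK b ((g * h : Γ) : Γ ⧸ K) = g • orb K hK b (h : Γ ⧸ K)
    rw [orb_mk, orb_mk, mul_smul]

theorem orb_mul (K : Subgroup Γ) (hK : ∀ k ∈ K, ∀ b : B, k • b = b) (b b' : B)
    (x : Γ ⧸ K) : orb K hK (b * b') x = orb K hK b x * orb K hK b' x := by
  induction x using QuotientGroup.induction_on with
  | H h => rw [orb_mk, orb_mk, orb_mk, smul_mul']

/-- The characteristic polynomial of `b`. -/
noncomputable def cp (K : Subgroup Γ) (hK : ∀ k ∈ K, ∀ b : B, k • b = b) [Fintype (Γ ⧸ K)]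
    (b : B) : B[X] := ∏ x : Γ ⧸ K, (X - C (orb K hK b x))

theorem cp_monic (K : Subgroup Γ) (hK : ∀ k ∈ K, ∀ b : B, k • b = b) [Fintype (Γ ⧸ K)]
    (b : B) : (cp K hK b).Monic :=
  monic_prod_of_monic _ _ fun _ _ => monic_X_sub_C _

theorem cp_eval (K : Subgroup Γ) (hK : ∀ k ∈ K, ∀ b : B, k • b = b) [Fintype (Γ ⧸ K)]
    (b : B) : (cp K hK b).eval b = 0 := by
  rw [cp, eval_prod]
  refine Finset.prod_eq_zero (Finset.mem_univ ((1 : Γ) : Γ ⧸ K)) ?_
  rw [orb_mk, one_smul, eval_sub, eval_X, eval_C, sub_self]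

theorem cp_map (K : Subgroup Γ) (hK : ∀ k ∈ K, ∀ b : B, k • b = b) [Fintype (Γ ⧸ K)]
    (b : B) (g : Γ) : (cp K hK b).map (MulSemiringAction.toRingHom Γ B g) = cp K hK b := by
  rw [cp, Polynomial.map_prod]
  refine Fintype.prod_equiv (MulAction.toPerm g) _ _ fun x => ?_
  rw [Polynomial.map_sub, map_X, map_C, MulAction.toPerm_apply, orb_smul]
  rfl

theorem smul_coeff_cp (K : Subgroup Γ) (hK : ∀ k ∈ K, ∀ b : B, k • b = b) [Fintype (Γ ⧸ K)]
    (b : B) (n : ℕ) (g : Γ) : g • (cp K hK b).coeff n = (cp K hK b).coeff n := by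
  conv_rhs => rw [← cp_map K hK b g, coeff_map]
  rfl

theorem orb_eq_out (K : Subgroup Γ) (hK : ∀ k ∈ K, ∀ b : B, k • b = b) (b : B) (x : Γ ⧸ K) :
    orb K hK b x = x.out • b := by
  conv_lhs => rw [← QuotientGroup.out_eq' x]
  rfl

theorem mem_of_pow_smul_mem (Q : Ideal B) (g : Γ) (h : ∀ b : B, g • b ∈ Q → b ∈ Q) (j : ℕ) :
    ∀ b : B, g ^ j • b ∈ Q → b ∈ Q := by
  induction j with
  | zero => intro b hb; simpa using hb
  | succ j ih =>
    intro b hb
    rw [pow_succ, mul_smul] at hb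
    exact h b (ih _ hb)

theorem stab_of_le (K : Subgroup Γ) [K.FiniteIndex] (hK : ∀ k ∈ K, ∀ b : B, k • b = b)
    (Q : Ideal B) (g : Γ) (h : ∀ b : B, g • b ∈ Q → b ∈ Q) (b : B) : b ∈ Q ↔ g • b ∈ Q := by
  refine ⟨fun hb => ?_, h b⟩
  obtain ⟨n, hn, _, hgn⟩ := K.exists_pow_mem_of_index_ne_zero Subgroup.FiniteIndex.index_ne_zero g
  obtain ⟨j, rfl⟩ : ∃ j, n = j + 1 := ⟨n - 1, by omega⟩
  apply mem_of_pow_smul_mem Q g h j
  rw [← mul_smul, ← pow_succ, hK _ hgn]
  exact hb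

theorem coeff_cp_mod (K : Subgroup Γ) (hK : ∀ k ∈ K, ∀ b : B, k • b = b) [Fintype (Γ ⧸ K)]
    (Q : Ideal B) (St : Γ ⧸ K → Prop) [DecidablePred St] (y : B)
    (hy : ∀ x, ¬ St x → orb K hK y x ∈ Q) :
    Ideal.Quotient.mk Q ((cp K hK y).coeff (Finset.univ.filter fun x => ¬ St x).card) =
      ∏ x ∈ Finset.univ.filter St, (- Ideal.Quotient.mk Q (orb K hK y x)) := by
  rw [← coeff_map, cp, Polynomial.map_prod, ← Finset.prod_filter_mul_prod_filter_not _ St]
  have h2 : ∏ x ∈ Finset.univ.filter (fun x => ¬ St x),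
      (X - C (orb K hK y x)).map (Ideal.Quotient.mk Q) =
      X ^ (Finset.univ.filter fun x => ¬ St x).card := by
    rw [← Finset.prod_const]
    refine Finset.prod_congr rfl fun x hx => ?_
    rw [Polynomial.map_sub, map_X, map_C,
      Ideal.Quotient.eq_zero_iff_mem.mpr (hy x (Finset.mem_filter.mp hx).2), C_0, sub_zero]
  rw [h2]
  have h3 := coeff_mul_X_pow (∏ x ∈ Finset.univ.filter St,
    (X - C (orb K hK y x)).map (Ideal.Quotient.mk Q))
    (Finset.univ.filter fun x => ¬ St x).card 0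
  rw [zero_add] at h3
  rw [h3, coeff_zero_eq_eval_zero, eval_prod]
  refine Finset.prod_congr rfl fun x _ => ?_
  rw [Polynomial.map_sub, map_X, map_C, eval_sub, eval_X, eval_C, zero_sub]

end Stab

open Stab

/-- KEY/B1. Integrality over the invariants. -/
theorem exists_monic_invariant (K : Subgroup Γ) [K.Normal] [K.FiniteIndex]
    (hK : ∀ k ∈ K, ∀ b : B, k • b = b) (u : B) :
    ∃ p : B[X], p.Monic ∧ (∀ (n : ℕ) (g : Γ), g • p.coeff n = p.coeff n) ∧ p.eval u = 0 := by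
  have := Fintype.ofFinite (Γ ⧸ K)
  exact ⟨cp K hK u, cp_monic K hK u, fun n g => smul_coeff_cp K hK u n g, cp_eval K hK u⟩

/-- KEY/B2. If `u` is fixed by the decomposition group of the prime `Q`, then a power of `u` is,
modulo `Q`, a quotient of invariants. -/
theorem exists_pow_mul_sub_mem (K : Subgroup Γ) [K.Normal] [K.FiniteIndex]
    (hK : ∀ k ∈ K, ∀ b : B, k • b = b) (Q : Ideal B) [Q.IsPrime] (u : B)
    (hu : ∀ g : Γ, (∀ b : B, b ∈ Q ↔ g • b ∈ Q) → g • u = u) :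
    ∃ (m : ℕ) (a c : B), 0 < m ∧ (∀ g : Γ, g • a = a) ∧ (∀ g : Γ, g • c = c) ∧ c ∉ Q ∧
      c * u ^ m - a ∈ Q := by
  classical
  have := Fintype.ofFinite (Γ ⧸ K)
  let St : Γ ⧸ K → Prop := fun x => ∀ b : B, b ∈ Q ↔ orb K hK b x ∈ Q
  let I : Γ ⧸ K → Ideal B := fun x => Q.comap (MulSemiringAction.toRingHom Γ B x.out)
  have hI : ∀ x b, b ∈ I x ↔ orb K hK b x ∈ Q := fun x b => by
    rw [orb_eq_out]; rfl
  have hnle : ¬ (Finset.univ.filter fun x => ¬ St x).inf I ≤ Q := by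
    rw [Ideal.IsPrime.inf_le' inferInstance]
    rintro ⟨x, hx, hle⟩
    apply (Finset.mem_filter.mp hx).2
    intro b
    rw [orb_eq_out]
    refine stab_of_le K hK Q x.out (fun b hb => hle ?_) b
    exact hb
  obtain ⟨b₀, hb₀, hb₀Q⟩ := SetLike.not_le_iff_exists.mp hnle
  have hb₀' : ∀ x, ¬ St x → orb K hK b₀ x ∈ Q := by
    intro x hx
    rw [← hI]
    exact (Finset.inf_le (Finset.mem_filter.mpr ⟨Finset.mem_univ x, hx⟩) : _ ≤ I x) hb₀
  have hy' : ∀ x, ¬ St x → orb K hK (b₀ * u) x ∈ Q := by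
    intro x hx
    rw [orb_mul]
    exact Q.mul_mem_right _ (hb₀' x hx)
  have hc := coeff_cp_mod K hK Q St b₀ hb₀'
  have ha := coeff_cp_mod K hK Q St (b₀ * u) hy'
  have hone : St ((1 : Γ) : Γ ⧸ K) := fun b => by rw [orb_mk, one_smul]
  refine ⟨(Finset.univ.filter St).card,
    (cp K hK (b₀ * u)).coeff (Finset.univ.filter fun x => ¬ St x).card,
    (cp K hK b₀).coeff (Finset.univ.filter fun x => ¬ St x).card, ?_,
    fun g => smul_coeff_cp K hK (b₀ * u) _ g,
    fun g => smul_coeff_cp K hK b₀ _ g, ?_, ?_⟩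
  · exact Finset.card_pos.mpr ⟨_, Finset.mem_filter.mpr ⟨Finset.mem_univ _, hone⟩⟩
  · rw [← Ideal.Quotient.eq_zero_iff_mem, hc, Finset.prod_eq_zero_iff]
    rintro ⟨x, hx, h0⟩
    rw [neg_eq_zero, Ideal.Quotient.eq_zero_iff_mem] at h0
    exact hb₀Q (((Finset.mem_filter.mp hx).2 b₀).mpr h0)
  · rw [← Ideal.Quotient.eq_zero_iff_mem, map_sub, map_mul, map_pow, hc, ha, sub_eq_zero,
      ← Finset.prod_const, ← Finset.prod_mul_distrib]
    refine Finset.prod_congr rfl fun x hx => ?_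
    have hux : orb K hK u x = u := by
      rw [orb_eq_out]
      refine hu x.out fun b => ?_
      rw [← orb_eq_out K hK]
      exact (Finset.mem_filter.mp hx).2 b
    rw [orb_mul, hux, map_mul, neg_mul]

end Fermat.Agent.S28
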