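import Fermat.Agent.S28.Defs

set_option autoImplicit false

noncomputable section

namespace Fermat.Agent.S28.RLoc

open Polynomial

variable (ℓ : ℕ)

theorem mem_iff (q : ℚ) : q ∈ GaloisRep.ratLocalizedAt ℓ ↔ q.den.Coprime ℓ := Iff.rfl

theorem int_mem (a : ℤ) : (a : ℚ) ∈ GaloisRep.ratLocalizedAt ℓ := by
  rw [mem_iff]; simp

theorem nat_mem (a : ℕ) : (a : ℚ) ∈ GaloisRep.ratLocalizedAt ℓ := by
  rw [mem_iff]; simp

variable [Fact ℓ.Prime]

theorem mem_iff_not_dvd (q : ℚ) : q ∈ GaloisRep.ratLocalizedAt ℓ ↔ ¬ ℓ ∣ q.den := by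
  rw [mem_iff, Nat.coprime_comm, Nat.Prime.coprime_iff_not_dvd Fact.out]

theorem ell_ne_zero : (ℓ : ℚ) ≠ 0 := by
  exact_mod_cast (Fact.out : ℓ.Prime).ne_zero

/-- `ℓ`-integrality in terms of the `ℓ`-adic valuation. -/
theorem mem_iff_val {q : ℚ} (_hq : q ≠ 0) :
    q ∈ GaloisRep.ratLocalizedAt ℓ ↔ 0 ≤ padicValRat ℓ q := by
  rw [mem_iff_not_dvd, padicValRat_def]
  constructor
  · intro h
    rw [padicValNat.eq_zero_of_not_dvd h]
    simp
  · intro h hd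
    have h1 : 1 ≤ padicValNat ℓ q.den := one_le_padicValNat_of_dvd q.den_ne_zero hd
    have h2 : ¬ (ℓ : ℤ) ∣ q.num := by
      intro hn
      have hn' : ℓ ∣ q.num.natAbs := Int.natCast_dvd.mp hn
      have := Nat.dvd_gcd hn' hd
      rw [q.reduced] at this
      exact (Fact.out : ℓ.Prime).one_lt.ne' (Nat.dvd_one.mp this)
    rw [padicValInt.eq_zero_of_not_dvd h2] at h
    have h3 : (1 : ℤ) ≤ (padicValNat ℓ q.den : ℤ) := by exact_mod_cast h1
    have h4 : (0 : ℤ) ≤ ((0 : ℕ) : ℤ) - (padicValNat ℓ q.den : ℤ) := h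
    omega

theorem val_ell : padicValRat ℓ (ℓ : ℚ) = 1 := padicValRat.self (Fact.out : ℓ.Prime).one_lt

theorem zpow_ne_zero' (v : ℤ) : (ℓ : ℚ) ^ v ≠ 0 := zpow_ne_zero _ (ell_ne_zero ℓ)

theorem val_zpow_mul {q : ℚ} (hq : q ≠ 0) (v : ℤ) :
    padicValRat ℓ ((ℓ : ℚ) ^ v * q) = v + padicValRat ℓ q := by
  rw [padicValRat.mul (zpow_ne_zero' ℓ v) hq, padicValRat.zpow, val_ell, mul_one]

/-- an element of `ℤ_(ℓ)` is divisible by `ℓ` iff it is zero or has positive valuation. -/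
theorem ell_dvd_iff (r : ↥(GaloisRep.ratLocalizedAt ℓ)) :
    (ℓ : ↥(GaloisRep.ratLocalizedAt ℓ)) ∣ r ↔ (r : ℚ) = 0 ∨ 1 ≤ padicValRat ℓ (r : ℚ) := by
  constructor
  · rintro ⟨s, rfl⟩
    by_cases hs : (s : ℚ) = 0
    · left; simp [hs]
    · right
      have h0 := (mem_iff_val ℓ hs).mp s.2
      have := val_zpow_mul ℓ hs 1
      rw [zpow_one] at this
      push_cast
      rw [this]
      omega
  · rintro (h | h)
    · have : r = 0 := Subtype.ext h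
      rw [this]; exact dvd_zero _
    · have hr : (r : ℚ) ≠ 0 := by
        intro h0
        rw [h0] at h
        simp at h
      have hmem : (ℓ : ℚ) ^ (-1 : ℤ) * (r : ℚ) ∈ GaloisRep.ratLocalizedAt ℓ := by
        rw [mem_iff_val ℓ (mul_ne_zero (zpow_ne_zero' ℓ _) hr), val_zpow_mul ℓ hr]
        omega
      refine ⟨⟨_, hmem⟩, Subtype.ext ?_⟩
      push_cast
      rw [zpow_neg_one, mul_inv_cancel_left₀ (ell_ne_zero ℓ)]

theorem isUnit_iff (r : ↥(GaloisRep.ratLocalizedAt ℓ)) :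
    IsUnit r ↔ (r : ℚ) ≠ 0 ∧ padicValRat ℓ (r : ℚ) = 0 := by
  constructor
  · rintro ⟨u, rfl⟩
    have h1 : ((u : ↥(GaloisRep.ratLocalizedAt ℓ)) : ℚ) *
        ((u⁻¹ : (↥(GaloisRep.ratLocalizedAt ℓ))ˣ) : ↥(GaloisRep.ratLocalizedAt ℓ)) = 1 := by
      have := congrArg (Subtype.val) u.mul_inv
      exact this
    have ha : ((u : ↥(GaloisRep.ratLocalizedAt ℓ)) : ℚ) ≠ 0 := left_ne_zero_of_mul_eq_one h1
    have hb : (((u⁻¹ : (↥(GaloisRep.ratLocalizedAt ℓ))ˣ) : ↥(GaloisRep.ratLocalizedAt ℓ)) : ℚ) ≠ 0 :=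
      right_ne_zero_of_mul_eq_one h1
    refine ⟨ha, ?_⟩
    have h2 := padicValRat.mul (p := ℓ) ha hb
    rw [h1, padicValRat.one] at h2
    have h3 := (mem_iff_val ℓ ha).mp (Subtype.property _)
    have h4 := (mem_iff_val ℓ hb).mp (Subtype.property _)
    omega
  · rintro ⟨h0, hv⟩
    have hmem : ((r : ℚ))⁻¹ ∈ GaloisRep.ratLocalizedAt ℓ := by
      rw [mem_iff_val ℓ (inv_ne_zero h0), padicValRat.inv, hv]
      simp
    refine IsUnit.of_mul_eq_one ⟨_, hmem⟩ (Subtype.ext ?_)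
    push_cast
    exact mul_inv_cancel₀ h0

theorem isUnit_or_dvd (r : ↥(GaloisRep.ratLocalizedAt ℓ)) :
    IsUnit r ∨ (ℓ : ↥(GaloisRep.ratLocalizedAt ℓ)) ∣ r := by
  rw [isUnit_iff, ell_dvd_iff]
  by_cases h0 : (r : ℚ) = 0
  · right; left; exact h0
  · have := (mem_iff_val ℓ h0).mp r.2
    rcases this.eq_or_lt with h | h
    · left; exact ⟨h0, h.symm⟩
    · right; right; omega

theorem not_isUnit_ell : ¬ IsUnit (ℓ : ↥(GaloisRep.ratLocalizedAt ℓ)) := by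
  rw [isUnit_iff]
  push_cast
  rw [val_ell]
  simp

theorem isUnit_iff_not_dvd (r : ↥(GaloisRep.ratLocalizedAt ℓ)) :
    IsUnit r ↔ ¬ (ℓ : ↥(GaloisRep.ratLocalizedAt ℓ)) ∣ r := by
  constructor
  · intro hu hd
    exact not_isUnit_ell ℓ (isUnit_of_dvd_unit hd hu)
  · intro h
    exact (isUnit_or_dvd ℓ r).resolve_right h

theorem ell_ne_zero_R : (ℓ : ↥(GaloisRep.ratLocalizedAt ℓ)) ≠ 0 := by
  intro h
  have := congrArg Subtype.val h
  push_cast at this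
  exact ell_ne_zero ℓ this

theorem prime_ell : Prime (ℓ : ↥(GaloisRep.ratLocalizedAt ℓ)) := by
  refine ⟨ell_ne_zero_R ℓ, not_isUnit_ell ℓ, ?_⟩
  intro a b hab
  by_contra hcon
  rw [not_or] at hcon
  have ha := (isUnit_iff_not_dvd ℓ a).mpr hcon.1
  have hb := (isUnit_iff_not_dvd ℓ b).mpr hcon.2
  exact (isUnit_iff_not_dvd ℓ _).mp (ha.mul hb) hab

theorem prime_C_ell : Prime (C (ℓ : ↥(GaloisRep.ratLocalizedAt ℓ))) :=
  Polynomial.prime_C_iff.mpr (prime_ell ℓ)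

/-- every nonzero rational is a power of `ℓ` times a unit of `ℤ_(ℓ)`. -/
theorem exists_zpow_mul_unit {q : ℚ} (hq : q ≠ 0) :
    ∃ u : (↥(GaloisRep.ratLocalizedAt ℓ))ˣ,
      q = (ℓ : ℚ) ^ (padicValRat ℓ q) * ((u : ↥(GaloisRep.ratLocalizedAt ℓ)) : ℚ) := by
  have hne : (ℓ : ℚ) ^ (-padicValRat ℓ q) * q ≠ 0 := mul_ne_zero (zpow_ne_zero' ℓ _) hq
  have hv : padicValRat ℓ ((ℓ : ℚ) ^ (-padicValRat ℓ q) * q) = 0 := by
    rw [val_zpow_mul ℓ hq]; omega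
  have hmem : (ℓ : ℚ) ^ (-padicValRat ℓ q) * q ∈ GaloisRep.ratLocalizedAt ℓ := by
    rw [mem_iff_val ℓ hne, hv]
  have hu : IsUnit (⟨_, hmem⟩ : ↥(GaloisRep.ratLocalizedAt ℓ)) := by
    rw [isUnit_iff]; exact ⟨hne, hv⟩
  refine ⟨hu.unit, ?_⟩
  rw [IsUnit.unit_spec]
  show q = _ * (_ * q)
  rw [← mul_assoc, ← zpow_add₀ (ell_ne_zero ℓ)]
  simp

instance isDiscreteValuationRing : IsDiscreteValuationRing ↥(GaloisRep.ratLocalizedAt ℓ) := by
  apply IsDiscreteValuationRing.ofHasUnitMulPowIrreducibleFactorization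
  refine ⟨(ℓ : ↥(GaloisRep.ratLocalizedAt ℓ)), (prime_ell ℓ).irreducible, ?_⟩
  intro x hx
  have hx' : (x : ℚ) ≠ 0 := fun h => hx (Subtype.ext h)
  obtain ⟨u, hu⟩ := exists_zpow_mul_unit ℓ hx'
  have hv := (mem_iff_val ℓ hx').mp x.2
  obtain ⟨n, hn⟩ := Int.eq_ofNat_of_zero_le hv
  refine ⟨n, u, Subtype.ext ?_⟩
  rw [hn, zpow_natCast] at hu
  push_cast
  exact hu.symm

instance isIntegrallyClosed_poly :
    IsIntegrallyClosed (Polynomial ↥(GaloisRep.ratLocalizedAt ℓ)) := inferInstance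

instance isFractionRing : IsFractionRing ↥(GaloisRep.ratLocalizedAt ℓ) ℚ where
  map_units := by
    rintro ⟨y, hy⟩
    have : y ≠ 0 := nonZeroDivisors.ne_zero hy
    exact IsUnit.mk0 _ (fun h => this (Subtype.ext h))
  surj := by
    intro z
    have hd : (⟨(z.den : ℚ), nat_mem ℓ _⟩ : ↥(GaloisRep.ratLocalizedAt ℓ)) ∈
        nonZeroDivisors ↥(GaloisRep.ratLocalizedAt ℓ) := by
      rw [mem_nonZeroDivisors_iff_ne_zero]
      intro h
      have := congrArg Subtype.val h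
      simp at this
    refine ⟨(⟨(z.num : ℚ), int_mem ℓ _⟩, ⟨_, hd⟩), ?_⟩
    show z * (z.den : ℚ) = (z.num : ℚ)
    exact Rat.mul_den_eq_num z
  exists_of_eq := by
    intro x y h
    exact ⟨1, by rw [Subtype.ext h]⟩

section residue

variable (K : Type*) [Field K] [CharP K ℓ] [Algebra ↥(GaloisRep.ratLocalizedAt ℓ) K]

theorem algebraMap_eq_zero_iff (r : ↥(GaloisRep.ratLocalizedAt ℓ)) :
    algebraMap ↥(GaloisRep.ratLocalizedAt ℓ) K r = 0 ↔
      (ℓ : ↥(GaloisRep.ratLocalizedAt ℓ)) ∣ r := by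
  constructor
  · intro h
    by_contra hd
    have hu := (isUnit_iff_not_dvd ℓ r).mpr hd
    exact (hu.map (algebraMap ↥(GaloisRep.ratLocalizedAt ℓ) K)).ne_zero h
  · rintro ⟨s, rfl⟩
    rw [map_mul, map_natCast, CharP.cast_eq_zero, zero_mul]

theorem map_eq_zero_iff (p : Polynomial ↥(GaloisRep.ratLocalizedAt ℓ)) :
    p.map (algebraMap ↥(GaloisRep.ratLocalizedAt ℓ) K) = 0 ↔
      C (ℓ : ↥(GaloisRep.ratLocalizedAt ℓ)) ∣ p := by
  rw [Polynomial.C_dvd_iff_dvd_coeff, Polynomial.ext_iff]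
  simp only [coeff_map, coeff_zero, algebraMap_eq_zero_iff]

/-- simultaneous primitive scaling of a finite family of rational polynomials. -/
theorem exists_scaling {ι : Type*} [Finite ι] (b : ι → Polynomial ℚ) (hb : ∃ i, b i ≠ 0) :
    ∃ (v : ℤ) (b' : ι → Polynomial ↥(GaloisRep.ratLocalizedAt ℓ)),
      (∀ i, b i = C ((ℓ : ℚ) ^ v) * (b' i).map (algebraMap ↥(GaloisRep.ratLocalizedAt ℓ) ℚ)) ∧
      ∃ i, (b' i).map (algebraMap ↥(GaloisRep.ratLocalizedAt ℓ) K) ≠ 0 := by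
  classical
  cases nonempty_fintype ι
  set S : Finset (Σ _ : ι, ℕ) := Finset.univ.sigma (fun i => (b i).support) with hS
  have hSne : S.Nonempty := by
    obtain ⟨i, hi⟩ := hb
    obtain ⟨n, hn⟩ := Polynomial.support_nonempty.mpr hi
    exact ⟨⟨i, n⟩, by simp [hS, Polynomial.mem_support_iff.mp hn]⟩
  set f : (Σ _ : ι, ℕ) → ℤ := fun p => padicValRat ℓ ((b p.1).coeff p.2) with hf
  set v : ℤ := S.inf' hSne f with hv
  have hmem : ∀ i n, (ℓ : ℚ) ^ (-v) * (b i).coeff n ∈ GaloisRep.ratLocalizedAt ℓ := by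
    intro i n
    by_cases h0 : (b i).coeff n = 0
    · rw [h0, mul_zero]; exact Subring.zero_mem _
    · rw [mem_iff_val ℓ (mul_ne_zero (zpow_ne_zero' ℓ _) h0), val_zpow_mul ℓ h0]
      have : v ≤ f ⟨i, n⟩ := Finset.inf'_le f (by simp [hS, h0])
      simp only [hf] at this
      omega
  have hsub : ∀ i, ((C ((ℓ : ℚ) ^ (-v)) * b i).coeffs : Set ℚ) ⊆ GaloisRep.ratLocalizedAt ℓ := by
    intro i x hx
    obtain ⟨n, -, rfl⟩ := Polynomial.mem_coeffs_iff.mp hx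
    rw [coeff_C_mul]
    exact hmem i n
  refine ⟨v, fun i => (C ((ℓ : ℚ) ^ (-v)) * b i).toSubring _ (hsub i), ?_, ?_⟩
  · intro i
    have : (algebraMap ↥(GaloisRep.ratLocalizedAt ℓ) ℚ) = (GaloisRep.ratLocalizedAt ℓ).subtype := rfl
    rw [this, Polynomial.map_toSubring, ← mul_assoc, ← C_mul, ← zpow_add₀ (ell_ne_zero ℓ)]
    simp
  · obtain ⟨⟨i, n⟩, hin, hmin⟩ := Finset.exists_mem_eq_inf' hSne f
    refine ⟨i, ?_⟩
    rw [Ne, map_eq_zero_iff, Polynomial.C_dvd_iff_dvd_coeff]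
    intro hall
    have h0 : (b i).coeff n ≠ 0 := by
      simpa [hS] using hin
    have := (ell_dvd_iff ℓ _).mp (hall n)
    rw [Polynomial.coeff_toSubring, coeff_C_mul] at this
    rcases this with h | h
    · exact mul_ne_zero (zpow_ne_zero' ℓ _) h0 h
    · rw [val_zpow_mul ℓ h0] at h
      have h2 : v = padicValRat ℓ ((b i).coeff n) := hmin
      omega

/-- every nonzero rational polynomial is a nonzero constant times an `ℓ`-integral polynomial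
with nonzero reduction. -/
theorem exists_primitive (s : Polynomial ℚ) (hs : s ≠ 0) :
    ∃ (c : ℚ) (s0 : Polynomial ↥(GaloisRep.ratLocalizedAt ℓ)), c ≠ 0 ∧
      s = C c * s0.map (algebraMap ↥(GaloisRep.ratLocalizedAt ℓ) ℚ) ∧
      s0.map (algebraMap ↥(GaloisRep.ratLocalizedAt ℓ) K) ≠ 0 := by
  obtain ⟨v, b', h1, ⟨_, h2⟩⟩ := exists_scaling ℓ K (fun _ : Unit => s) ⟨(), hs⟩
  exact ⟨_, b' (), zpow_ne_zero' ℓ v, h1 (), h2⟩

end residue

end Fermat.Agent.S28.RLoc
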