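import Fermat.Agent.S28.Invariants
import Fermat.Agent.S28.Stab
import Fermat.Prelude.Def_ModularCurve_X0ModL

set_option autoImplicit false

open UpperHalfPlane ModularForm EisensteinSeries ModularCurve Polynomial
open scoped MatrixGroups Manifold Real

noncomputable section

namespace Fermat.Agent.S28

open Fermat.Agent.S24 Fermat.Agent.S24.MerAux

namespace IntAux

/-- evaluation at `j`, over any coefficient ring -/
def evJ (R : Type) [CommRing R] : ℤ[X] →+* LaurentSeries R :=
  Polynomial.eval₂RingHom (Int.castRingHom (LaurentSeries R)) (jqModC R)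

theorem evJ_X (R : Type) [CommRing R] : evJ R X = jqModC R := by
  simp [evJ]

theorem coeffMap_comp_evJ {R S : Type} [CommRing R] [CommRing S] (f : R →+* S) :
    (coeffMap f).comp (evJ R) = evJ S := by
  refine Polynomial.ringHom_ext' (Subsingleton.elim _ _) ?_
  rw [RingHom.comp_apply, evJ_X, evJ_X, coeffMap_jqModC]

theorem evJ_rat : evJ ℚ = evalAtJ := by
  refine Polynomial.ringHom_ext' (Subsingleton.elim _ _) ?_
  rw [evJ_X, evalAtJ_X]
  rfl

theorem coeffMap_injective {R S : Type} [CommRing R] [CommRing S] (f : R →+* S)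
    (hf : Function.Injective f) : Function.Injective (coeffMap f) := by
  intro x y h
  ext k
  apply hf
  rw [← coeffMap_coeff, ← coeffMap_coeff, h]

/-- transport of the equation along a coefficient map -/
theorem coeffMap_eval₂ {R S : Type} [CommRing R] [CommRing S] (f : R →+* S) (N : ℕ) [NeZero N]
    (H : ℤ[X][X]) :
    coeffMap f (H.eval₂ (evJ R) (qExpand R N (jqModC R))) =
      H.eval₂ (evJ S) (qExpand S N (jqModC S)) := by
  rw [Polynomial.hom_eval₂, coeffMap_comp_evJ, coeffMap_qExpand, coeffMap_jqModC]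

variable (N : ℕ) [NeZero N]

theorem eps_eval₂ (P : Zb[X]) : eps N (P.eval₂ (cA N) (jA N 1 (one_dvd N))) =
    qExpand Zb N (P.eval₂ HahnSeries.C (jqModC Zb)) := by
  rw [Polynomial.hom_eval₂, Polynomial.hom_eval₂, InvAux.eps_J]
  congr 1
  ext c : 1
  rw [RingHom.comp_apply, RingHom.comp_apply, eps_cA, qExpand_C]

theorem eps_jNN : eps N (jA N N dvd_rfl) = qExpand Zb N (qExpand Zb N (jqModC Zb)) := by
  rw [eps_jA, qExpand_qExpand]

/-- a monic equation for `j(q^N)` with coefficients in `Zb[j]` -/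
theorem exists_monic_L : ∃ q : (LaurentSeries Zb)[X], q.Monic ∧
    (∀ n, ∃ P : Zb[X], q.coeff n = P.eval₂ HahnSeries.C (jqModC Zb)) ∧
    q.eval (qExpand Zb N (jqModC Zb)) = 0 := by
  have : (CongruenceSubgroup.Gamma N).Normal := CongruenceSubgroup.Gamma_normal N
  obtain ⟨p, hp, hinv, h0⟩ := exists_monic_invariant (CongruenceSubgroup.Gamma N)
    (fun k hk b => smul_eq_of_mem_Gamma N hk b) (jA N N dvd_rfl)
  choose P hP using fun n => exists_poly_of_invariant N (p.coeff n) (hinv n)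
  have hl : p.map (eps N) ∈ Polynomial.lifts (qExpand Zb N) := by
    rw [Polynomial.lifts_iff_coeff_lifts]
    intro n
    refine ⟨(P n).eval₂ HahnSeries.C (jqModC Zb), ?_⟩
    rw [coeff_map, ← eps_eval₂, ← hP]
  obtain ⟨q, hq, -, hm⟩ := Polynomial.lifts_and_natDegree_eq_and_monic hl (hp.map _)
  refine ⟨q, hm, fun n => ⟨P n, ?_⟩, ?_⟩
  · apply qExpand_injective N
    rw [← eps_eval₂, ← hP, ← coeff_map, ← coeff_map, hq]
  · apply qExpand_injective N
    rw [← Polynomial.eval_map_apply, hq, ← eps_jNN, Polynomial.eval_map_apply, h0, map_zero,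
      map_zero]

theorem isIntegralElem_Zb : (evJ Zb).IsIntegralElem (qExpand Zb N (jqModC Zb)) := by
  obtain ⟨q, hq, hc, h0⟩ := exists_monic_L N
  let _ : Algebra ℤ[X] (LaurentSeries Zb) := (evJ Zb).toAlgebra
  show IsIntegral ℤ[X] _
  have hj : IsIntegral ℤ[X] (jqModC Zb) := by
    rw [← evJ_X]; exact isIntegral_algebraMap
  have hC : ∀ c : Zb, IsIntegral ℤ[X] (HahnSeries.C c : LaurentSeries Zb) := fun c => by
    have h1 : IsIntegral ℤ c := Algebra.IsIntegral.isIntegral c
    obtain ⟨g, hg, hg0⟩ := h1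
    refine ⟨g.map Polynomial.C, hg.map _, ?_⟩
    rw [Polynomial.eval₂_map, Subsingleton.elim ((algebraMap ℤ[X] (LaurentSeries Zb)).comp
      Polynomial.C) ((HahnSeries.C : Zb →+* LaurentSeries Zb).comp (algebraMap ℤ Zb)),
      ← Polynomial.hom_eval₂, hg0, map_zero]
  have hP : ∀ P : Zb[X], IsIntegral ℤ[X] (P.eval₂ HahnSeries.C (jqModC Zb)) := fun P => by
    rw [Polynomial.eval₂_eq_sum_range]
    exact IsIntegral.sum _ fun i _ => (hC _).mul (hj.pow i)
  have hl : q ∈ Polynomial.lifts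
      (algebraMap (integralClosure ℤ[X] (LaurentSeries Zb)) (LaurentSeries Zb)) := by
    rw [Polynomial.lifts_iff_coeff_lifts]
    intro n
    obtain ⟨P, hP'⟩ := hc n
    exact ⟨⟨_, hP P⟩, hP'.symm⟩
  obtain ⟨q', hq', -, hm⟩ := Polynomial.lifts_and_natDegree_eq_and_monic hl hq
  have h3 : IsIntegral (integralClosure ℤ[X] (LaurentSeries Zb)) (qExpand Zb N (jqModC Zb)) :=
    ⟨q', hm, by rw [← Polynomial.eval_map, hq', h0]⟩
  exact isIntegral_trans _ h3

end IntAux

open IntAux in
/-- `j(q^N)` is integral over `ℤ[j]` -/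
theorem exists_monic_jqN (N : ℕ) [NeZero N] : ∃ H : Polynomial (Polynomial ℤ), H.Monic ∧
    H.eval₂ ModularCurve.evalAtJ (ModularCurve.jqN N) = 0 := by
  obtain ⟨H, hH, h0⟩ := isIntegralElem_Zb N
  refine ⟨H, hH, ?_⟩
  have h1 : H.eval₂ (evJ ℤ) (qExpand ℤ N (jqModC ℤ)) = 0 := by
    apply coeffMap_injective (Int.castRingHom Zb) (RingHom.injective_int _)
    rw [coeffMap_eval₂, h0, map_zero]
  have h2 := coeffMap_eval₂ (Int.castRingHom ℚ) N H
  rw [h1, map_zero, evJ_rat] at h2
  exact h2.symm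

end Fermat.Agent.S28
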