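import Mathlib

set_option autoImplicit false

open scoped MatrixGroups

namespace Fermat.Agent.S28

namespace GroupAux

open ModularGroup

/-- the lower unipotent matrices -/
def Lm (n : ℤ) : SL(2, ℤ) := ⟨!![1, 0; n, 1], by simp [Matrix.det_fin_two]⟩

lemma Lm_coe (n : ℤ) : (Lm n : Matrix (Fin 2) (Fin 2) ℤ) = !![1, 0; n, 1] := rfl

lemma Lm_add (m n : ℤ) : Lm (m + n) = Lm m * Lm n := by
  rw [Matrix.SpecialLinearGroup.ext_iff]
  intro i j
  rw [Matrix.SpecialLinearGroup.coe_mul, Lm_coe, Lm_coe, Lm_coe]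
  fin_cases i <;> fin_cases j <;> simp [Matrix.mul_apply, Fin.sum_univ_two]

lemma Lm_zero : Lm 0 = 1 := by
  rw [Matrix.SpecialLinearGroup.ext_iff]
  intro i j
  rw [Lm_coe, Matrix.SpecialLinearGroup.coe_one]
  fin_cases i <;> fin_cases j <;> simp

lemma Lm_neg (n : ℤ) : Lm (-n) = (Lm n)⁻¹ :=
  eq_inv_of_mul_eq_one_left (by rw [← Lm_add]; simp [Lm_zero])

/-- the conjugate `g T^k g⁻¹` -/
def Xm (a c k : ℤ) : SL(2, ℤ) :=
  ⟨!![1 - k * a * c, k * a ^ 2; -(k * c ^ 2), 1 + k * a * c], by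
    simp only [Matrix.det_fin_two_of]; ring⟩

lemma Xm_coe (a c k : ℤ) : (Xm a c k : Matrix (Fin 2) (Fin 2) ℤ) =
    !![1 - k * a * c, k * a ^ 2; -(k * c ^ 2), 1 + k * a * c] := rfl

lemma Xm_eq (g : SL(2, ℤ)) (k : ℤ) : Xm (g 0 0) (g 1 0) k = g * T ^ k * g⁻¹ := by
  apply eq_mul_inv_of_mul_eq
  have hdet : g 0 0 * g 1 1 - g 0 1 * g 1 0 = 1 := by
    have := g.det_coe
    rwa [Matrix.det_fin_two] at this
  rw [Matrix.SpecialLinearGroup.ext_iff]
  intro i j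
  rw [Matrix.SpecialLinearGroup.coe_mul, Matrix.SpecialLinearGroup.coe_mul, Xm_coe, coe_T_zpow,
    Matrix.mul_apply, Matrix.mul_apply, Fin.sum_univ_two, Fin.sum_univ_two]
  fin_cases i <;> fin_cases j <;> simp
  · ring
  · linear_combination (k * g 0 0) * hdet
  · ring
  · linear_combination (k * g 1 0) * hdet

lemma Xm_mul_Lm_mem (N : ℕ) (a c k : ℤ) (hk : (N : ℤ) ∣ k * a) :
    Xm a c k * Lm (k * c ^ 2) ∈ CongruenceSubgroup.Gamma N := by
  rw [CongruenceSubgroup.Gamma_mem]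
  obtain ⟨t, ht⟩ := hk
  have hz : ∀ z : ℤ, ((k * a * z : ℤ) : ZMod N) = 0 := by
    intro z
    rw [ht]; push_cast; simp
  rw [Matrix.SpecialLinearGroup.coe_mul, Xm_coe, Lm_coe, Matrix.mul_fin_two]
  simp only [Matrix.of_apply, Matrix.cons_val_zero, Matrix.cons_val_one, Matrix.cons_val',
    Matrix.cons_val_fin_one]
  refine ⟨?_, ?_, ?_, ?_⟩
  · have h1 : (1 - k * a * c) * 1 + k * a ^ 2 * (k * c ^ 2)
        = 1 + k * a * (-c + a * k * c ^ 2) := by ring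
    rw [h1, Int.cast_add, hz, Int.cast_one, add_zero]
  · have h1 : (1 - k * a * c) * 0 + k * a ^ 2 * 1 = k * a * a := by ring
    rw [h1]; exact hz a
  · have h1 : -(k * c ^ 2) * 1 + (1 + k * a * c) * (k * c ^ 2) = k * a * (k * c ^ 3) := by ring
    rw [h1]; exact hz _
  · have h1 : -(k * c ^ 2) * 0 + (1 + k * a * c) * 1 = 1 + k * a * c := by ring
    rw [h1, Int.cast_add, hz, Int.cast_one, add_zero]

lemma T_zpow_mul_zero_zero (n : ℤ) (g : SL(2, ℤ)) : (T ^ n * g) 0 0 = g 0 0 + n * g 1 0 := by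
  rw [Matrix.SpecialLinearGroup.coe_mul, coe_T_zpow]
  simp [Matrix.mul_apply, Fin.sum_univ_two]

lemma T_zpow_mul_one_zero (n : ℤ) (g : SL(2, ℤ)) : (T ^ n * g) 1 0 = g 1 0 := by
  rw [Matrix.SpecialLinearGroup.coe_mul, coe_T_zpow]
  simp [Matrix.mul_apply, Fin.sum_univ_two]

lemma S_eq : S = T⁻¹ * Lm 1 * T⁻¹ := by
  rw [Matrix.SpecialLinearGroup.ext_iff]
  intro i j
  rw [Matrix.SpecialLinearGroup.coe_mul, Matrix.SpecialLinearGroup.coe_mul, coe_T_inv, Lm_coe,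
    coe_S, Matrix.mul_fin_two, Matrix.mul_fin_two]
  fin_cases i <;> fin_cases j <;> simp

lemma Lm_natCast_mem (N : ℕ) : Lm (N : ℤ) ∈ CongruenceSubgroup.Gamma N := by
  rw [CongruenceSubgroup.Gamma_mem, Lm_coe]
  simp

end GroupAux

open GroupAux ModularGroup

/-- KEY/C. A subgroup of `SL(2,ℤ)` containing `T`, `Γ(N)` and, for each prime `r ∣ N`, an element
whose lower left entry is prime to `r`, is everything. -/
theorem eq_top_of_T_mem (N : ℕ) [NeZero N] (D : Subgroup SL(2, ℤ)) (hT : ModularGroup.T ∈ D)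
    (hΓ : CongruenceSubgroup.Gamma N ≤ D)
    (hr : ∀ r : ℕ, r.Prime → r ∣ N → ∃ g ∈ D, ¬ ((r : ℤ) ∣ g 1 0)) : D = ⊤ := by
  -- step A
  have stepA : ∀ g ∈ D, ∀ k : ℤ, (N : ℤ) ∣ k * g 0 0 → Lm (k * (g 1 0) ^ 2) ∈ D := by
    intro g hg k hk
    have hX : Xm (g 0 0) (g 1 0) k ∈ D := by
      rw [Xm_eq]
      exact D.mul_mem (D.mul_mem hg (D.zpow_mem hT k)) (D.inv_mem hg)
    have hY : Xm (g 0 0) (g 1 0) k * Lm (k * (g 1 0) ^ 2) ∈ D := hΓ (Xm_mul_Lm_mem N _ _ _ hk)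
    have := D.mul_mem (D.inv_mem hX) hY
    rwa [inv_mul_cancel_left] at this
  -- the subgroup of exponents
  let H : AddSubgroup ℤ :=
    { carrier := {n | Lm n ∈ D}
      add_mem' := fun {a b} ha hb => by
        show Lm (a + b) ∈ D
        rw [Lm_add]; exact D.mul_mem ha hb
      zero_mem' := by
        show Lm 0 ∈ D
        rw [Lm_zero]; exact D.one_mem
      neg_mem' := fun {a} ha => by
        show Lm (-a) ∈ D
        rw [Lm_neg]; exact D.inv_mem ha }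
  let I : Ideal ℤ := AddSubgroup.toIntSubmodule H
  have hI : ∀ n : ℤ, n ∈ I ↔ Lm n ∈ D := fun n => Iff.rfl
  have hN : (N : ℤ) ∈ I := (hI _).mpr (hΓ (Lm_natCast_mem N))
  have hItop : I = ⊤ := by
    by_contra hne
    obtain ⟨M, hM, hIM⟩ := Ideal.exists_le_maximal I hne
    have hN0 : (N : ℤ) ≠ 0 := by exact_mod_cast NeZero.ne N
    have hMbot : M ≠ ⊥ := by
      intro h
      have := hIM hN
      rw [h, Ideal.mem_bot] at this
      exact hN0 this
    have hπ := Submodule.IsPrincipal.prime_generator_of_isPrime M hMbot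
    set π := Submodule.IsPrincipal.generator M with hπdef
    have hmem : ∀ z : ℤ, z ∈ M ↔ π ∣ z := fun z => Submodule.IsPrincipal.mem_iff_generator_dvd M
    set r := π.natAbs with hrdef
    have hrp : r.Prime := Int.prime_iff_natAbs_prime.mp hπ
    have hrπ : ∀ z : ℤ, π ∣ z ↔ (r : ℤ) ∣ z := fun z => by
      rw [hrdef, Int.natAbs_dvd]
    have hrN : r ∣ N := by
      have := (hrπ _).mp ((hmem _).mp (hIM hN))
      exact_mod_cast this
    obtain ⟨g, hg, hgc⟩ := hr r hrp hrN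
    obtain ⟨e, N', hN', hNe⟩ := Nat.exists_eq_pow_mul_and_not_dvd (NeZero.ne N) r hrp.ne_one
    have hrZ : Prime (r : ℤ) := Nat.prime_iff_prime_int.mp hrp
    have hcop : IsCoprime (g 1 0) ((r : ℤ) ^ e) :=
      ((hrZ.coprime_iff_not_dvd.mpr hgc).symm).pow_right
    obtain ⟨u, w, huw⟩ := hcop
    -- `g' = T^(-m) g`
    set m : ℤ := g 0 0 * u with hm
    have hg'D : T ^ (-m) * g ∈ D := D.mul_mem (D.zpow_mem hT _) hg
    have hdiv : (N : ℤ) ∣ (N' : ℤ) * (T ^ (-m) * g) 0 0 := by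
      rw [T_zpow_mul_zero_zero, hm, hNe]
      refine ⟨g 0 0 * w, ?_⟩
      push_cast
      linear_combination (-(N' : ℤ) * g 0 0) * huw
    have h1 := stepA _ hg'D N' hdiv
    rw [T_zpow_mul_one_zero] at h1
    have h2 : (r : ℤ) ∣ (N' : ℤ) * (g 1 0) ^ 2 := (hrπ _).mp ((hmem _).mp (hIM ((hI _).mpr h1)))
    rcases hrZ.dvd_or_dvd h2 with h3 | h3
    · exact hN' (by exact_mod_cast h3)
    · exact hgc (hrZ.dvd_of_dvd_pow h3)
  have hL : Lm 1 ∈ D := by
    rw [← hI, hItop]; trivial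
  have hS : S ∈ D := by
    rw [S_eq]
    exact D.mul_mem (D.mul_mem (D.inv_mem hT) hL) (D.inv_mem hT)
  rw [eq_top_iff, ← _root_.SpecialLinearGroup.SL2Z_generators, Subgroup.closure_le]
  intro x hx
  rcases hx with rfl | rfl
  · exact hS
  · exact hT

end Fermat.Agent.S28
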