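import Mathlib

set_option autoImplicit false

open Polynomial

namespace Fermat.Agent.S28

theorem coeff_zero_aeval_of_order_pos {k : Type*} [Field k] (y : LaurentSeries k)
    (hy : 0 < y.order) (g : k[X]) : (aeval y g).coeff 0 = g.coeff 0 := by
  induction g using Polynomial.induction_on' with
  | add p q hp hq => rw [map_add, HahnSeries.coeff_add, hp, hq, coeff_add]
  | monomial n a =>
    have e : (algebraMap k (LaurentSeries k) a * y ^ n).coeff 0 = a * (y ^ n).coeff 0 := by
      have e0 : algebraMap k (LaurentSeries k) a = HahnSeries.C a := by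
        rw [HahnSeries.algebraMap_apply', ← PowerSeries.C_eq_algebraMap,
          HahnSeries.ofPowerSeries_C]
      rw [e0, HahnSeries.C_mul_eq_smul]
      rfl
    rw [aeval_monomial, e, coeff_monomial]
    rcases Nat.eq_zero_or_pos n with rfl | hn
    · simp
    · have h1 : (0 : ℤ) < (y ^ n).order := by
        rw [HahnSeries.order_pow]
        exact nsmul_pos hy hn.ne'
      rw [HahnSeries.coeff_eq_zero_of_lt_order h1, if_neg hn.ne']
      simp

theorem aeval_ne_zero_and_order_le {k : Type*} [Field k] (J : LaurentSeries k)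
    (hJ : J.order < 0) (h : k[X]) (hh : h ≠ 0) : aeval J h ≠ 0 ∧ (aeval J h).order ≤ 0 := by
  have hJ0 : J ≠ 0 := by
    rintro rfl
    simp at hJ
  have hy : 0 < (J⁻¹).order := by
    have h1 : (J * J⁻¹).order = J.order + (J⁻¹).order :=
      HahnSeries.order_mul hJ0 (inv_ne_zero hJ0)
    rw [mul_inv_cancel₀ hJ0, HahnSeries.order_one] at h1
    omega
  let _ : Invertible J := invertibleOfNonzero hJ0
  have e : aeval J h = aeval J⁻¹ (reverse h) * J ^ h.natDegree := by
    have := eval₂_reverse_mul_pow (algebraMap k (LaurentSeries k)) J h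
    rw [invOf_eq_inv] at this
    exact this.symm
  have hc : (aeval J⁻¹ (reverse h)).coeff 0 ≠ 0 := by
    rw [coeff_zero_aeval_of_order_pos _ hy, coeff_zero_reverse]
    exact leadingCoeff_ne_zero.mpr hh
  have hz : aeval J⁻¹ (reverse h) ≠ 0 := by
    intro h0
    rw [h0] at hc
    simp at hc
  have ho : (aeval J⁻¹ (reverse h)).order ≤ 0 := HahnSeries.order_le_of_coeff_ne_zero hc
  refine ⟨by rw [e]; exact mul_ne_zero hz (pow_ne_zero _ hJ0), ?_⟩
  rw [e, HahnSeries.order_mul hz (pow_ne_zero _ hJ0), HahnSeries.order_pow]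
  have : h.natDegree • J.order ≤ 0 := by
    rw [nsmul_eq_mul]
    exact mul_nonpos_of_nonneg_of_nonpos (by positivity) hJ.le
  omega

/-- KEY/L. Over a field `k`: let `J` be a Laurent series of negative order and `w ≠ 0` one of
positive order. Then `w` cannot be integral over `k[J]` with a power in `k(J)`. -/
theorem false_of_integral_of_pow_mem {k : Type*} [Field k] (J w : LaurentSeries k)
    (hJ : J.order < 0) (hw0 : w ≠ 0) (hw : 0 < w.order)
    (p : k[X][X]) (hp : p.Monic) (hpw : (p.map (aeval J).toRingHom).eval w = 0)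
    (m : ℕ) (hm : 0 < m) (a c : k[X]) (hc : c ≠ 0) (h : aeval J c * w ^ m = aeval J a) : False := by
  set φ : k[X] →+* LaurentSeries k := (aeval J).toRingHom with hφ
  have hinj : Function.Injective φ := by
    rw [injective_iff_map_eq_zero]
    intro x hx
    by_contra hx0
    exact (aeval_ne_zero_and_order_le J hJ x hx0).1 hx
  let ψ : FractionRing k[X] →+* LaurentSeries k := IsFractionRing.lift hinj
  have hψ : ∀ x : k[X], ψ (algebraMap k[X] (FractionRing k[X]) x) = φ x :=
    fun x => IsFractionRing.lift_algebraMap hinj x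
  have hcomp : ψ.comp (algebraMap k[X] (FractionRing k[X])) = φ := RingHom.ext hψ
  have hwint : φ.IsIntegralElem w := ⟨p, hp, by rw [eval₂_eq_eval_map]; exact hpw⟩
  have hwm : φ.IsIntegralElem (w ^ m) := by
    clear h hm
    induction m with
    | zero => rw [pow_zero, ← map_one φ]; exact φ.isIntegralElem_map
    | succ n ih => rw [pow_succ]; exact ih.mul φ hwint
  have hφc : φ c ≠ 0 := (aeval_ne_zero_and_order_le J hJ c hc).1
  set x : FractionRing k[X] := algebraMap k[X] _ a / algebraMap k[X] _ c with hx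
  have hψx : ψ x = w ^ m := by
    rw [hx, map_div₀, hψ, hψ, div_eq_iff hφc, mul_comm]
    exact h.symm
  have hxint : IsIntegral k[X] x := by
    obtain ⟨P, hP, hPe⟩ := hwm
    refine ⟨P, hP, ?_⟩
    apply ψ.injective
    rw [map_zero, hom_eval₂, hcomp, hψx]
    exact hPe
  obtain ⟨y, hy⟩ := IsIntegrallyClosed.isIntegral_iff.mp hxint
  have hwy : w ^ m = φ y := by rw [← hψx, ← hy, hψ]
  have hy0 : y ≠ 0 := by
    rintro rfl
    rw [map_zero] at hwy
    exact pow_ne_zero m hw0 hwy
  have h1 := (aeval_ne_zero_and_order_le J hJ y hy0).2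
  have h2 : (0 : ℤ) < (w ^ m).order := by
    rw [HahnSeries.order_pow]
    exact nsmul_pos hw hm.ne'
  rw [hwy] at h2
  exact absurd h1 (not_le.mpr h2)

end Fermat.Agent.S28
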