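import Fermat.Agent.S28.Invariants
import Fermat.Agent.S28.Group
import Fermat.Agent.S28.Stab
import Fermat.Agent.S28.LaurentLemma
import Fermat.Prelude.Def_ModularCurve_X0ModL

set_option autoImplicit false

open UpperHalfPlane ModularForm EisensteinSeries ModularCurve Polynomial
open scoped MatrixGroups Manifold Real

noncomputable section

namespace Fermat.Agent.S28

open Fermat.Agent.S24 Fermat.Agent.S24.MerAux

variable (N : ℕ) [NeZero N] {Fb : Type} [Field Fb] (φ : Zb →+* Fb)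

/-- expansion at infinity, reduced -/
def red : AL N →+* LaurentSeries Fb := (coeffMap φ).comp (eps N)

theorem red_coeff (f : AL N) (n : ℤ) : (red N φ f).coeff n = φ ((eps N f).coeff n) := rfl

/-- the prime of `AL N` -/
def Pr : Ideal (AL N) := RingHom.ker (red N φ)

instance : (Pr N φ).IsPrime := RingHom.ker_isPrime _

theorem mem_Pr {f : AL N} : f ∈ Pr N φ ↔ red N φ f = 0 := RingHom.mem_ker

/-- the decomposition group -/
def Dec : Subgroup SL(2, ℤ) where
  carrier := {g | ∀ b : AL N, b ∈ Pr N φ ↔ g • b ∈ Pr N φ}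
  mul_mem' := fun {g h} hg hh b => by rw [mul_smul, ← hg, ← hh]
  one_mem' := fun b => by rw [one_smul]
  inv_mem' := fun {g} hg b => by rw [hg (g⁻¹ • b), smul_inv_smul]

theorem mem_Dec {g : SL(2, ℤ)} : g ∈ Dec N φ ↔ ∀ b : AL N, b ∈ Pr N φ ↔ g • b ∈ Pr N φ := Iff.rfl

theorem Gamma_le_Dec : CongruenceSubgroup.Gamma N ≤ Dec N φ := fun γ hγ b => by
  rw [smul_eq_of_mem_Gamma N hγ]

theorem exp_mem_Zb (n : ℤ) :
    Complex.exp (-(2 * π * Complex.I * n / N)) ∈ integralClosure ℤ ℂ := by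
  have hN : (N : ℂ) ≠ 0 := by exact_mod_cast NeZero.ne N
  refine IsIntegral.of_pow (n := N) (Nat.pos_of_ne_zero (NeZero.ne N)) ?_
  rw [← Complex.exp_nat_mul]
  have : (N : ℂ) * -(2 * π * Complex.I * n / N) = (-n : ℤ) * (2 * π * Complex.I) := by
    field_simp
    push_cast
    ring
  rw [this, Complex.exp_int_mul_two_pi_mul_I]
  exact isIntegral_one

theorem T_mem_Dec : ModularGroup.T ∈ Dec N φ := by
  have key : ∀ (f : AL N) (n : ℤ), ∃ z w : Zb, z * w = 1 ∧
      (eps N (ModularGroup.T • f)).coeff n = z * (eps N f).coeff n := by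
    intro f n
    refine ⟨⟨_, exp_mem_Zb N n⟩, ⟨_, exp_mem_Zb N (-n)⟩, ?_, ?_⟩
    · apply Subtype.ext
      simp only [MulMemClass.coe_mul, OneMemClass.coe_one]
      rw [← Complex.exp_add]
      push_cast
      rw [show -(2 * (π : ℂ) * Complex.I * n / N) + -(2 * π * Complex.I * -n / N) = 0 by ring,
        Complex.exp_zero]
    · apply Subtype.ext
      rw [coeff_eps_T_smul]
      rfl
  intro b
  rw [mem_Pr, mem_Pr]
  constructor
  · intro h
    ext n
    obtain ⟨z, w, -, h2⟩ := key b n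
    have h3 := congrArg (fun s => s.coeff n) h
    simp only [red_coeff, HahnSeries.coeff_zero] at h3
    rw [red_coeff, h2, map_mul, h3, mul_zero, HahnSeries.coeff_zero]
  · intro h
    ext n
    obtain ⟨z, w, h1, h2⟩ := key b n
    have h3 := congrArg (fun s => s.coeff n) h
    simp only [red_coeff, HahnSeries.coeff_zero] at h3
    rw [h2, map_mul] at h3
    have h4 : φ z ≠ 0 := by
      intro h0
      have := congrArg φ h1
      rw [map_mul, h0, zero_mul, map_one] at this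
      exact zero_ne_one this
    rw [red_coeff, HahnSeries.coeff_zero]
    exact (mul_eq_zero.mp h3).resolve_left h4

/-- `j` reduced -/
theorem red_jA (M : ℕ) [NeZero M] (hM : M ∣ N) :
    red N φ (jA N M hM) = qExpand Fb (N * M) (jqModC Fb) := by
  rw [red, RingHom.comp_apply, eps_jA, coeffMap_qExpand, coeffMap_jqModC]

theorem red_cA (c : Zb) : red N φ (cA N c) = HahnSeries.C (φ c) := by
  rw [red, RingHom.comp_apply, eps_cA]
  ext n
  rw [coeffMap_coeff, HahnSeries.C_apply, HahnSeries.C_apply, HahnSeries.coeff_single,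
    HahnSeries.coeff_single, apply_ite φ, map_zero]

/-- the reduction of `j` in the variable `q_N` -/
abbrev Jb : LaurentSeries Fb := qExpand Fb (N * 1) (jqModC Fb)

theorem red_eval₂ (P : Zb[X]) :
    red N φ (P.eval₂ (cA N) (jA N 1 (one_dvd N))) = aeval (Jb N (Fb := Fb)) (P.map φ) := by
  rw [Polynomial.hom_eval₂, red_jA, aeval_def, eval₂_map]
  congr 1
  ext c : 1
  rw [RingHom.comp_apply, RingHom.comp_apply, red_cA, algebraMap_laurentSeries_eq_single]
  rfl

theorem order_Jb_neg : (Jb N (Fb := Fb)).order < 0 := by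
  have h1 : (Jb N (Fb := Fb)).coeff (((N * 1 : ℕ) : ℤ) * (-1)) = 1 := by
    rw [qExpand_coeff_mul, coeff_jqModC_neg_one]
  have h2 := HahnSeries.order_le_of_coeff_ne_zero (x := Jb N (Fb := Fb))
    (g := ((N * 1 : ℕ) : ℤ) * (-1)) (by rw [h1]; exact one_ne_zero)
  have h3 : 0 < N := Nat.pos_of_ne_zero (NeZero.ne N)
  push_cast at h2
  omega

theorem exists_mem_Dec_not_dvd (r : ℕ) (hr : r.Prime) (hrN : r ∣ N) (hφr : φ (r : Zb) ≠ 0) :
    ∃ g ∈ Dec N φ, ¬ ((r : ℤ) ∣ g 1 0) := by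
  by_contra! hcon
  haveI : NeZero r := ⟨hr.ne_zero⟩
  haveI := CongruenceSubgroup.Gamma_normal N
  have hK : ∀ k ∈ CongruenceSubgroup.Gamma N, ∀ b : AL N, k • b = b :=
    fun k hk b => smul_eq_of_mem_Gamma N hk b
  have hu : ∀ g : SL(2, ℤ), (∀ b : AL N, b ∈ Pr N φ ↔ g • b ∈ Pr N φ) →
      g • uA N r hrN = uA N r hrN := fun g hg => smul_uA N r hrN g (hcon g hg)
  obtain ⟨m, a, c, hm, ha, hc, hcQ, hrel⟩ :=
    exists_pow_mul_sub_mem (CongruenceSubgroup.Gamma N) hK (Pr N φ) (uA N r hrN) hu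
  obtain ⟨Pa, rfl⟩ := exists_poly_of_invariant N a ha
  obtain ⟨Pc, rfl⟩ := exists_poly_of_invariant N c hc
  obtain ⟨p, hpm, hpinv, hpu⟩ :=
    exists_monic_invariant (CongruenceSubgroup.Gamma N) hK (uA N r hrN)
  choose Pn hPn using fun n => exists_poly_of_invariant N (p.coeff n) (hpinv n)
  set w : LaurentSeries Fb := red N φ (uA N r hrN) with hw
  -- order of `w`
  obtain ⟨hu1, hu2⟩ := coeff_eps_uA N r hrN
  have hwc : w.coeff ((N : ℤ) * (r - 1)) ≠ 0 := by
    rw [hw, red_coeff, hu1, map_pow]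
    exact pow_ne_zero _ hφr
  have hw0 : w ≠ 0 := fun h => hwc (by rw [h, HahnSeries.coeff_zero])
  have hNr : 0 < (N : ℤ) * (r - 1) := by
    have h1 : 0 < (N : ℤ) := by exact_mod_cast Nat.pos_of_ne_zero (NeZero.ne N)
    have h2 : (1 : ℤ) < r := by exact_mod_cast hr.one_lt
    exact mul_pos h1 (by omega)
  have hword : 0 < w.order := by
    refine lt_of_lt_of_le hNr ((HahnSeries.le_order_iff_forall hw0).mpr fun j hj => ?_)
    rw [hw, red_coeff, hu2 j hj, map_zero]
  -- the relation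
  have hrel' : aeval (Jb N (Fb := Fb)) (Pc.map φ) * w ^ m = aeval (Jb N (Fb := Fb)) (Pa.map φ) := by
    have := (mem_Pr N φ).mp hrel
    rw [map_sub, map_mul, map_pow, red_eval₂, red_eval₂, sub_eq_zero] at this
    exact this
  have hc0 : Pc.map φ ≠ 0 := by
    intro h0
    apply hcQ
    rw [mem_Pr, red_eval₂, h0, map_zero]
  -- integrality
  let p' : Fb[X][X] := X ^ p.natDegree + ∑ n ∈ Finset.range p.natDegree, C ((Pn n).map φ) * X ^ n
  have hp'm : p'.Monic := by
    apply Polynomial.monic_X_pow_add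
    refine (Polynomial.degree_sum_le _ _).trans_lt ?_
    rw [Finset.sup_lt_iff (by exact WithBot.bot_lt_coe _)]
    intro n hn
    exact (Polynomial.degree_C_mul_X_pow_le _ _).trans_lt
      (by exact_mod_cast Finset.mem_range.mp hn)
  have hp'w : (p'.map (aeval (Jb N (Fb := Fb))).toRingHom).eval w = 0 := by
    have h1 := congrArg (red N φ) hpu
    rw [map_zero, hpm.as_sum, eval_add, eval_pow, eval_X, eval_finsetSum, map_add, map_pow,
      map_sum] at h1
    simp only [p', Polynomial.map_add, Polynomial.map_pow, Polynomial.map_X, Polynomial.map_sum,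
      Polynomial.map_mul, Polynomial.map_C, eval_add, eval_pow, eval_X, eval_finsetSum, eval_mul,
      eval_C]
    rw [← h1]
    congr 1
    refine Finset.sum_congr rfl fun n _ => ?_
    rw [eval_mul, eval_C, eval_pow, eval_X, map_mul, map_pow]
    congr 1
    conv_rhs => rw [hPn n]
    rw [red_eval₂]
    rfl
  exact false_of_integral_of_pow_mem (Jb N (Fb := Fb)) w (order_Jb_neg N) hw0 hword p' hp'm hp'w
    m hm (Pa.map φ) (Pc.map φ) hc0 hrel'

theorem Dec_eq_top (hφ : ∀ r : ℕ, r.Prime → r ∣ N → φ (r : Zb) ≠ 0) : Dec N φ = ⊤ :=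
  eq_top_of_T_mem N (Dec N φ) (T_mem_Dec N φ) (Gamma_le_Dec N φ)
    fun r hr hrN => exists_mem_Dec_not_dvd N φ r hr hrN (hφ r hr hrN)

theorem smul_mem_Pr (hφ : ∀ r : ℕ, r.Prime → r ∣ N → φ (r : Zb) ≠ 0) (g : SL(2, ℤ)) {f : AL N}
    (hf : f ∈ Pr N φ) : g • f ∈ Pr N φ := by
  have hg : g ∈ Dec N φ := by rw [Dec_eq_top N φ hφ]; trivial
  exact (hg f).mp hf

/-- the conjugates of `j(Nz)`, reduced, indexed by cosets -/
def rootOf (q : QN N) : LaurentSeries Fb := red N φ (q.out • jA N N dvd_rfl)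

theorem smul_jA_of_mem_Gamma0 {g : SL(2, ℤ)} (hg : g ∈ CongruenceSubgroup.Gamma0 N) :
    g • jA N N dvd_rfl = jA N N dvd_rfl :=
  Subtype.ext (holAct_jHd N N dvd_rfl hg)

theorem rootOf_injective (hφ : ∀ r : ℕ, r.Prime → r ∣ N → φ (r : Zb) ≠ 0) :
    Function.Injective (rootOf N φ) := by
  intro q q' h
  have h1 : q.out • jA N N dvd_rfl - q'.out • jA N N dvd_rfl ∈ Pr N φ := by
    rw [mem_Pr, map_sub, sub_eq_zero]; exact h
  have h2 := smul_mem_Pr N φ hφ (q.out)⁻¹ h1
  rw [smul_sub, inv_smul_smul, ← mul_smul, mem_Pr, map_sub, sub_eq_zero] at h2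
  rcases smul_jA_eq_or N ((q.out)⁻¹ * q'.out) with h3 | h3
  · have h4 : (q.out)⁻¹ * q'.out ∈ CongruenceSubgroup.Gamma0 N :=
      mem_Gamma0_of_holAct N (congrArg Subtype.val h3)
    rw [← q.out_eq, ← q'.out_eq]
    exact QuotientGroup.eq.mpr h4
  · exfalso
    have h5 := congrArg (fun s => s.coeff (-((N : ℤ) * N))) h2
    simp only [red_coeff, h3, map_zero] at h5
    rw [← red_coeff, red_jA] at h5
    have h6 : (qExpand Fb (N * N) (jqModC Fb)).coeff (((N * N : ℕ) : ℤ) * (-1)) = 1 := by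
      rw [qExpand_coeff_mul, coeff_jqModC_neg_one]
    rw [show -((N : ℤ) * N) = ((N * N : ℕ) : ℤ) * (-1) by push_cast; ring, h6] at h5
    exact one_ne_zero h5

/-- a polynomial relation between `j` and `j_N` modulo the prime, of degree `< ψ(N)`, is trivial -/
theorem coeff_eq_zero_of_relation (hφ : ∀ r : ℕ, r.Prime → r ∣ N → φ (r : Zb) ≠ 0)
    (P : Fin (Nat.card (QN N)) → Zb[X])
    (h : ∑ i, (P i).eval₂ (cA N) (jA N 1 (one_dvd N)) * jA N N dvd_rfl ^ (i : ℕ) ∈ Pr N φ)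
    (i : Fin (Nat.card (QN N))) : (P i).map φ = 0 := by
  haveI : Finite (QN N) := Subgroup.finite_quotient_of_finiteIndex
  haveI : Fintype (QN N) := Fintype.ofFinite _
  let H : (LaurentSeries Fb)[X] :=
    ∑ i : Fin (Nat.card (QN N)), C (aeval (Jb N (Fb := Fb)) ((P i).map φ)) * X ^ (i : ℕ)
  have hroot : ∀ q : QN N, H.eval (rootOf N φ q) = 0 := by
    intro q
    have h1 := (mem_Pr N φ).mp (smul_mem_Pr N φ hφ q.out h)
    rw [Finset.smul_sum, map_sum] at h1
    simp only [H, eval_finsetSum, eval_mul, eval_C, eval_pow, eval_X]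
    rw [← h1]
    refine Finset.sum_congr rfl fun i _ => ?_
    rw [smul_mul', smul_pow', map_mul, map_pow]
    congr 1
    have h2 : q.out • (P i).eval₂ (cA N) (jA N 1 (one_dvd N)) =
        (P i).eval₂ (cA N) (jA N 1 (one_dvd N)) := by
      have := Polynomial.hom_eval₂ (P i) (cA N) (MulSemiringAction.toRingHom SL(2, ℤ) (AL N) q.out)
        (jA N 1 (one_dvd N))
      simp only [MulSemiringAction.toRingHom_apply] at this
      have hcomp : (MulSemiringAction.toRingHom SL(2, ℤ) (AL N) q.out).comp (cA N) = cA N :=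
        RingHom.ext fun c => smul_cA N q.out c
      rw [this, smul_jA_one, hcomp]
    rw [h2, red_eval₂]
  have hdeg : H.natDegree < Fintype.card (QN N) := by
    have hpos : 0 < Nat.card (QN N) := Nat.card_pos
    have h1 := Polynomial.degree_sum_fin_lt
      (fun i : Fin (Nat.card (QN N)) => aeval (Jb N (Fb := Fb)) ((P i).map φ))
    rw [← Nat.card_eq_fintype_card]
    by_cases hH : H = 0
    · rw [hH, natDegree_zero]; exact hpos
    · exact (Polynomial.natDegree_lt_iff_degree_lt hH).mpr h1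
  have hH : H = 0 := Polynomial.eq_zero_of_natDegree_lt_card_of_eval_eq_zero H
    (rootOf_injective N φ hφ) hroot hdeg
  have hci : H.coeff (i : ℕ) = aeval (Jb N (Fb := Fb)) ((P i).map φ) := by
    simp only [H, finsetSum_coeff, coeff_C_mul, coeff_X_pow]
    rw [Finset.sum_eq_single i]
    · simp
    · intro b _ hb
      have : (i : ℕ) ≠ (b : ℕ) := fun h => hb (Fin.ext h.symm)
      simp [this]
    · simp
  rw [hH, coeff_zero] at hci
  -- transcendence of `Jb`
  have htr : Transcendental Fb (jqModC Fb) :=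
    P2MW.S_ModularCurve_coeff_jqModC_neg_one.ModularCurve.CharLRows.transcendental_jqModC Fb
  have h3 : aeval (Jb N (Fb := Fb)) ((P i).map φ) =
      qExpandAlgHomC Fb (N * 1) (aeval (jqModC Fb) ((P i).map φ)) := by
    rw [← Polynomial.aeval_algHom_apply]; rfl
  rw [h3] at hci
  have h4 : aeval (jqModC Fb) ((P i).map φ) = 0 :=
    qExpand_injective (N * 1) (by rw [map_zero]; exact hci.symm)
  exact (transcendental_iff.mp htr) _ h4

theorem not_isUnit_natCast_Zb (l : ℕ) (hl : l.Prime) : ¬ IsUnit (l : Zb) := by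
  rintro ⟨u, hu⟩
  have h1 : ((u⁻¹ : Zbˣ) : Zb) * (l : Zb) = 1 := by rw [← hu]; exact u.inv_mul
  have h2 : (((u⁻¹ : Zbˣ) : Zb) : ℂ) * (l : ℂ) = 1 := by
    have := congrArg (fun x : Zb => (x : ℂ)) h1
    simpa using this
  have hl0 : (l : ℂ) ≠ 0 := by exact_mod_cast hl.ne_zero
  have h3 : (((u⁻¹ : Zbˣ) : Zb) : ℂ) = algebraMap ℚ ℂ ((l : ℚ)⁻¹) := by
    rw [eq_ratCast]; push_cast
    exact eq_inv_of_mul_eq_one_left h2
  have h4 : IsIntegral ℤ (algebraMap ℚ ℂ ((l : ℚ)⁻¹)) := h3 ▸ ((u⁻¹ : Zbˣ) : Zb).2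
  rw [isIntegral_algebraMap_iff (algebraMap ℚ ℂ).injective] at h4
  obtain ⟨n, hn⟩ := IsIntegrallyClosed.isIntegral_iff.mp h4
  have hlq : (l : ℚ) ≠ 0 := by exact_mod_cast hl.ne_zero
  have h5 : (n : ℚ) * l = 1 := by
    have : (algebraMap ℤ ℚ n) = (n : ℚ) := rfl
    rw [← this, hn, inv_mul_cancel₀ hlq]
  have h6 : n * (l : ℤ) = 1 := by exact_mod_cast h5
  have h7 : (l : ℤ) ∣ 1 := ⟨n, by rw [← h6]; ring⟩
  have h8 : l ∣ 1 := by exact_mod_cast h7
  exact hl.one_lt.ne' (Nat.dvd_one.mp h8)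

/-- **KEY**: `1, j_N, …, j_N^(ψ(N)-1)` are linearly independent over `𝔽_ℓ(j)`, if `ℓ ∤ N`. -/
theorem key (l : ℕ) [Fact l.Prime] (hlN : ¬ l ∣ N) (P : Fin (Nat.card (QN N)) → (ZMod l)[X])
    (hP : ∑ i, aeval (jqModC (ZMod l)) (P i) * (jqNModC (ZMod l) N) ^ (i : ℕ) = 0) :
    ∀ i, P i = 0 := by
  have hl : l.Prime := Fact.out
  obtain ⟨m, hm, hlm⟩ := Ideal.exists_le_maximal (Ideal.span {(l : Zb)})
    (by rw [Ne, Ideal.span_singleton_eq_top]; exact not_isUnit_natCast_Zb l hl)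
  letI : Field (Zb ⧸ m) := Ideal.Quotient.field m
  let φ : Zb →+* (Zb ⧸ m) := Ideal.Quotient.mk m
  have hφl : φ (l : Zb) = 0 :=
    Ideal.Quotient.eq_zero_iff_mem.mpr (hlm (Ideal.subset_span rfl))
  haveI : CharP (Zb ⧸ m) l := by
    have h1 : ((l : ℕ) : Zb ⧸ m) = 0 := by rw [← hφl, map_natCast]
    exact (CharP.charP_iff_prime_eq_zero hl).mpr h1
  have hφ : ∀ r : ℕ, r.Prime → r ∣ N → φ (r : Zb) ≠ 0 := by
    intro r hr hrN h0
    rw [map_natCast, CharP.cast_eq_zero_iff (Zb ⧸ m) l] at h0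
    exact hlN (((Nat.prime_dvd_prime_iff_eq hl hr).mp h0) ▸ hrN)
  let ι : ZMod l →+* (Zb ⧸ m) := ZMod.castHom dvd_rfl (Zb ⧸ m)
  -- lift the polynomials
  have hsurj : Function.Surjective (Int.castRingHom (ZMod l)) := ZMod.intCast_surjective
  choose Pt hPt using fun i => Polynomial.map_surjective _ hsurj (P i)
  let Pz : Fin (Nat.card (QN N)) → Zb[X] := fun i => (Pt i).map (Int.castRingHom Zb)
  have hmap : ∀ i, (Pz i).map φ = (P i).map ι := by
    intro i
    rw [← hPt i, Polynomial.map_map, Polynomial.map_map]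
    congr 1
    exact RingHom.ext_int _ _
  let Θ : LaurentSeries (ZMod l) →+* LaurentSeries (Zb ⧸ m) :=
    (qExpand (Zb ⧸ m) N).comp (coeffMap ι)
  have hΘj : Θ (jqModC (ZMod l)) = Jb N (Fb := Zb ⧸ m) := by
    show qExpand (Zb ⧸ m) N (coeffMap ι (jqModC (ZMod l))) = _
    rw [coeffMap_jqModC]
    exact qExpand_congr (mul_one N).symm _
  have hΘjN : Θ (jqNModC (ZMod l) N) = qExpand (Zb ⧸ m) (N * N) (jqModC (Zb ⧸ m)) := by
    show qExpand (Zb ⧸ m) N (coeffMap ι (jqNModC (ZMod l) N)) = _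
    rw [coeffMap_jqNModC, jqNModC, qExpand_qExpand]
  have hΘa : ∀ Q : (ZMod l)[X], Θ (aeval (jqModC (ZMod l)) Q) =
      aeval (Jb N (Fb := Zb ⧸ m)) (Q.map ι) := by
    intro Q
    rw [aeval_def, Polynomial.hom_eval₂, hΘj, aeval_def, eval₂_map]
    congr 1
    ext c : 1
    simp only [RingHom.comp_apply, Θ]
    rw [algebraMap_laurentSeries_eq_single, algebraMap_laurentSeries_eq_single, coeffMap_single,
      qExpand_single, mul_zero]
  have hmem : ∑ i, (Pz i).eval₂ (cA N) (jA N 1 (one_dvd N)) * jA N N dvd_rfl ^ (i : ℕ) ∈ Pr N φ := by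
    rw [mem_Pr, map_sum]
    have h1 := congrArg Θ hP
    rw [map_sum, map_zero] at h1
    rw [← h1]
    refine Finset.sum_congr rfl fun i _ => ?_
    rw [map_mul, map_pow, red_eval₂, red_jA, hmap, map_mul, map_pow, hΘa, hΘjN]
  intro i
  have h2 := coeff_eq_zero_of_relation N φ hφ Pz hmem i
  rw [hmap] at h2
  exact (Polynomial.map_eq_zero_iff ι.injective).mp h2

end Fermat.Agent.S28
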