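import Fermat.Agent.S28.FinalDefs
import Fermat.Agent.S28.Key
import Fermat.Agent.S28.Int
import Fermat.Agent.S24.Orbits

set_option autoImplicit false

noncomputable section

namespace Fermat.Agent.S28.Final

open ModularCurve ModularCurve.IgusaScheme HahnSeries TensorProduct

/-! ### ASM-A : integer series -/

theorem coeffMap_int_mem_Dl (ℓ : ℕ) (x : LaurentSeries ℤ) :
    coeffMap (Int.castRingHom ℚ) x ∈ Dl ℓ := by
  intro n
  rw [coeffMap_coeff]
  exact intCast_mem _ _

theorem redK_of_int (ℓ : ℕ) (K : Type*) [CommRing K] [Algebra (Zl ℓ) K] (f : Dl ℓ)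
    (x : LaurentSeries ℤ) (h : f.1 = coeffMap (Int.castRingHom ℚ) x) :
    redK ℓ K f = coeffMap (Int.castRingHom K) x := by
  ext n
  rw [redK, coeffMap_coeff, coeffMap_coeff]
  have h1 : (liftDl ℓ f).coeff n = ((x.coeff n : ℤ) : Zl ℓ) := by
    apply Subtype.ext
    show f.1.coeff n = _
    rw [h, coeffMap_coeff]
    simp
  rw [h1, map_intCast]
  simp

theorem coeffMap_injective {R S : Type*} [CommRing R] [CommRing S] (f : R →+* S)
    (hf : Function.Injective f) : Function.Injective (coeffMap f) := by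
  intro x y h
  ext n
  apply hf
  rw [← coeffMap_coeff, ← coeffMap_coeff, h]

theorem coeffMap_jqModC {R S : Type*} [CommRing R] [CommRing S] (f : R →+* S) :
    coeffMap f (jqModC R) = jqModC S := map_jqModC f

theorem coeffMap_jqNModC {R S : Type*} [CommRing R] [CommRing S] (f : R →+* S) (N : ℕ) [NeZero N] :
    coeffMap f (jqNModC R N) = jqNModC S N := by
  rw [jqNModC, coeffMap_qExpand, coeffMap_jqModC, jqNModC]

theorem jqModC_mul_jInvZ : jqModC ℤ * jInvZ = 1 := by
  have h1 : (jNum.map (Int.castRingHom ℤ)) = jNum := by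
    ext n; simp
  rw [jqModC, jInvZ, h1, mul_mul_mul_comm, HahnSeries.single_mul_single, ← map_mul,
    PowerSeries.mul_invOfUnit _ _ (by rw [constantCoeff_jNum]; rfl)]
  simp

theorem order_jqModC (K : Type*) [Field K] : (jqModC K).order < 0 := by
  have h1 : (jqModC K).coeff (-1) ≠ 0 := by
    rw [jqModC, HahnSeries.coeff_single_mul]
    simp only [one_mul, sub_self]
    rw [show (0 : ℤ) = ((0 : ℕ) : ℤ) from rfl, HahnSeries.ofPowerSeries_apply_coeff,
      PowerSeries.coeff_map, PowerSeries.coeff_zero_eq_constantCoeff, constantCoeff_jNum]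
    simp
  have h2 := HahnSeries.order_le_of_coeff_ne_zero h1
  omega

theorem transcendental_jqModC (K : Type*) [Field K] : Transcendental K (jqModC K) := by
  rw [transcendental_iff]
  intro p hp
  by_contra hne
  exact (aeval_ne_zero_and_order_le (jqModC K) (order_jqModC K) p hne).1 hp

theorem coeffMap_aeval {k K : Type*} [Field k] [Field K] (ι : k →+* K) (J : LaurentSeries k)
    (P : Polynomial k) :
    coeffMap ι (Polynomial.aeval J P) = Polynomial.aeval (coeffMap ι J) (P.map ι) := by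
  rw [Polynomial.aeval_def, Polynomial.hom_eval₂, Polynomial.aeval_def, Polynomial.eval₂_map]
  congr 1
  ext c : 1
  simp only [RingHom.comp_apply]
  rw [algebraMap_laurentSeries_eq_single, algebraMap_laurentSeries_eq_single, coeffMap_single]

/-- the image of `ℤ_(ℓ)` in `K` is the prime field. -/
theorem algebraMap_mem_range (ℓ : ℕ) [Fact ℓ.Prime] (K : Type) [Field K] [CharP K ℓ]
    [Algebra (Zl ℓ) K] (a : Zl ℓ) :
    algebraMap (Zl ℓ) K a ∈ (ZMod.castHom (dvd_refl ℓ) K).range := by
  have hden : ((a.1.den : ℕ) : K) ≠ 0 := by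
    intro h0
    rw [CharP.cast_eq_zero_iff K ℓ] at h0
    have hc : a.1.den.Coprime ℓ := a.2
    have := Nat.Coprime.eq_one_of_dvd hc.symm h0
    exact (Fact.out : ℓ.Prime).one_lt.ne' this
  have h1 : ((a.1.den : ℕ) : Zl ℓ) * a = ((a.1.num : ℤ) : Zl ℓ) := by
    apply Subtype.ext
    push_cast
    exact Rat.den_mul_eq_num a.1
  have h2 := congrArg (algebraMap (Zl ℓ) K) h1
  rw [map_mul, map_natCast, map_intCast] at h2
  refine ⟨((a.1.num : ℤ) : ZMod ℓ) / ((a.1.den : ℕ) : ZMod ℓ), ?_⟩
  rw [map_div₀, map_intCast, map_natCast, ← h2, mul_div_cancel_left₀ _ hden]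

/-- independence mod `ℓ` over any field of characteristic `ℓ`, coefficients in the prime field. -/
theorem hind_fin (N : ℕ) [NeZero N] (ℓ : ℕ) [Fact ℓ.Prime] (hℓN : ¬ ℓ ∣ N)
    (K : Type) [Field K] [CharP K ℓ] [Algebra (Zl ℓ) K]
    (c : Fin (dedekindPsi N) → Polynomial (Zl ℓ))
    (h : ∑ i, Polynomial.aeval (jqModC K) ((c i).map (algebraMap (Zl ℓ) K)) *
      (jqNModC K N) ^ (i : ℕ) = 0) :
    ∀ i, (c i).map (algebraMap (Zl ℓ) K) = 0 := by
  set ι : ZMod ℓ →+* K := ZMod.castHom (dvd_refl ℓ) K with hι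
  have hlift : ∀ i, ∃ P : Polynomial (ZMod ℓ), P.map ι = (c i).map (algebraMap (Zl ℓ) K) := by
    intro i
    have : (c i).map (algebraMap (Zl ℓ) K) ∈ Polynomial.lifts ι := by
      rw [Polynomial.lifts_iff_coeff_lifts]
      intro n
      rw [Polynomial.coeff_map]
      exact algebraMap_mem_range ℓ K _
    exact this
  choose P hP using hlift
  have hcard : Nat.card (Fermat.Agent.S24.QN N) = dedekindPsi N := Fermat.Agent.S24.card_QN N
  have hkey := key N ℓ hℓN (fun i => P (Fin.cast hcard i)) (by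
    apply coeffMap_injective ι ι.injective
    rw [map_zero, map_sum, ← h]
    rw [← Equiv.sum_comp (finCongr hcard)]
    refine Finset.sum_congr rfl fun i _ => ?_
    rw [map_mul, map_pow, coeffMap_aeval, coeffMap_jqModC, coeffMap_jqNModC]
    simp [hP])
  intro i
  have := hkey (Fin.cast hcard.symm i)
  simp only [Fin.cast_cast, Fin.cast_eq_self] at this
  rw [← hP, this, Polynomial.map_zero]

theorem jNFull_pow_mem_chartAlgFin (N : ℕ) [NeZero N] (ℓ : ℕ) [Fact ℓ.Prime] (i : ℕ) :
    jNFull N ^ i ∈ chartAlgFin N ℓ := by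
  apply pow_mem
  rw [mem_chartAlg_iff]
  obtain ⟨H, hmonic, hH⟩ := exists_monic_jqN N
  set A := Algebra.adjoin (Zl ℓ) ({jFull N} : Set ↥(modularFunctionFieldFull N)) with hA
  let φ : Polynomial ℤ →+* A :=
    Polynomial.eval₂RingHom (Int.castRingHom A) ⟨jFull N, Algebra.subset_adjoin rfl⟩
  refine ⟨H.map φ, hmonic.map φ, ?_⟩
  apply Subtype.val_injective
  rw [Polynomial.eval₂_map]
  have h1 : ((modularFunctionFieldFull N).val : ↥(modularFunctionFieldFull N) →+*
      LaurentSeries ℚ).comp ((algebraMap A ↥(modularFunctionFieldFull N)).comp φ) = evalAtJ := by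
    refine Polynomial.ringHom_ext' (Subsingleton.elim _ _) ?_
    rw [evalAtJ_X]
    simp [φ]
  have h2 := Polynomial.hom_eval₂ H ((algebraMap A ↥(modularFunctionFieldFull N)).comp φ)
    ((modularFunctionFieldFull N).val : ↥(modularFunctionFieldFull N) →+* LaurentSeries ℚ)
    (jNFull N)
  rw [h1] at h2
  have h3 : ((modularFunctionFieldFull N).val : ↥(modularFunctionFieldFull N) →+*
      LaurentSeries ℚ) (jNFull N) = jqN N := rfl
  rw [h3, hH] at h2
  exact h2

end Fermat.Agent.S28.Final
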