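import Mathlib

set_option autoImplicit false

open Polynomial IntermediateField

namespace Fermat.Agent.S28.DegQ

theorem linearIndependent_pow_of_transcendental {K A : Type*} [Field K] [CommRing A] [Algebra K A]
    {x : A} (hx : Transcendental K x) : LinearIndependent K (fun n : ℕ => x ^ n) := by
  have h1 := (Polynomial.basisMonomials K).linearIndependent.map' (aeval x).toLinearMap
    (LinearMap.ker_eq_bot.mpr (transcendental_iff_injective.mp hx))
  have h2 : (fun n : ℕ => x ^ n) = (aeval x).toLinearMap ∘ (Polynomial.basisMonomials K) := by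
    funext n
    simp
  rw [h2]
  exact h1

/-- a polynomial relation with linearly independent monomials is trivial -/
theorem eq_zero_of_monomials {L F : Type*} [Field L] [Field F] [Algebra L F] (J : F)
    {ι : Type*} [Fintype ι] (X : ι → F)
    (h : LinearIndependent L (fun p : ℕ × ι => J ^ p.1 * X p.2)) (P : ι → L[X])
    (hP : ∑ i, aeval J (P i) * X i = 0) : ∀ i, P i = 0 := by
  classical
  set M := Finset.univ.sup (fun i => (P i).natDegree) with hM
  have hdeg : ∀ i, (P i).natDegree ≤ M := fun i =>
    Finset.le_sup (f := fun i => (P i).natDegree) (Finset.mem_univ i)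
  have h' : LinearIndependent L (fun p : Fin (M + 1) × ι => J ^ (p.1 : ℕ) * X p.2) :=
    h.comp (fun p : Fin (M + 1) × ι => ((p.1 : ℕ), p.2)) (by
      rintro ⟨a, i⟩ ⟨b, j⟩ hab
      simp only [Prod.mk.injEq] at hab
      exact Prod.ext (Fin.ext hab.1) hab.2)
  rw [Fintype.linearIndependent_iff] at h'
  have h6 := h' (fun p => (P p.2).coeff p.1) (by
    rw [Fintype.sum_prod_type_right, ← hP]
    refine Finset.sum_congr rfl fun b _ => ?_
    rw [aeval_eq_sum_range' (Nat.lt_succ_of_le (hdeg b)), Finset.sum_mul,
      ← Fin.sum_univ_eq_sum_range (fun a => (P b).coeff a • J ^ a * X b) (M + 1)]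
    refine Finset.sum_congr rfl fun a _ => ?_
    rw [smul_mul_assoc])
  intro i
  ext a
  by_cases ha : a ≤ M
  · simpa using h6 (⟨a, Nat.lt_succ_of_le ha⟩, i)
  · rw [coeff_eq_zero_of_natDegree_lt (lt_of_le_of_lt (hdeg i) (not_le.mp ha))]
    simp

open scoped IntermediateField.algebraAdjoinAdjoin in
theorem linearIndependent_adjoin_of_monomials {L F : Type*} [Field L] [Field F] [Algebra L F]
    (J : F) {ι : Type*} [Fintype ι] (X : ι → F)
    (h : LinearIndependent L (fun p : ℕ × ι => J ^ p.1 * X p.2)) :
    LinearIndependent L⟮J⟯ X := by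
  rw [← LinearIndependent.iff_fractionRing (Algebra.adjoin L {J}) L⟮J⟯,
    Fintype.linearIndependent_iff]
  intro g hg
  have hex : ∀ i, ∃ P : L[X], aeval J P = (g i : F) := by
    intro i
    have h1 : (g i : F) ∈ (aeval (R := L) J).range := by
      rw [← Algebra.adjoin_singleton_eq_range_aeval]
      exact (g i).2
    exact h1
  choose P hP using hex
  have h0 := eq_zero_of_monomials J X h P (by
    rw [← hg]
    refine Finset.sum_congr rfl fun i _ => ?_
    rw [hP]
    rfl)
  intro i
  apply Subtype.ext
  rw [← hP, h0 i]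
  simp

/-- Descent of linear independence along a base change of the constant field. -/
theorem linearIndependent_map {K₀ L F₀ F : Type*} [Field K₀] [Field L] [Field F₀] [Field F]
    [Algebra K₀ F₀] [Algebra L F] (e : F₀ →+* F)
    (he : ∀ (κ : Type) (v : κ → F₀), LinearIndependent K₀ v → LinearIndependent L (fun i => e (v i)))
    (j : F₀) (hj : Transcendental K₀ j) {n : ℕ} (x : Fin n → F₀)
    (hx : LinearIndependent K₀⟮j⟯ x) : LinearIndependent L⟮e j⟯ (fun i => e (x i)) := by
  apply linearIndependent_adjoin_of_monomials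
  have hgen : Transcendental K₀ (AdjoinSimple.gen K₀ j) := by
    intro h
    apply hj
    have := h.algebraMap (A := F₀)
    rwa [AdjoinSimple.algebraMap_gen] at this
  have h2 := linearIndependent_smul (linearIndependent_pow_of_transcendental hgen) hx
  have h3 := he _ _ h2
  convert h3 using 1
  funext p
  simp only [Algebra.smul_def, map_mul, map_pow, AdjoinSimple.algebraMap_gen]

theorem finrank_le_of_map {K₀ L F₀ F : Type*} [Field K₀] [Field L] [Field F₀] [Field F]
    [Algebra K₀ F₀] [Algebra L F] (e : F₀ →+* F)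
    (he : ∀ (κ : Type) (v : κ → F₀), LinearIndependent K₀ v → LinearIndependent L (fun i => e (v i)))
    (j : F₀) (hj : Transcendental K₀ j) [FiniteDimensional L⟮e j⟯ F] :
    FiniteDimensional K₀⟮j⟯ F₀ ∧ Module.finrank K₀⟮j⟯ F₀ ≤ Module.finrank L⟮e j⟯ F := by
  have hrank : Module.rank K₀⟮j⟯ F₀ ≤ (Module.finrank L⟮e j⟯ F : ℕ) := by
    apply rank_le
    intro s hs
    have h1 : LinearIndependent K₀⟮j⟯ (fun i : Fin s.card => ((s.equivFin.symm i : s) : F₀)) :=
      hs.comp _ s.equivFin.symm.injective
    have h2 := linearIndependent_map e he j hj _ h1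
    simpa using h2.fintype_card_le_finrank
  have hfin : FiniteDimensional K₀⟮j⟯ F₀ := by
    rw [FiniteDimensional, ← Module.rank_lt_aleph0_iff]
    exact lt_of_le_of_lt hrank (Cardinal.natCast_lt_aleph0)
  refine ⟨hfin, ?_⟩
  rw [← Module.finrank_eq_rank] at hrank
  exact_mod_cast hrank

end Fermat.Agent.S28.DegQ
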