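import Fermat.Agent.S24.Degree
import Fermat.Agent.S24.Orbits
import Fermat.Agent.S28.DegQGen
import Fermat.Prelude.Def_ModularCurve_IgusaScheme

set_option autoImplicit false

open ModularCurve IntermediateField Fermat.Agent.S24

noncomputable section

namespace Fermat.Agent.S28.DegQ

theorem eq_zero_of_sum_single_mul (L : Type*) [Field L] [Algebra ℚ L] {κ : Type*}
    (v : κ → LaurentSeries ℚ) (hv : LinearIndependent ℚ v) (s : Finset κ) (g : κ → L)
    (hg : ∑ i ∈ s, HahnSeries.single 0 (g i) * coeffEmb L (v i) = 0) : ∀ i ∈ s, g i = 0 := by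
  rw [linearIndependent_iff'] at hv
  intro i hi
  rw [← Module.forall_dual_apply_eq_zero_iff ℚ]
  intro φ
  refine hv s (fun i => φ (g i)) ?_ i hi
  ext m
  have h1 := congrArg (fun x : LaurentSeries L => φ (x.coeff m)) hg
  simp only [HahnSeries.coeff_sum, HahnSeries.coeff_smul, coeffEmb_coeff, smul_eq_mul,
    HahnSeries.coeff_zero, map_zero, map_sum, HahnSeries.coeff_single_zero_mul] at h1 ⊢
  rw [← h1]
  refine Finset.sum_congr rfl fun i _ => ?_
  rw [mul_comm (g i), ← Algebra.smul_def, map_smul, smul_eq_mul, mul_comm]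

/-- the base change map on function fields -/
def toBar (N : ℕ) : ↥(modularFunctionFieldFull N) →+* FN N where
  toFun x := ⟨coeffEmb Kb x, coeffEmb_mem_laurentBaseChange Kb x.2⟩
  map_one' := Subtype.ext (map_one (coeffEmb Kb))
  map_mul' x y := Subtype.ext (map_mul (coeffEmb Kb) (x : LaurentSeries ℚ) y)
  map_zero' := Subtype.ext (map_zero (coeffEmb Kb))
  map_add' x y := Subtype.ext (map_add (coeffEmb Kb) (x : LaurentSeries ℚ) y)

theorem coe_toBar (N : ℕ) (x : ↥(modularFunctionFieldFull N)) :
    ((toBar N x : FN N) : LaurentSeries Kb) = coeffEmb Kb x := rfl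

theorem linearIndependent_toBar (N : ℕ) (κ : Type) (v : κ → ↥(modularFunctionFieldFull N))
    (hv : LinearIndependent ℚ v) : LinearIndependent Kb (fun i => toBar N (v i)) := by
  have h1 : LinearIndependent ℚ (fun i => ((v i : ↥(modularFunctionFieldFull N)) : LaurentSeries ℚ)) :=
    hv.map' ((modularFunctionFieldFull N).val : ↥(modularFunctionFieldFull N) →+
        LaurentSeries ℚ).toRatLinearMap (LinearMap.ker_eq_bot.mpr Subtype.val_injective)
  rw [linearIndependent_iff']
  intro s g hg
  apply eq_zero_of_sum_single_mul Kb _ h1 s g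
  have h2 := congrArg (modularFunctionFieldBar N).val hg
  rw [map_sum, map_zero] at h2
  rw [← h2]
  refine Finset.sum_congr rfl fun i _ => ?_
  rw [Algebra.smul_def, map_mul, ← algebraMap_laurentSeries_eq_single]
  rfl

theorem toBar_jFull (N : ℕ) [NeZero N] : toBar N (IgusaScheme.jFull N) = jN N := by
  apply Subtype.ext
  show coeffEmb Kb jq = coeffEmb Kb (qExpand ℚ 1 jq)
  rw [qExpand_one_apply]

theorem transcendental_jFull (N : ℕ) [NeZero N] : Transcendental ℚ (IgusaScheme.jFull N) := by
  intro halg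
  apply transcendental_jN N
  obtain ⟨p, hp0, hp⟩ := halg
  refine ⟨p.map (algebraMap ℚ Kb), (Polynomial.map_ne_zero_iff (algebraMap ℚ Kb).injective).mpr hp0, ?_⟩
  have h1 := congrArg (toBar N) hp
  rw [map_zero, Polynomial.aeval_def, Polynomial.hom_eval₂, toBar_jFull] at h1
  rw [Polynomial.aeval_def, Polynomial.eval₂_map, ← h1]
  congr 1
  exact RingHom.ext fun c => by simp

theorem finrank_full (N : ℕ) [NeZero N] :
    FiniteDimensional ℚ⟮IgusaScheme.jFull N⟯ ↥(modularFunctionFieldFull N) ∧
      Module.finrank ℚ⟮IgusaScheme.jFull N⟯ ↥(modularFunctionFieldFull N) ≤ dedekindPsi N := by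
  have hfin : FiniteDimensional Kb⟮toBar N (IgusaScheme.jFull N)⟯ (FN N) := by
    rw [toBar_jFull]; exact finiteDimensional_FN N
  have h := finrank_le_of_map (toBar N) (linearIndependent_toBar N) (IgusaScheme.jFull N)
    (transcendental_jFull N)
  refine ⟨h.1, h.2.trans (le_of_eq ?_)⟩
  rw [toBar_jFull, finrank_FN, card_QN]

end Fermat.Agent.S28.DegQ
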