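import Mathlib

set_option autoImplicit false

open Polynomial IntermediateField

namespace Fermat.Agent.S28.FinalBGen

open scoped IntermediateField.algebraAdjoinAdjoin in
theorem exists_poly_span {K F : Type*} [Field K] [Field F] [Algebra K F] (J : F) {n : ℕ}
    (X : Fin n → F) (hli : LinearIndependent K⟮J⟯ X) [FiniteDimensional K⟮J⟯ F]
    (hrank : Module.finrank K⟮J⟯ F ≤ n) (x : F) :
    ∃ (s : K[X]) (b : Fin n → K[X]), s ≠ 0 ∧ aeval J s * x = ∑ i, aeval J (b i) * X i := by
  have hcard : Fintype.card (Fin n) = Module.finrank K⟮J⟯ F := by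
    apply le_antisymm hli.fintype_card_le_finrank
    simpa using hrank
  have hspan := hli.span_eq_top_of_card_eq_finrank' hcard
  have hx : x ∈ Submodule.span K⟮J⟯ (Set.range X) := by rw [hspan]; trivial
  obtain ⟨c, hc⟩ := (Submodule.mem_span_range_iff_exists_fun K⟮J⟯).mp hx
  obtain ⟨d, hd⟩ := IsLocalization.exist_integer_multiples_of_finite
    (nonZeroDivisors (Algebra.adjoin K {J})) c
  have hex : ∀ y : Algebra.adjoin K {J}, ∃ P : K[X], aeval J P = (y : F) := by
    intro y
    have h1 : (y : F) ∈ (aeval (R := K) J).range := by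
      rw [← Algebra.adjoin_singleton_eq_range_aeval]
      exact y.2
    exact h1
  choose e he using hd
  obtain ⟨s, hs⟩ := hex d
  choose b hb using fun i => hex (e i)
  refine ⟨s, b, ?_, ?_⟩
  · rintro rfl
    have h0 : (d : Algebra.adjoin K {J}) = 0 := by
      apply Subtype.ext
      rw [← hs]; simp
    exact nonZeroDivisors.coe_ne_zero d h0
  · rw [← hc, Finset.mul_sum]
    refine Finset.sum_congr rfl fun i _ => ?_
    have h1 := congrArg (fun z : K⟮J⟯ => (z : F)) (he i)
    simp only [Algebra.smul_def] at h1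
    rw [hs, hb, Algebra.smul_def, ← mul_assoc]
    congr 1
    exact h1.symm

theorem linearIndependent_int_of_mod {M M' ι : Type*} [AddCommGroup M] [IsAddTorsionFree M]
    [AddCommGroup M'] (l : ℕ) [Fact l.Prime] [instM : Module (ZMod l) M'] (red : M →+ M') (V : ι → M)
    (h : LinearIndependent (ZMod l) (fun i => red (V i))) : LinearIndependent ℤ V := by
  have hl : l.Prime := Fact.out
  rw [linearIndependent_iff'] at h ⊢
  intro s
  have step : ∀ g : ι → ℤ, ∑ i ∈ s, g i • V i = 0 → ∀ i ∈ s, (l : ℤ) ∣ g i := by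
    intro g hg i hi
    have h1 := congrArg red hg
    rw [map_sum, map_zero] at h1
    have h2 := h s (fun i => (g i : ZMod l)) (by
      rw [← h1]
      refine Finset.sum_congr rfl fun i _ => ?_
      rw [map_zsmul, Int.cast_smul_eq_zsmul]) i hi
    exact (ZMod.intCast_zmod_eq_zero_iff_dvd _ _).mp h2
  have main : ∀ k : ℕ, ∀ g : ι → ℤ, ∑ i ∈ s, g i • V i = 0 → ∀ i ∈ s, (l : ℤ) ^ k ∣ g i := by
    intro k
    induction k with
    | zero => intro g _ i _; simp
    | succ k ih =>
      intro g hg i hi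
      have hdiv := step g hg
      have hg' : ∑ i ∈ s, (g i / l) • V i = 0 := by
        have h3 : (l : ℤ) • ∑ i ∈ s, (g i / l) • V i = 0 := by
          rw [Finset.smul_sum, ← hg]
          refine Finset.sum_congr rfl fun i hi => ?_
          rw [smul_smul, Int.mul_ediv_cancel' (hdiv i hi)]
        have hl0 : (l : ℤ) ≠ 0 := by exact_mod_cast hl.ne_zero
        exact (smul_eq_zero_iff_right hl0).mp h3
      obtain ⟨c, hc⟩ := ih _ hg' i hi
      refine ⟨c, ?_⟩
      rw [← Int.mul_ediv_cancel' (hdiv i hi), hc, pow_succ]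
      ring
  intro g hg i hi
  by_contra hne
  have h1 := main (g i).natAbs g hg i hi
  have h2 := Int.le_of_dvd (Int.natAbs_pos.mpr hne |> fun h => by exact_mod_cast h)
    ((Int.dvd_natAbs).mpr h1)
  have h3 : (g i).natAbs < l ^ (g i).natAbs := Nat.lt_pow_self hl.one_lt
  have h4 : ((l : ℤ) ^ (g i).natAbs) ≤ ((g i).natAbs : ℤ) := h2
  have h5 : l ^ (g i).natAbs ≤ (g i).natAbs := by exact_mod_cast h4
  omega

theorem linearIndependent_monomials_of_key {k A : Type*} [Field k] [CommRing A] [Algebra k A]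
    (J Y : A) (n : ℕ)
    (key : ∀ P : Fin n → k[X], ∑ i, aeval J (P i) * Y ^ (i : ℕ) = 0 → ∀ i, P i = 0) :
    LinearIndependent k (fun p : ℕ × Fin n => J ^ p.1 * Y ^ (p.2 : ℕ)) := by
  classical
  rw [linearIndependent_iff']
  intro s g hg p hp
  set P : Fin n → k[X] := fun i => ∑ p ∈ s, if p.2 = i then monomial p.1 (g p) else 0 with hP
  have h1 := key P (by
    rw [← hg]
    simp only [hP, map_sum, Finset.sum_mul]
    rw [Finset.sum_comm]
    refine Finset.sum_congr rfl fun p _ => ?_
    rw [Finset.sum_eq_single p.2]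
    · simp [aeval_monomial, Algebra.smul_def, mul_assoc]
    · intro i _ hi
      simp [Ne.symm hi]
    · simp)
  have h2 := congrArg (fun Q : k[X] => Q.coeff p.1) (h1 p.2)
  simp only [hP, finsetSum_coeff, coeff_zero] at h2
  rw [Finset.sum_eq_single p] at h2
  · simpa using h2
  · intro p' _ hp'
    by_cases h3 : p'.2 = p.2
    · have h4 : p'.1 ≠ p.1 := fun h4 => hp' (Prod.ext h4 h3)
      simp [h3, coeff_monomial, h4]
    · simp [h3]
  · intro h; exact absurd hp h

end Fermat.Agent.S28.FinalBGen
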