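import Fermat.Agent.S28.FinalDefs
import Fermat.Agent.S28.Key
import Fermat.Agent.S28.DegQ
import Fermat.Agent.S28.FinalBGen

set_option autoImplicit false

noncomputable section

namespace Fermat.Agent.S28.Final

open ModularCurve ModularCurve.IgusaScheme HahnSeries TensorProduct

/-! ### ASM-B : spanning in characteristic zero -/

namespace FinalB

theorem coeffMap_injective {R S : Type*} [CommRing R] [CommRing S] (f : R →+* S)
    (hf : Function.Injective f) : Function.Injective (coeffMap f) := by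
  intro x y h
  ext k
  apply hf
  have := congrArg (fun z : LaurentSeries S => z.coeff k) h
  simpa using this

theorem linearIndependent_int (N : ℕ) [NeZero N] (ℓ : ℕ) [Fact ℓ.Prime] (hℓN : ¬ ℓ ∣ N) :
    LinearIndependent ℤ (fun p : ℕ × Fin (dedekindPsi N) =>
      jqModC ℤ ^ p.1 * jqNModC ℤ N ^ (p.2 : ℕ)) := by
  have hk := key N ℓ hℓN
  rw [S24.card_QN N] at hk
  have h1 := FinalBGen.linearIndependent_monomials_of_key (jqModC (ZMod ℓ)) (jqNModC (ZMod ℓ) N)
    (dedekindPsi N) hk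
  have htf : IsAddTorsionFree (LaurentSeries ℤ) := ⟨fun n hn x y h => by
    ext k
    have h3 := congrArg (fun z : LaurentSeries ℤ => z.coeff k) h
    simp only [HahnSeries.coeff_smul] at h3
    exact mul_left_cancel₀ (by exact_mod_cast hn) h3⟩
  refine FinalBGen.linearIndependent_int_of_mod (instM := Algebra.toModule) ℓ
    (coeffMap (Int.castRingHom (ZMod ℓ)) : LaurentSeries ℤ →+ LaurentSeries (ZMod ℓ)) _ ?_
  have h2 : (fun p : ℕ × Fin (dedekindPsi N) =>
      (coeffMap (Int.castRingHom (ZMod ℓ)) : LaurentSeries ℤ →+ LaurentSeries (ZMod ℓ))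
        (jqModC ℤ ^ p.1 * jqNModC ℤ N ^ (p.2 : ℕ))) =
      fun p => jqModC (ZMod ℓ) ^ p.1 * jqNModC (ZMod ℓ) N ^ (p.2 : ℕ) := by
    funext p
    show coeffMap (Int.castRingHom (ZMod ℓ)) (jqModC ℤ ^ p.1 * jqNModC ℤ N ^ (p.2 : ℕ)) = _
    rw [map_mul, map_pow, map_pow, coeffMap_jqModC, coeffMap_jqNModC]
  rw [h2]
  exact h1

theorem linearIndependent_rat (N : ℕ) [NeZero N] (ℓ : ℕ) [Fact ℓ.Prime] (hℓN : ¬ ℓ ∣ N) :
    LinearIndependent ℚ (fun p : ℕ × Fin (dedekindPsi N) =>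
      jFull N ^ p.1 * jNFull N ^ (p.2 : ℕ)) := by
  have h1 := (linearIndependent_int N ℓ hℓN).map'
    (coeffMap (Int.castRingHom ℚ) : LaurentSeries ℤ →+ LaurentSeries ℚ).toIntLinearMap
    (LinearMap.ker_eq_bot.mpr (coeffMap_injective _ Int.cast_injective))
  rw [← LinearIndependent.iff_fractionRing ℤ ℚ]
  refine LinearIndependent.of_comp ((modularFunctionFieldFull N).val :
    ↥(modularFunctionFieldFull N) →+ LaurentSeries ℚ).toIntLinearMap ?_
  have h2 : (((modularFunctionFieldFull N).val :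
      ↥(modularFunctionFieldFull N) →+ LaurentSeries ℚ).toIntLinearMap ∘
        fun p : ℕ × Fin (dedekindPsi N) => jFull N ^ p.1 * jNFull N ^ (p.2 : ℕ)) =
      ((coeffMap (Int.castRingHom ℚ) : LaurentSeries ℤ →+ LaurentSeries ℚ).toIntLinearMap ∘
        fun p : ℕ × Fin (dedekindPsi N) => jqModC ℤ ^ p.1 * jqNModC ℤ N ^ (p.2 : ℕ)) := by
    funext p
    show (jq ^ p.1 * (qExpand ℚ N jq) ^ (p.2 : ℕ) : LaurentSeries ℚ) =
      coeffMap (Int.castRingHom ℚ) (jqModC ℤ ^ p.1 * jqNModC ℤ N ^ (p.2 : ℕ))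
    rw [map_mul, map_pow, map_pow, coeffMap_jqModC, coeffMap_jqNModC]
    rfl
  rw [h2]
  exact h1

end FinalB

theorem hspan_fin (N : ℕ) [NeZero N] (ℓ : ℕ) [Fact ℓ.Prime] (hℓN : ¬ ℓ ∣ N)
    (x : ↥(modularFunctionFieldFull N)) :
    ∃ (s : Polynomial ℚ) (b : Fin (dedekindPsi N) → Polynomial ℚ), s ≠ 0 ∧
      Polynomial.aeval (jFull N) s * x = ∑ i, Polynomial.aeval (jFull N) (b i) * jNFull N ^ (i : ℕ) := by
  have hli := DegQ.linearIndependent_adjoin_of_monomials (jFull N)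
    (fun i : Fin (dedekindPsi N) => jNFull N ^ (i : ℕ)) (FinalB.linearIndependent_rat N ℓ hℓN)
  have hfin := (DegQ.finrank_full N).1
  exact FinalBGen.exists_poly_span (jFull N) _ hli (DegQ.finrank_full N).2 x


end Fermat.Agent.S28.Final
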