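import Mathlib

set_option autoImplicit false

namespace Fermat.Agent.S28.Final

/-! ### ASM-C : from `g` to `g⁻¹` (abstract) -/

/-- `aeval J⁻¹ p = aeval J (reflect N p) * J⁻¹ ^ N` for `natDegree p ≤ N`. -/
theorem aeval_inv_eq_reflect {K L : Type*} [Field K] [Field L] [Algebra K L]
    (J : L) (hJ : J ≠ 0) (N : ℕ) (p : Polynomial K) (hp : p.natDegree ≤ N) :
    Polynomial.aeval J⁻¹ p = Polynomial.aeval J (Polynomial.reflect N p) * J⁻¹ ^ N := by
  haveI : Invertible J⁻¹ := invertibleOfNonzero (inv_ne_zero hJ)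
  have h := Polynomial.eval₂_reflect_mul_pow (algebraMap K L) J⁻¹ N p hp
  rw [invOf_eq_inv, inv_inv] at h
  rw [Polynomial.aeval_def, Polynomial.aeval_def, h]

/-- independence is preserved by `g ↦ g⁻¹`, `θ i ↦ θ i * g⁻¹ ^ m i`. -/
theorem hind_swap {R K L : Type*} [CommRing R] [Field K] [Field L] [Algebra K L] (φ : R →+* K)
    (J : L) (hJ : J ≠ 0) {n : ℕ} (t : Fin n → L) (m : Fin n → ℕ)
    (h : ∀ c : Fin n → Polynomial R,
      ∑ i, Polynomial.aeval J ((c i).map φ) * t i = 0 → ∀ i, (c i).map φ = 0)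
    (c : Fin n → Polynomial R)
    (hc : ∑ i, Polynomial.aeval J⁻¹ ((c i).map φ) * (t i * J⁻¹ ^ m i) = 0) :
    ∀ i, (c i).map φ = 0 := by
  classical
  set M : ℕ := ∑ i, ((c i).natDegree + m i) with hM
  have hle : ∀ i, (c i).natDegree + m i ≤ M := fun i =>
    Finset.single_le_sum (f := fun i => (c i).natDegree + m i) (fun _ _ => Nat.zero_le _)
      (Finset.mem_univ i)
  have key : ∀ i, Polynomial.aeval J⁻¹ ((c i).map φ) * (t i * J⁻¹ ^ m i)
      = J⁻¹ ^ M * (Polynomial.aeval J (((c i).reflect (M - m i)).map φ) * t i) := by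
    intro i
    have h1 : ((c i).map φ).natDegree ≤ M - m i :=
      (Polynomial.natDegree_map_le).trans (by have := hle i; omega)
    rw [aeval_inv_eq_reflect J hJ (M - m i) _ h1, Polynomial.reflect_map]
    have h2 : J⁻¹ ^ M = J⁻¹ ^ (M - m i) * J⁻¹ ^ m i := by
      rw [← pow_add]; congr 1; have := hle i; omega
    rw [h2]; ring
  rw [Finset.sum_congr rfl (fun i _ => key i), ← Finset.mul_sum] at hc
  have hc' := (mul_eq_zero.mp hc).resolve_left (pow_ne_zero _ (inv_ne_zero hJ))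
  intro i
  have := h (fun i => (c i).reflect (M - m i)) hc' i
  rw [← Polynomial.reflect_map] at this
  exact Polynomial.reflect_eq_zero_iff.mp this

/-- spanning is preserved by `g ↦ g⁻¹`, `θ i ↦ θ i * g⁻¹ ^ m i`. -/
theorem hspan_swap {k F : Type*} [Field k] [Field F] [Algebra k F] (g : F) (hg : g ≠ 0)
    {n : ℕ} (t : Fin n → F) (m : Fin n → ℕ) (x : F)
    (h : ∃ (s : Polynomial k) (b : Fin n → Polynomial k), s ≠ 0 ∧
      Polynomial.aeval g s * x = ∑ i, Polynomial.aeval g (b i) * t i) :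
    ∃ (s : Polynomial k) (b : Fin n → Polynomial k), s ≠ 0 ∧
      Polynomial.aeval g⁻¹ s * x = ∑ i, Polynomial.aeval g⁻¹ (b i) * (t i * g⁻¹ ^ m i) := by
  classical
  obtain ⟨s, b, hs, hsb⟩ := h
  set M : ℕ := s.natDegree + ∑ i, (b i).natDegree with hM
  set M' : ℕ := ∑ i, m i with hM'
  have hsM : s.natDegree ≤ M := Nat.le_add_right _ _
  have hbM : ∀ i, (b i).natDegree ≤ M := fun i =>
    (Finset.single_le_sum (f := fun i => (b i).natDegree) (fun _ _ => Nat.zero_le _)
      (Finset.mem_univ i)).trans (Nat.le_add_left _ _)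
  have hmM : ∀ i, m i ≤ M' := fun i =>
    Finset.single_le_sum (f := fun i => m i) (fun _ _ => Nat.zero_le _) (Finset.mem_univ i)
  have hginv : g⁻¹ ≠ 0 := inv_ne_zero hg
  -- `aeval g p = aeval g⁻¹ (reflect M p) * g ^ M`
  have hr : ∀ p : Polynomial k, p.natDegree ≤ M →
      Polynomial.aeval g p = Polynomial.aeval g⁻¹ (Polynomial.reflect M p) * g ^ M := by
    intro p hp
    have := aeval_inv_eq_reflect g⁻¹ hginv M p hp
    rwa [inv_inv] at this
  refine ⟨Polynomial.X ^ M' * Polynomial.reflect M s,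
    fun i => Polynomial.X ^ (M' - m i) * Polynomial.reflect M (b i),
    mul_ne_zero (pow_ne_zero _ Polynomial.X_ne_zero)
      (fun h0 => hs (Polynomial.reflect_eq_zero_iff.mp h0)), ?_⟩
  rw [hr s hsM, Finset.sum_congr rfl (fun i _ => by rw [hr (b i) (hbM i)])] at hsb
  have hgM : g ^ M ≠ 0 := pow_ne_zero _ hg
  have h1 : Polynomial.aeval g⁻¹ (Polynomial.reflect M s) * x
      = ∑ i, Polynomial.aeval g⁻¹ (Polynomial.reflect M (b i)) * t i := by
    apply mul_right_cancel₀ hgM
    rw [Finset.sum_mul]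
    calc Polynomial.aeval g⁻¹ (Polynomial.reflect M s) * x * g ^ M
        = Polynomial.aeval g⁻¹ (Polynomial.reflect M s) * g ^ M * x := by ring
      _ = _ := hsb
      _ = _ := Finset.sum_congr rfl (fun i _ => by ring)
  simp only [map_mul, map_pow, Polynomial.aeval_X]
  rw [mul_assoc, h1, Finset.mul_sum]
  refine Finset.sum_congr rfl (fun i _ => ?_)
  have h2 : g⁻¹ ^ M' = g⁻¹ ^ (M' - m i) * g⁻¹ ^ m i := by
    rw [← pow_add]; congr 1; have := hmM i; omega
  rw [h2]; ring

theorem transcendental_inv {K L : Type*} [Field K] [Field L] [Algebra K L] {J : L}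
    (h : Transcendental K J) : Transcendental K J⁻¹ := fun h' =>
  h (IsAlgebraic.inv_iff.mp h')

end Fermat.Agent.S28.Final
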