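import Mathlib
import Fermat.Prelude.Def_ModularCurve_IgusaScheme

set_option autoImplicit false
set_option linter.style.haveILetI false
set_option linter.unusedSectionVars false

open AlgebraicGeometry CategoryTheory CategoryTheory.Limits

namespace Fermat.Agent.S28

universe u

theorem irreducibleSpace_of_two_opens {Y : Type*} [TopologicalSpace Y] (U V : Set Y)
    (hU : IsIrreducible U) (hV : IsIrreducible V) (hUo : IsOpen U)
    (hUV : (U ∩ V).Nonempty) (hcov : U ∪ V = Set.univ) : IrreducibleSpace Y := by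
  have h1 : V ⊆ closure U := by
    have h2 : V ⊆ closure (V ∩ U) :=
      subset_closure_inter_of_isPreirreducible_of_isOpen hV.isPreirreducible hUo
        (by rwa [Set.inter_comm])
    exact h2.trans (closure_mono Set.inter_subset_right)
  have h3 : closure U = Set.univ := by
    apply Set.eq_univ_of_univ_subset
    rw [← hcov]
    exact Set.union_subset subset_closure h1
  have h4 : IsIrreducible (Set.univ : Set Y) := h3 ▸ hU.closure
  exact (irreducibleSpace_def Y).mpr h4

theorem isIntegral_of_two_charts {Y U V : Scheme.{u}} (f : U ⟶ Y) (g : V ⟶ Y)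
    [IsOpenImmersion f] [IsOpenImmersion g] [IsIntegral U] [IsIntegral V]
    (hcov : ∀ y : Y, y ∈ Set.range f ∨ y ∈ Set.range g)
    (hne : ∃ (u : U) (v : V), f u = g v) : IsIntegral Y := by
  let 𝒱 : Y.OpenCover := Scheme.Cover.mkOfCovers Bool (fun b => cond b U V)
    (fun b => match b with
      | true => f
      | false => g)
    (fun y => by
      rcases hcov y with ⟨u, hu⟩ | ⟨v, hv⟩
      · exact ⟨true, u, hu⟩
      · exact ⟨false, v, hv⟩)
    (fun b => by
      cases b
      · exact (inferInstance : IsOpenImmersion g)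
      · exact (inferInstance : IsOpenImmersion f))
  haveI : ∀ i, IsReduced (𝒱.X i) := by
    intro b
    cases b
    · exact (inferInstance : IsReduced V)
    · exact (inferInstance : IsReduced U)
  haveI : IsReduced Y := IsReduced.of_openCover _ 𝒱
  haveI : IrreducibleSpace Y := by
    refine irreducibleSpace_of_two_opens (Set.range f) (Set.range g) ?_ ?_ ?_ ?_ ?_
    · rw [← Set.image_univ]
      exact (IrreducibleSpace.isIrreducible_univ U).image _ f.continuous.continuousOn
    · rw [← Set.image_univ]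
      exact (IrreducibleSpace.isIrreducible_univ V).image _ g.continuous.continuousOn
    · exact f.isOpenEmbedding.isOpen_range
    · obtain ⟨u, v, huv⟩ := hne
      exact ⟨f u, ⟨u, rfl⟩, ⟨v, huv.symm⟩⟩
    · ext y
      simpa using hcov y
  exact isIntegral_of_irreducibleSpace_of_isReduced Y

open ModularCurve ModularCurve.IgusaScheme TensorProduct

section Igusa

variable (N : ℕ) [NeZero N] (ℓ : ℕ) [Fact ℓ.Prime]
variable (K : Type) [Field K] [Algebra ↥(GaloisRep.ratLocalizedAt ℓ) K]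


theorem isIntegral_pullback_Spec (B : Type) [CommRing B] [Algebra ↥(GaloisRep.ratLocalizedAt ℓ) B]
    (h : IsDomain (B ⊗[↥(GaloisRep.ratLocalizedAt ℓ)] K)) :
    IsIntegral (pullback (Spec.map (CommRingCat.ofHom (algebraMap ↥(GaloisRep.ratLocalizedAt ℓ) B)))
      (Spec.map (CommRingCat.ofHom (algebraMap ↥(GaloisRep.ratLocalizedAt ℓ) K)))) := by
  haveI : IsDomain (CommRingCat.of (B ⊗[↥(GaloisRep.ratLocalizedAt ℓ)] K)) := h
  exact IsIntegral.of_isIso (pullbackSpecIso ↥(GaloisRep.ratLocalizedAt ℓ) B K).inv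

theorem nonempty_pullback_Spec (B : Type) [CommRing B] [Algebra ↥(GaloisRep.ratLocalizedAt ℓ) B]
    (h : Nontrivial (B ⊗[↥(GaloisRep.ratLocalizedAt ℓ)] K)) :
    Nonempty (pullback (Spec.map (CommRingCat.ofHom (algebraMap ↥(GaloisRep.ratLocalizedAt ℓ) B)))
      (Spec.map (CommRingCat.ofHom (algebraMap ↥(GaloisRep.ratLocalizedAt ℓ) K))) : Scheme) := by
  haveI : Nontrivial (CommRingCat.of (B ⊗[↥(GaloisRep.ratLocalizedAt ℓ)] K)) := h
  obtain ⟨x⟩ : Nonempty (Spec (CommRingCat.of (B ⊗[↥(GaloisRep.ratLocalizedAt ℓ)] K))) :=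
    inferInstanceAs (Nonempty (PrimeSpectrum (B ⊗[↥(GaloisRep.ratLocalizedAt ℓ)] K)))
  exact ⟨(pullbackSpecIso ↥(GaloisRep.ratLocalizedAt ℓ) B K).inv x⟩

theorem isIntegral_pullback_igusaTo
    (hFin : IsDomain ((chartAlgFin N ℓ) ⊗[↥(GaloisRep.ratLocalizedAt ℓ)] K))
    (hInf : IsDomain ((chartAlgInf N ℓ) ⊗[↥(GaloisRep.ratLocalizedAt ℓ)] K))
    (hMid : Nontrivial ((chartAlgMid N ℓ) ⊗[↥(GaloisRep.ratLocalizedAt ℓ)] K)) :
    IsIntegral ↑(pullback (igusaTo N ℓ)
      (Spec.map (CommRingCat.ofHom (algebraMap ↥(GaloisRep.ratLocalizedAt ℓ) K)))) := by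
  set g := Spec.map (CommRingCat.ofHom (algebraMap ↥(GaloisRep.ratLocalizedAt ℓ) K)) with hg
  set π := igusaTo N ℓ with hπ
  -- the two charts
  let jFin : pullback (ιFin N ℓ ≫ π) g ⟶ pullback π g :=
    pullback.map (ιFin N ℓ ≫ π) g π g (ιFin N ℓ) (𝟙 _) (𝟙 _) (by simp) (by simp)
  let jInf : pullback (ιInf N ℓ ≫ π) g ⟶ pullback π g :=
    pullback.map (ιInf N ℓ ≫ π) g π g (ιInf N ℓ) (𝟙 _) (𝟙 _) (by simp) (by simp)
  haveI : IsOpenImmersion jFin := inferInstance
  haveI : IsOpenImmersion jInf := inferInstance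
  haveI : IsIntegral (pullback (ιFin N ℓ ≫ π) g) := by
    haveI := isIntegral_pullback_Spec ℓ K (chartAlgFin N ℓ) hFin
    exact IsIntegral.of_isIso (pullback.congrHom (ιFin_igusaTo N ℓ) (rfl : g = g)).inv
  haveI : IsIntegral (pullback (ιInf N ℓ ≫ π) g) := by
    haveI := isIntegral_pullback_Spec ℓ K (chartAlgInf N ℓ) hInf
    exact IsIntegral.of_isIso (pullback.congrHom (ιInf_igusaTo N ℓ) (rfl : g = g)).inv
  refine isIntegral_of_two_charts jFin jInf ?_ ?_
  · intro y
    let 𝒰 : (ModularCurve.IgusaScheme N ℓ).OpenCover :=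
      Scheme.Cover.mkOfCovers Bool (fun b => cond b (XFin N ℓ) (XInf N ℓ))
        (fun b => match b with
          | true => ιFin N ℓ
          | false => ιInf N ℓ)
        (fun x => by
          rcases mem_range_ιFin_or_mem_range_ιInf N ℓ x with ⟨u, hu⟩ | ⟨v, hv⟩
          · exact ⟨true, u, hu⟩
          · exact ⟨false, v, hv⟩)
        (fun b => by
          cases b
          · exact (inferInstance : IsOpenImmersion (ιInf N ℓ))
          · exact (inferInstance : IsOpenImmersion (ιFin N ℓ)))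
    obtain ⟨b, z, hz⟩ := (Scheme.Pullback.openCoverOfLeft 𝒰 π g).exists_eq y
    cases b
    · exact Or.inr ⟨z, hz⟩
    · exact Or.inl ⟨z, hz⟩
  · have hmid : fFin N ℓ ≫ ιFin N ℓ ≫ π =
        Spec.map (CommRingCat.ofHom (algebraMap ↥(GaloisRep.ratLocalizedAt ℓ) (chartAlgMid N ℓ))) := by
      rw [hπ, ιFin_igusaTo, ← Spec.map_comp, ← CommRingCat.ofHom_comp]
      congr 2
    obtain ⟨w₀⟩ := nonempty_pullback_Spec ℓ K (chartAlgMid N ℓ) hMid
    obtain ⟨w⟩ : Nonempty ↑(pullback (fFin N ℓ ≫ ιFin N ℓ ≫ π) g) :=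
      ⟨(pullback.congrHom hmid (rfl : g = g)).inv w₀⟩
    let m₁ : pullback (fFin N ℓ ≫ ιFin N ℓ ≫ π) g ⟶ pullback (ιFin N ℓ ≫ π) g :=
      pullback.map _ _ _ _ (fFin N ℓ) (𝟙 _) (𝟙 _) (by simp) (by simp)
    let m₂ : pullback (fFin N ℓ ≫ ιFin N ℓ ≫ π) g ⟶ pullback (ιInf N ℓ ≫ π) g :=
      pullback.map _ _ _ _ (fInf N ℓ) (𝟙 _) (𝟙 _)
        (by rw [Category.comp_id, ← Category.assoc, ← Category.assoc, glue_condition]) (by simp)
    have hm : m₁ ≫ jFin = m₂ ≫ jInf := by
      apply pullback.hom_ext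
      · simp only [m₁, m₂, jFin, jInf, pullback.map, Category.assoc, pullback.lift_fst,
          pullback.lift_fst_assoc, glue_condition]
      · simp only [m₁, m₂, jFin, jInf, pullback.map, Category.assoc, pullback.lift_snd,
          pullback.lift_snd_assoc]
    refine ⟨m₁ w, m₂ w, ?_⟩
    rw [← Scheme.Hom.comp_apply, ← Scheme.Hom.comp_apply, hm]

end Igusa

end Fermat.Agent.S28
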