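import Fermat.Agent.S28.Alg
import Fermat.Agent.S28.FinalA
import Fermat.Agent.S28.FinalB
import Fermat.Agent.S28.FinalC
import Fermat.Agent.S28.Scheme

set_option autoImplicit false
set_option linter.style.haveILetI false

noncomputable section

namespace Fermat.Agent.S28.Final

open ModularCurve ModularCurve.IgusaScheme HahnSeries TensorProduct
open AlgebraicGeometry CategoryTheory CategoryTheory.Limits

variable (N : ℕ) [NeZero N] (ℓ : ℕ) [Fact ℓ.Prime]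

theorem coe_jFull_eq : ((jFull N : ↥(modularFunctionFieldFull N)) : LaurentSeries ℚ) =
    coeffMap (Int.castRingHom ℚ) (jqModC ℤ) := by
  rw [coeffMap_jqModC, jqModC_rat]; rfl

theorem coe_jNFull_pow_eq (i : ℕ) :
    ((jNFull N ^ i : ↥(modularFunctionFieldFull N)) : LaurentSeries ℚ) =
    coeffMap (Int.castRingHom ℚ) (jqNModC ℤ N ^ i) := by
  rw [map_pow, coeffMap_jqNModC]; rfl

theorem coe_jFull_inv_eq : (((jFull N)⁻¹ : ↥(modularFunctionFieldFull N)) : LaurentSeries ℚ) =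
    coeffMap (Int.castRingHom ℚ) jInvZ := by
  have h := congrArg (coeffMap (Int.castRingHom ℚ)) jqModC_mul_jInvZ
  rw [map_mul, map_one, ← coe_jFull_eq N] at h
  rw [IntermediateField.coe_inv]
  exact inv_eq_of_mul_eq_one_right h

theorem coeffMap_jInvZ (K : Type*) [Field K] :
    coeffMap (Int.castRingHom K) jInvZ = (jqModC K)⁻¹ := by
  have h := congrArg (coeffMap (Int.castRingHom K)) jqModC_mul_jInvZ
  rw [map_mul, map_one, coeffMap_jqModC] at h
  exact (inv_eq_of_mul_eq_one_right h).symm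

variable (K : Type) [Field K] [CharP K ℓ] [Algebra (Zl ℓ) K]

theorem fin_main (hℓN : ¬ ℓ ∣ N) :
    IsDomain (↥(chartAlgFin N ℓ) ⊗[Zl ℓ] K) ∧
    ∃ ρ : ↥(chartAlgFin N ℓ) →ₐ[Zl ℓ] LaurentSeries K, ρ (jChartFin N ℓ) = jqModC K := by
  have hg : ((jFull N : ↥(modularFunctionFieldFull N)) : LaurentSeries ℚ) ∈ Dl ℓ := by
    rw [coe_jFull_eq]; exact coeffMap_int_mem_Dl ℓ _
  have e1 : redK ℓ K ⟨jFull N, hg⟩ = jqModC K := by
    rw [redK_of_int ℓ K _ _ (coe_jFull_eq N), coeffMap_jqModC]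
  have hθD : ∀ i : Fin (dedekindPsi N),
      ((jNFull N ^ (i : ℕ) : ↥(modularFunctionFieldFull N)) : LaurentSeries ℚ) ∈ Dl ℓ := by
    intro i
    rw [coe_jNFull_pow_eq]; exact coeffMap_int_mem_Dl ℓ _
  have e2 : ∀ i : Fin (dedekindPsi N),
      redK ℓ K ⟨(jNFull N ^ (i : ℕ) : ↥(modularFunctionFieldFull N)), hθD i⟩ =
        jqNModC K N ^ (i : ℕ) := by
    intro i
    rw [redK_of_int ℓ K _ _ (coe_jNFull_pow_eq N i), map_pow, coeffMap_jqNModC]
  have := alg_main N ℓ K (jFull N) hg (by rw [e1]; exact transcendental_jqModC K)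
    (dedekindPsi N) (fun i => jNFull N ^ (i : ℕ))
    (fun i => jNFull_pow_mem_chartAlgFin N ℓ i) hθD
    (by
      intro c hc
      rw [e1] at hc
      simp_rw [e2] at hc
      exact hind_fin N ℓ hℓN K c hc)
    (hspan_fin N ℓ hℓN)
  refine ⟨this.1, ?_⟩
  obtain ⟨ρ, hρ⟩ := this.2
  exact ⟨ρ, hρ.trans e1⟩

theorem inf_main (hℓN : ¬ ℓ ∣ N) : IsDomain (↥(chartAlgInf N ℓ) ⊗[Zl ℓ] K) := by
  have hg : (((jFull N)⁻¹ : ↥(modularFunctionFieldFull N)) : LaurentSeries ℚ) ∈ Dl ℓ := by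
    rw [coe_jFull_inv_eq]; exact coeffMap_int_mem_Dl ℓ _
  have e1 : redK ℓ K ⟨((jFull N)⁻¹ : ↥(modularFunctionFieldFull N)), hg⟩ = (jqModC K)⁻¹ := by
    rw [redK_of_int ℓ K _ _ (coe_jFull_inv_eq N), coeffMap_jInvZ]
  have hm : ∀ i : Fin (dedekindPsi N), ∃ m : ℕ,
      jNFull N ^ (i : ℕ) * (jFull N)⁻¹ ^ m ∈ chartAlgInf N ℓ := by
    intro i
    have h1 : jNFull N ^ (i : ℕ) ∈ chartAlg N ℓ (insert (jFull N)⁻¹⁻¹ {(jFull N)⁻¹}) := by
      rw [inv_inv]
      exact chartAlg_mono N ℓ (sFin_subset N) (jNFull_pow_mem_chartAlgFin N ℓ i)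
    obtain ⟨m, hm⟩ := exists_pow_mul_mem_chartAlg (Set.mem_singleton _)
      (inv_ne_zero (jFull_ne_zero N)) h1
    exact ⟨m, by rw [mul_comm]; exact hm⟩
  choose m hm using hm
  have hco : ∀ i : Fin (dedekindPsi N),
      ((jNFull N ^ (i : ℕ) * (jFull N)⁻¹ ^ m i : ↥(modularFunctionFieldFull N)) :
        LaurentSeries ℚ) = coeffMap (Int.castRingHom ℚ) (jqNModC ℤ N ^ (i : ℕ) * jInvZ ^ m i) := by
    intro i
    rw [map_mul, map_pow _ jInvZ, ← coe_jFull_inv_eq N, ← coe_jNFull_pow_eq]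
    rfl
  have hθD : ∀ i : Fin (dedekindPsi N),
      ((jNFull N ^ (i : ℕ) * (jFull N)⁻¹ ^ m i : ↥(modularFunctionFieldFull N)) :
        LaurentSeries ℚ) ∈ Dl ℓ := by
    intro i
    rw [hco]; exact coeffMap_int_mem_Dl ℓ _
  have e2 : ∀ i : Fin (dedekindPsi N),
      redK ℓ K ⟨(jNFull N ^ (i : ℕ) * (jFull N)⁻¹ ^ m i : ↥(modularFunctionFieldFull N)), hθD i⟩ =
        jqNModC K N ^ (i : ℕ) * (jqModC K)⁻¹ ^ m i := by
    intro i
    rw [redK_of_int ℓ K _ _ (hco i), map_mul, map_pow, map_pow, coeffMap_jqNModC, coeffMap_jInvZ]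
  have hJ0 : jqModC K ≠ 0 := fun h => by
    have := order_jqModC K
    rw [h, HahnSeries.order_zero] at this
    exact lt_irrefl _ this
  exact (alg_main N ℓ K (jFull N)⁻¹ hg
    (by rw [e1]; exact transcendental_inv (transcendental_jqModC K))
    (dedekindPsi N) (fun i => jNFull N ^ (i : ℕ) * (jFull N)⁻¹ ^ m i) hm hθD
    (by
      intro c hc
      rw [e1] at hc
      simp_rw [e2] at hc
      exact hind_swap (algebraMap (Zl ℓ) K) (jqModC K) hJ0 (fun i => jqNModC K N ^ (i : ℕ)) m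
        (fun c hc => hind_fin N ℓ hℓN K c hc) c hc)
    (fun x => hspan_swap (jFull N) (jFull_ne_zero N) (fun i => jNFull N ^ (i : ℕ)) m x
      (hspan_fin N ℓ hℓN x))).1

theorem mid_main (hℓN : ¬ ℓ ∣ N) : Nontrivial (↥(chartAlgMid N ℓ) ⊗[Zl ℓ] K) := by
  obtain ⟨ρ, hρ⟩ := (fin_main N ℓ K hℓN).2
  have hJ0 : jqModC K ≠ 0 := fun h => by
    have := order_jqModC K
    rw [h, HahnSeries.order_zero] at this
    exact lt_irrefl _ this
  letI := (inclFin N ℓ).toRingHom.toAlgebra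
  haveI := isLocalization_away_inclFin N ℓ
  have hu : IsUnit ((ρ : ↥(chartAlgFin N ℓ) →+* LaurentSeries K) (jChartFin N ℓ)) := by
    show IsUnit (ρ (jChartFin N ℓ))
    rw [hρ]; exact hJ0.isUnit
  let ρ' : ↥(chartAlgMid N ℓ) →+* LaurentSeries K :=
    IsLocalization.Away.lift (jChartFin N ℓ) hu
  have hρ' : ∀ a : ↥(chartAlgFin N ℓ), ρ' (inclFin N ℓ a) = ρ a := fun a =>
    IsLocalization.Away.lift_eq (jChartFin N ℓ) hu a
  let ρa : ↥(chartAlgMid N ℓ) →ₐ[Zl ℓ] LaurentSeries K :=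
    { ρ' with
      commutes' := fun r => by
        show ρ' (algebraMap (Zl ℓ) ↥(chartAlgMid N ℓ) r) = _
        rw [← (inclFin N ℓ).commutes r, hρ', ρ.commutes] }
  let κ : K →ₐ[Zl ℓ] LaurentSeries K :=
    { algebraMap K (LaurentSeries K) with
      commutes' := fun r => by
        show algebraMap K (LaurentSeries K) (algebraMap (Zl ℓ) K r) = _
        rw [HahnSeries.algebraMap_apply', HahnSeries.algebraMap_apply',
          PowerSeries.algebraMap_apply, PowerSeries.algebraMap_apply]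
        simp }
  haveI : @IsScalarTower (Zl ℓ) (Zl ℓ) (LaurentSeries K) Algebra.toSMul Algebra.toSMul
      Algebra.toSMul := IsScalarTower.of_algebraMap_eq (fun _ => rfl)
  let Ψ : ↥(chartAlgMid N ℓ) ⊗[Zl ℓ] K →ₐ[Zl ℓ] LaurentSeries K :=
    Algebra.TensorProduct.lift ρa κ (fun _ _ => Commute.all _ _)
  exact Ψ.toRingHom.domain_nontrivial

theorem main (hℓN : ¬ ℓ ∣ N) :
    IsIntegral ↑(pullback (igusaTo N ℓ)
      (Spec.map (CommRingCat.ofHom (algebraMap ↥(GaloisRep.ratLocalizedAt ℓ) K)))) :=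
  isIntegral_pullback_igusaTo N ℓ K (fin_main N ℓ K hℓN).1 (inf_main N ℓ K hℓN) (mid_main N ℓ K hℓN)

end Fermat.Agent.S28.Final
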