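import Fermat.Agent.S28.Rel
import Fermat.Agent.S24.Mer

set_option autoImplicit false

open UpperHalfPlane ModularForm EisensteinSeries ModularCurve
open scoped MatrixGroups Manifold Real

noncomputable section

namespace Fermat.Agent.S28

open Fermat.Agent.S24 Fermat.Agent.S24.MerAux

theorem rel_one (N : ℕ) [NeZero N] : Rel N (1 : ℍ → ℂ) (HahnSeries.C 1) := by
  have h := Rel.const N 1
  have e : (fun _ : ℍ => (((1 : Zb) : ℂ))) = 1 := by ext; simp
  rwa [e] at h

theorem rel_zero (N : ℕ) [NeZero N] : Rel N (0 : ℍ → ℂ) (HahnSeries.C 0) := by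
  have h := Rel.const N 0
  have e : (fun _ : ℍ => (((0 : Zb) : ℂ))) = 0 := by ext; simp
  rwa [e] at h

/-- holomorphic functions invariant under `Γ(N)`, all of whose `SL(2,ℤ)`-translates have a Laurent
expansion in `q_N` with coefficients in `Zb`. -/
def AL (N : ℕ) [NeZero N] : Subring Hol where
  carrier := {f | (∀ γ ∈ CongruenceSubgroup.Gamma N, holAct γ f = f) ∧
    ∀ g : SL(2, ℤ), ∃ s : LaurentSeries Zb, Rel N (holAct g f : ℍ → ℂ) s}
  mul_mem' := fun {f g} hf hg => ⟨fun γ hγ => by rw [map_mul, hf.1 γ hγ, hg.1 γ hγ], fun h => by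
    obtain ⟨s, hs⟩ := hf.2 h
    obtain ⟨t, ht⟩ := hg.2 h
    exact ⟨s * t, by rw [map_mul]; exact hs.mul ht⟩⟩
  one_mem' := ⟨fun γ _ => map_one _, fun h => ⟨HahnSeries.C 1, by
    rw [map_one]; exact rel_one N⟩⟩
  add_mem' := fun {f g} hf hg => ⟨fun γ hγ => by rw [map_add, hf.1 γ hγ, hg.1 γ hγ], fun h => by
    obtain ⟨s, hs⟩ := hf.2 h
    obtain ⟨t, ht⟩ := hg.2 h
    exact ⟨s + t, by rw [map_add]; exact hs.add ht⟩⟩
  zero_mem' := ⟨fun γ _ => map_zero _, fun h => ⟨HahnSeries.C 0, by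
    rw [map_zero]; exact rel_zero N⟩⟩
  neg_mem' := fun {f} hf => ⟨fun γ hγ => by rw [map_neg, hf.1 γ hγ], fun h => by
    obtain ⟨s, hs⟩ := hf.2 h
    exact ⟨-s, by rw [map_neg]; exact hs.neg⟩⟩

variable (N : ℕ) [NeZero N]

theorem mem_AL {f : Hol} : f ∈ AL N ↔ (∀ γ ∈ CongruenceSubgroup.Gamma N, holAct γ f = f) ∧
    ∀ g : SL(2, ℤ), ∃ s : LaurentSeries Zb, Rel N (holAct g f : ℍ → ℂ) s := Iff.rfl

theorem holAct_mem_AL (g : SL(2, ℤ)) {f : Hol} (hf : f ∈ AL N) : holAct g f ∈ AL N := by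
  refine ⟨fun γ hγ => ?_, fun h => ?_⟩
  · have h1 : g⁻¹ * γ * g ∈ CongruenceSubgroup.Gamma N := by
      have := (CongruenceSubgroup.Gamma_normal N).conj_mem γ hγ g⁻¹
      simpa using this
    have h2 := hf.1 _ h1
    rw [← holAct_mul, show γ * g = g * (g⁻¹ * γ * g) by group, holAct_mul, h2]
  · rw [← holAct_mul]
    exact hf.2 _

instance : MulSemiringAction SL(2, ℤ) (AL N) where
  smul g f := ⟨holAct g f.1, holAct_mem_AL N g f.2⟩
  one_smul f := Subtype.ext (holAct_one f.1)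
  mul_smul g h f := Subtype.ext (holAct_mul g h f.1)
  smul_zero g := Subtype.ext (map_zero _)
  smul_add g f f' := Subtype.ext (map_add _ _ _)
  smul_one g := Subtype.ext (map_one _)
  smul_mul g f f' := Subtype.ext (map_mul _ _ _)

theorem coe_smul_AL (g : SL(2, ℤ)) (f : AL N) : ((g • f : AL N) : Hol) = holAct g f.1 := rfl

theorem smul_eq_of_mem_Gamma {γ : SL(2, ℤ)} (hγ : γ ∈ CongruenceSubgroup.Gamma N) (f : AL N) :
    γ • f = f := Subtype.ext (f.2.1 γ hγ)

theorem exists_rel (f : AL N) : ∃ s : LaurentSeries Zb, Rel N (f.1 : ℍ → ℂ) s := by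
  obtain ⟨s, hs⟩ := f.2.2 1
  rw [holAct_one] at hs
  exact ⟨s, hs⟩

/-- the expansion at infinity -/
def eps : AL N →+* LaurentSeries Zb where
  toFun f := (exists_rel N f).choose
  map_one' := (exists_rel N 1).choose_spec.unique (by simpa using rel_one N)
  map_mul' f g := (exists_rel N (f * g)).choose_spec.unique
    ((exists_rel N f).choose_spec.mul (exists_rel N g).choose_spec)
  map_zero' := (exists_rel N 0).choose_spec.unique (by simpa using rel_zero N)
  map_add' f g := (exists_rel N (f + g)).choose_spec.unique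
    ((exists_rel N f).choose_spec.add (exists_rel N g).choose_spec)

theorem rel_eps (f : AL N) : Rel N (f.1 : ℍ → ℂ) (eps N f) := (exists_rel N f).choose_spec

theorem eps_eq {f : AL N} {s : LaurentSeries Zb} (h : Rel N (f.1 : ℍ → ℂ) s) : eps N f = s :=
  (rel_eps N f).unique h

theorem eps_injective : Function.Injective (eps N) := fun f g h =>
  Subtype.ext (Subtype.ext ((rel_eps N f).eq_of (h ▸ rel_eps N g)))

end Fermat.Agent.S28
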