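import Fermat.Agent.S28.RedK

set_option autoImplicit false

noncomputable section

namespace Fermat.Agent.S28

open ModularCurve ModularCurve.IgusaScheme HahnSeries Polynomial

variable (N : ℕ) [NeZero N] (ℓ : ℕ) [Fact ℓ.Prime]

/-- the value in `ℚ((q))` of an `ℓ`-integral polynomial in `g ∈ F`. -/
theorem coe_aeval_F (g : ↥(modularFunctionFieldFull N))
    (p : Polynomial ↥(GaloisRep.ratLocalizedAt ℓ)) :
    ((aeval g p : ↥(modularFunctionFieldFull N)) : LaurentSeries ℚ) =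
      aeval (g : LaurentSeries ℚ) (p.map (algebraMap ↥(GaloisRep.ratLocalizedAt ℓ) ℚ)) := by
  have hcomp : ((modularFunctionFieldFull N).val : ↥(modularFunctionFieldFull N) →+* LaurentSeries ℚ).comp
      (algebraMap ↥(GaloisRep.ratLocalizedAt ℓ) ↥(modularFunctionFieldFull N)) =
      (algebraMap ℚ (LaurentSeries ℚ)).comp (algebraMap ↥(GaloisRep.ratLocalizedAt ℓ) ℚ) := by
    have h1 : ((modularFunctionFieldFull N).val :
        ↥(modularFunctionFieldFull N) →+* LaurentSeries ℚ).comp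
        (algebraMap ℚ ↥(modularFunctionFieldFull N)) = algebraMap ℚ (LaurentSeries ℚ) :=
      RingHom.ext_rat _ _
    rw [← h1]; rfl
  rw [aeval_def, aeval_def, eval₂_map, ← hcomp]
  exact Polynomial.hom_eval₂ p _
    ((modularFunctionFieldFull N).val : ↥(modularFunctionFieldFull N) →+* LaurentSeries ℚ) g

variable (K : Type*) [Field K] [CharP K ℓ] [Algebra ↥(GaloisRep.ratLocalizedAt ℓ) K]

variable {N} (g : ↥(modularFunctionFieldFull N)) (hg : (g : LaurentSeries ℚ) ∈ Dl ℓ)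

include hg in
theorem coe_aeval_F_mem_Dl (p : Polynomial ↥(GaloisRep.ratLocalizedAt ℓ)) :
    ((aeval g p : ↥(modularFunctionFieldFull N)) : LaurentSeries ℚ) ∈ Dl ℓ := by
  rw [coe_aeval_F]; exact aeval_mem_Dl ℓ hg p

theorem redK_aeval_F (p : Polynomial ↥(GaloisRep.ratLocalizedAt ℓ)) :
    redK ℓ K ⟨((aeval g p : ↥(modularFunctionFieldFull N)) : LaurentSeries ℚ),
        coe_aeval_F_mem_Dl ℓ g hg p⟩ =
      aeval (redK ℓ K ⟨g, hg⟩) (p.map (algebraMap ↥(GaloisRep.ratLocalizedAt ℓ) K)) := by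
  rw [← redK_aeval ℓ K hg p]
  congr 1
  exact Subtype.ext (coe_aeval_F N ℓ g p)

variable (hgt : Transcendental K (redK ℓ K ⟨g, hg⟩))

include hgt

/-- `g` is transcendental over `ℤ_(ℓ)` as its reduction is transcendental over `K`. -/
theorem transcendental_of_redK : Transcendental ↥(GaloisRep.ratLocalizedAt ℓ) g := by
  rw [transcendental_iff]
  intro p hp
  by_contra hp0
  have hinj : Function.Injective (algebraMap ↥(GaloisRep.ratLocalizedAt ℓ) ℚ) :=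
    Subtype.val_injective
  have hp1 : p.map (algebraMap ↥(GaloisRep.ratLocalizedAt ℓ) ℚ) ≠ 0 := by
    rwa [Ne, Polynomial.map_eq_zero_iff hinj]
  obtain ⟨c, s0, hc, hs, hs0⟩ := RLoc.exists_primitive ℓ K _ hp1
  have h1 : aeval (g : LaurentSeries ℚ) (p.map (algebraMap ↥(GaloisRep.ratLocalizedAt ℓ) ℚ)) = 0 := by
    rw [← coe_aeval_F, hp]; rfl
  rw [hs, map_mul, aeval_C] at h1
  have hc' : algebraMap ℚ (LaurentSeries ℚ) c ≠ 0 := by
    rw [Ne, map_eq_zero]; exact hc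
  have h2 := (mul_eq_zero.mp h1).resolve_left hc'
  have h3 := redK_aeval ℓ K hg s0
  have h4 : (⟨aeval (g : LaurentSeries ℚ) (s0.map (algebraMap ↥(GaloisRep.ratLocalizedAt ℓ) ℚ)),
      aeval_mem_Dl ℓ hg s0⟩ : Dl ℓ) = 0 := Subtype.ext h2
  rw [h4, redK_zero] at h3
  exact hs0 ((transcendental_iff.mp hgt) _ h3.symm)

/-- `ℤ_(ℓ)[X] ≃ ℤ_(ℓ)[g]`. -/
def adjoinEquiv : Polynomial ↥(GaloisRep.ratLocalizedAt ℓ) ≃ₐ[↥(GaloisRep.ratLocalizedAt ℓ)]
    ↥(Algebra.adjoin ↥(GaloisRep.ratLocalizedAt ℓ) {g}) :=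
  (AlgEquiv.ofInjective (aeval g)
    (transcendental_iff_injective.mp (transcendental_of_redK ℓ K g hg hgt))).trans
    (Subalgebra.equivOfEq _ _ (Algebra.adjoin_singleton_eq_range_aeval _ g).symm)

theorem coe_adjoinEquiv (p : Polynomial ↥(GaloisRep.ratLocalizedAt ℓ)) :
    (adjoinEquiv ℓ K g hg hgt p : ↥(modularFunctionFieldFull N)) = aeval g p := rfl

theorem isIntegrallyClosed_adjoin :
    IsIntegrallyClosed ↥(Algebra.adjoin ↥(GaloisRep.ratLocalizedAt ℓ) {g}) :=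
  IsIntegrallyClosed.of_equiv (adjoinEquiv ℓ K g hg hgt).toRingEquiv

theorem prime_ell_adjoin :
    Prime (ℓ : ↥(Algebra.adjoin ↥(GaloisRep.ratLocalizedAt ℓ) {g})) := by
  have h := (MulEquiv.prime_iff (adjoinEquiv ℓ K g hg hgt)).mpr (RLoc.prime_C_ell ℓ)
  have h2 : adjoinEquiv ℓ K g hg hgt (Polynomial.C (ℓ : ↥(GaloisRep.ratLocalizedAt ℓ))) =
      (ℓ : ↥(Algebra.adjoin ↥(GaloisRep.ratLocalizedAt ℓ) {g})) := by
    rw [map_natCast Polynomial.C, map_natCast]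
  rwa [h2] at h

theorem aeval_mem_adjoin (s : Polynomial ↥(GaloisRep.ratLocalizedAt ℓ)) :
    aeval g s ∈ Algebra.adjoin ↥(GaloisRep.ratLocalizedAt ℓ) {g} :=
  (adjoinEquiv ℓ K g hg hgt s).2

theorem ell_dvd_aeval_iff (s : Polynomial ↥(GaloisRep.ratLocalizedAt ℓ)) :
    (ℓ : ↥(Algebra.adjoin ↥(GaloisRep.ratLocalizedAt ℓ) {g})) ∣
        ⟨aeval g s, aeval_mem_adjoin ℓ K g hg hgt s⟩ ↔
      s.map (algebraMap ↥(GaloisRep.ratLocalizedAt ℓ) K) = 0 := by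
  rw [RLoc.map_eq_zero_iff ℓ K, ← map_dvd_iff (adjoinEquiv ℓ K g hg hgt)]
  have h2 : adjoinEquiv ℓ K g hg hgt (Polynomial.C (ℓ : ↥(GaloisRep.ratLocalizedAt ℓ))) =
      (ℓ : ↥(Algebra.adjoin ↥(GaloisRep.ratLocalizedAt ℓ) {g})) := by
    rw [map_natCast Polynomial.C, map_natCast]
  rw [h2]
  rfl

theorem not_ell_dvd_aeval (s : Polynomial ↥(GaloisRep.ratLocalizedAt ℓ))
    (hs : s.map (algebraMap ↥(GaloisRep.ratLocalizedAt ℓ) K) ≠ 0) :
    ¬ (ℓ : ↥(Algebra.adjoin ↥(GaloisRep.ratLocalizedAt ℓ) {g})) ∣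
        ⟨aeval g s, aeval_mem_adjoin ℓ K g hg hgt s⟩ :=
  fun h => hs ((ell_dvd_aeval_iff ℓ K g hg hgt s).mp h)

/-- every element of `ℤ_(ℓ)[g]` is a polynomial in `g`. -/
theorem exists_aeval_eq (a : ↥(Algebra.adjoin ↥(GaloisRep.ratLocalizedAt ℓ) {g})) :
    ∃ s : Polynomial ↥(GaloisRep.ratLocalizedAt ℓ), (a : ↥(modularFunctionFieldFull N)) = aeval g s :=
  ⟨(adjoinEquiv ℓ K g hg hgt).symm a, by
    rw [← coe_adjoinEquiv ℓ K g hg hgt, AlgEquiv.apply_symm_apply]⟩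

end Fermat.Agent.S28
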