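import Mathlib
import Fermat.Prelude.Def_ModularCurve_LaurentCoeff

/-! # S28/ALG : abstract commutative algebra core (helper25) -/

set_option autoImplicit false

noncomputable section

namespace Fermat.Agent.S28.AlgCore

open Polynomial TensorProduct ModularCurve

/-- normality lemma: if `p y` and `s y` are integral over the integrally closed domain `A`,
`p` prime, `p ∤ s`, then `y` is integral. -/
theorem isIntegral_of_smul {A F : Type*} [CommRing A] [IsDomain A] [IsIntegrallyClosed A]
    [Field F] [Algebra A F] [Module.IsTorsionFree A F]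
    {p s : A} (hp : Prime p) (hs : ¬ p ∣ s) {y : F}
    (h1 : IsIntegral A (p • y)) (h2 : IsIntegral A (s • y)) : IsIntegral A y := by
  have hs0 : s ≠ 0 := fun h => hs (h ▸ dvd_zero p)
  have e1 := IsIntegrallyClosed.minpoly_smul hs0 h1
  have e2 := IsIntegrallyClosed.minpoly_smul hp.ne_zero h2
  rw [smul_comm] at e1
  rw [e1] at e2
  set Q := minpoly A (p • y) with hQ
  set P := minpoly A (s • y) with hP
  have hQm : Q.Monic := minpoly.monic h1
  have hd : Q.natDegree = P.natDegree := by
    have := congrArg natDegree e2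
    simpa using this
  have hc : ∀ i, Q.coeff i * s ^ (Q.natDegree - i) = P.coeff i * p ^ (Q.natDegree - i) := by
    intro i
    have := congrArg (fun T => T.coeff i) e2
    simpa [coeff_scaleRoots, hd] using this
  have hdvd : ∀ i, p ^ (Q.natDegree - i) ∣ Q.coeff i := by
    intro i
    have h : p ^ (Q.natDegree - i) ∣ Q.coeff i * s ^ (Q.natDegree - i) := ⟨P.coeff i, by rw [hc]; ring⟩
    exact (hp.pow_dvd_of_dvd_mul_right _ (fun h' => hs (hp.dvd_of_dvd_pow h')) h)
  choose c hcc using hdvd
  have hroot : aeval (p • y) Q = 0 := minpoly.aeval A _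
  set d := Q.natDegree with hdd
  refine ⟨X ^ d + ∑ i ∈ Finset.range d, C (c i) * X ^ i, ?_, ?_⟩
  · apply monic_X_pow_add
    refine (degree_sum_le _ _).trans_lt ?_
    refine (Finset.sup_lt_iff (WithBot.bot_lt_coe d)).mpr ?_
    intro i hi
    exact (degree_C_mul_X_pow_le i _).trans_lt (WithBot.coe_lt_coe.mpr (Finset.mem_range.mp hi))
  · rw [aeval_eq_sum_range, ← hdd, Finset.sum_range_succ, hdd, hQm.coeff_natDegree, ← hdd] at hroot
    have h3 : p ^ d • (y ^ d + ∑ i ∈ Finset.range d, c i • y ^ i) = 0 := by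
      rw [← hroot, smul_add, Finset.smul_sum, add_comm]
      congr 1
      · refine Finset.sum_congr rfl fun i hi => ?_
        have hi' : i ≤ d := (Finset.mem_range.mp hi).le
        rw [hcc i, _root_.smul_pow, smul_smul, smul_smul]
        congr 1
        calc p ^ d * c i = p ^ (d - i + i) * c i := by rw [Nat.sub_add_cancel hi']
          _ = _ := by rw [pow_add]; ring
      · rw [_root_.smul_pow, one_smul]
    have h4 := (smul_eq_zero.mp h3).resolve_left (pow_ne_zero _ hp.ne_zero)
    rw [← h4]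
    simp [eval₂_add, eval₂_finsetSum, Algebra.smul_def]

section Loc

variable {Ω Λ : Type*} [Field Ω] [Field Λ] (D : Subring Ω) (red : D →+* Λ)

/-- the localisation of `D` at the kernel of `red`, realised inside `Ω` -/
def Oloc : Subring Ω where
  carrier := {x | ∃ s : D, red s ≠ 0 ∧ (s : Ω) * x ∈ D}
  mul_mem' := by
    rintro a b ⟨s, hs, ha⟩ ⟨t, ht, hb⟩
    refine ⟨s * t, by rw [map_mul]; exact mul_ne_zero hs ht, ?_⟩
    have : ((s * t : D) : Ω) * (a * b) = (s * a) * (t * b) := by push_cast; ring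
    rw [this]; exact D.mul_mem ha hb
  one_mem' := ⟨1, by simp, by simp⟩
  add_mem' := by
    rintro a b ⟨s, hs, ha⟩ ⟨t, ht, hb⟩
    refine ⟨s * t, by rw [map_mul]; exact mul_ne_zero hs ht, ?_⟩
    have : ((s * t : D) : Ω) * (a + b) = t * (s * a) + s * (t * b) := by push_cast; ring
    rw [this]; exact D.add_mem (D.mul_mem t.2 ha) (D.mul_mem s.2 hb)
  zero_mem' := ⟨1, by simp, by simp⟩
  neg_mem' := by
    rintro a ⟨s, hs, ha⟩
    exact ⟨s, hs, by rw [mul_neg]; exact D.neg_mem ha⟩

theorem mem_Oloc {x : Ω} : x ∈ Oloc D red ↔ ∃ s : D, red s ≠ 0 ∧ (s : Ω) * x ∈ D := Iff.rfl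

theorem le_Oloc : D ≤ Oloc D red := fun x hx => ⟨1, by simp, by simpa using hx⟩

/-- underlying function of `redO` -/
def redFun (x : Oloc D red) : Λ := red ⟨_, x.2.choose_spec.2⟩ / red x.2.choose

theorem redFun_eq (x : Oloc D red) (s : D) (hs : red s ≠ 0) (h : (s : Ω) * x ∈ D) :
    redFun D red x = red ⟨_, h⟩ / red s := by
  unfold redFun
  rw [div_eq_div_iff x.2.choose_spec.1 hs, ← map_mul, ← map_mul]
  congr 1
  apply Subtype.ext
  push_cast
  ring

/-- the extension of `red` to the localisation -/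
def redO : Oloc D red →+* Λ where
  toFun := redFun D red
  map_one' := by
    rw [redFun_eq D red 1 1 (by simp) (by simp)]
    have : (⟨((1 : D) : Ω) * ((1 : Oloc D red) : Ω), by simp⟩ : D) = 1 := by
      apply Subtype.ext; simp
    rw [this]; simp
  map_zero' := by
    rw [redFun_eq D red 0 1 (by simp) (by simp)]
    have : (⟨((1 : D) : Ω) * ((0 : Oloc D red) : Ω), by simp⟩ : D) = 0 := by
      apply Subtype.ext; simp
    rw [this]; simp
  map_mul' := by
    rintro ⟨a, s, hs, ha⟩ ⟨b, t, ht, hb⟩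
    have hst : red (s * t) ≠ 0 := by rw [map_mul]; exact mul_ne_zero hs ht
    have e : ((s * t : D) : Ω) * (a * b) = (s * a) * (t * b) := by push_cast; ring
    rw [redFun_eq D red ⟨a, s, hs, ha⟩ s hs ha, redFun_eq D red ⟨b, t, ht, hb⟩ t ht hb,
      redFun_eq D red _ (s * t) hst (by
        show ((s * t : D) : Ω) * (a * b) ∈ D
        rw [e]; exact D.mul_mem ha hb), div_mul_div_comm, ← map_mul, ← map_mul]
    congr 2
    exact Subtype.ext e
  map_add' := by
    rintro ⟨a, s, hs, ha⟩ ⟨b, t, ht, hb⟩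
    have hst : red (s * t) ≠ 0 := by rw [map_mul]; exact mul_ne_zero hs ht
    have e : ((s * t : D) : Ω) * (a + b) = (s * a) * t + s * (t * b) := by push_cast; ring
    rw [redFun_eq D red ⟨a, s, hs, ha⟩ s hs ha, redFun_eq D red ⟨b, t, ht, hb⟩ t ht hb,
      redFun_eq D red _ (s * t) hst (by
        show ((s * t : D) : Ω) * (a + b) ∈ D
        rw [e]; exact D.add_mem (D.mul_mem ha t.2) (D.mul_mem s.2 hb)), div_add_div _ _ hs ht,
      ← map_mul, ← map_mul, ← map_mul, ← map_add]
    congr 2
    exact Subtype.ext e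

theorem redO_eq (x : Oloc D red) (s : D) (hs : red s ≠ 0) (h : (s : Ω) * x ∈ D) :
    redO D red x = red ⟨_, h⟩ / red s := redFun_eq D red x s hs h

theorem redO_coe (d : D) : redO D red ⟨d, le_Oloc D red d.2⟩ = red d := by
  rw [redO_eq D red _ 1 (by simp) (by simp)]
  have : (⟨((1 : D) : Ω) * (d : Ω), by simp⟩ : D) = d := by
    apply Subtype.ext; simp
  simp only [this, map_one, div_one]

/-- `Oloc` is "integrally closed" -/
theorem mul_mem_of_isIntegral (l : D) (hl : (l : Ω) ≠ 0) (hl0 : red l = 0)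
    (hker : ∀ x : D, red x = 0 → ∃ y : D, x = l * y)
    {x : Ω} (hx : IsIntegral D x) (s : D) (k : ℕ) (h : (l : Ω) ^ k * (s * x) ∈ D) :
    (s : Ω) * x ∈ D := by
  induction k with
  | zero => simpa using h
  | succ k ih =>
    apply ih
    obtain ⟨P, hP, hPx⟩ := hx
    set c : D := l ^ (k + 1) * s with hc
    have hc0 : red c = 0 := by rw [hc, map_mul, map_pow, hl0]; simp
    have hw : (c : Ω) * x = (l : Ω) ^ (k + 1) * (s * x) := by rw [hc]; push_cast; ring
    set w : D := ⟨_, h⟩ with hwdef
    have h1 : eval₂ (algebraMap D Ω) ((algebraMap D Ω c) * x) (P.scaleRoots c) = 0 :=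
      scaleRoots_eval₂_eq_zero _ hPx
    have h2 : (algebraMap D Ω c) * x = algebraMap D Ω w := hw
    rw [h2, ← aeval_def, aeval_algebraMap_apply] at h1
    have h3 : aeval w (P.scaleRoots c) = 0 := Subtype.ext h1
    have h4 : eval (red w) ((P.scaleRoots c).map red) = 0 := by
      have h5 : eval w (P.scaleRoots c) = 0 := by simpa using h3
      rw [eval_map, eval₂_at_apply, h5, map_zero]
    rw [map_scaleRoots _ _ _ (by rw [hP.leadingCoeff]; simp), hc0, scaleRoots_zero,
      (hP.map red).leadingCoeff, one_smul, eval_pow, eval_X] at h4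
    have h6 : red w = 0 := by
      by_contra h7
      exact pow_ne_zero _ h7 h4
    obtain ⟨y, hy⟩ := hker w h6
    have h8 : (l : Ω) ^ k * (s * x) = y := by
      have h9 : (l : Ω) * ((l : Ω) ^ k * (s * x)) = l * y := by
        have := congrArg (Subtype.val) hy
        simp only [hwdef, Subring.coe_mul] at this
        rw [← this]; ring
      exact mul_left_cancel₀ hl h9
    rw [h8]; exact y.2

end Loc

section Tensor

variable {R B K : Type*} [CommRing R] [CommRing B] [Algebra R B] [Field K] [Algebra R K]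

theorem algebraMap_eq_C (r : R) :
    algebraMap R (LaurentSeries K) r = HahnSeries.C (algebraMap R K r) := by
  rw [HahnSeries.algebraMap_apply', PowerSeries.algebraMap_apply, HahnSeries.ofPowerSeries_C]

theorem isScalarTower_laurent :
    @IsScalarTower R K (LaurentSeries K) _ (Algebra.toSMul) (Algebra.toSMul) := by
  apply IsScalarTower.of_algebraMap_eq
  intro r
  rw [algebraMap_eq_C, algebraMap_eq_C]
  rfl

/-- Laurent series with coefficients in a subfield are stable under division -/
theorem coeff_div_mem (k₀ : Subfield K) (f g : LaurentSeries K) (hf : ∀ n, f.coeff n ∈ k₀)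
    (hg : ∀ n, g.coeff n ∈ k₀) (n : ℤ) : (f / g).coeff n ∈ k₀ := by
  have key : ∀ f : LaurentSeries K, (∀ n, f.coeff n ∈ k₀) →
      ∃ f' : LaurentSeries k₀, coeffMap k₀.subtype f' = f := by
    intro f hf
    refine ⟨⟨fun n => ⟨f.coeff n, hf n⟩, f.isPWO_support.mono ?_⟩, ?_⟩
    · intro n hn h
      exact hn (Subtype.ext h)
    · ext n; rfl
  obtain ⟨f', rfl⟩ := key f hf
  obtain ⟨g', rfl⟩ := key g hg
  rw [← map_div₀, coeffMap_coeff]
  exact (( f' / g').coeff n).2

theorem exists_finsupp_tmul (k₀ : Subfield K) (hk : ∀ x ∈ k₀, ∃ r : R, algebraMap R K r = x)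
    {ι : Type*} (e : Module.Basis ι k₀ K) (t : B ⊗[R] K) :
    ∃ f : ι →₀ B, t = f.sum (fun a b => b ⊗ₜ[R] e a) := by
  classical
  induction t using TensorProduct.induction_on with
  | zero => exact ⟨0, by simp⟩
  | add x y hx hy =>
    obtain ⟨f, rfl⟩ := hx
    obtain ⟨g, rfl⟩ := hy
    refine ⟨f + g, ?_⟩
    rw [Finsupp.sum_add_index']
    · intro a; simp
    · intro a b b'; rw [add_tmul]
  | tmul b c =>
    choose! lift hlift using hk
    refine ⟨(e.repr c).mapRange (fun x : k₀ => if x = 0 then 0 else lift x • b) (by simp), ?_⟩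
    rw [Finsupp.sum_mapRange_index (by intro a; simp)]
    conv_lhs => rw [← e.linearCombination_repr c, Finsupp.linearCombination_apply]
    unfold Finsupp.sum
    rw [tmul_sum]
    refine Finset.sum_congr rfl fun a ha => ?_
    have h0 : e.repr c a ≠ 0 := Finsupp.mem_support_iff.mp ha
    show b ⊗ₜ[R] ((e.repr c a) • e a) =
      (if e.repr c a = 0 then 0 else lift (e.repr c a) • b) ⊗ₜ[R] e a
    rw [if_neg h0, smul_tmul]
    congr 1
    rw [Algebra.smul_def (lift _), hlift _ (e.repr c a).2]
    rfl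

theorem injective_productMap (k₀ : Subfield K) (hk : ∀ x ∈ k₀, ∃ r : R, algebraMap R K r = x)
    (ρ : B →ₐ[R] LaurentSeries K)
    (h1 : ∀ b, ρ b = 0 → ∀ c : K, b ⊗ₜ[R] c = 0)
    (h2 : ∀ b n, (ρ b).coeff n ∈ k₀) :
    haveI := isScalarTower_laurent (R := R) (K := K)
    Function.Injective
      (Algebra.TensorProduct.productMap ρ (IsScalarTower.toAlgHom R K (LaurentSeries K))) := by
  classical
  have := isScalarTower_laurent (R := R) (K := K)
  rw [injective_iff_map_eq_zero]
  intro t ht
  obtain ⟨f, rfl⟩ := exists_finsupp_tmul k₀ hk (Module.Basis.ofVectorSpace k₀ K) t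
  set e := Module.Basis.ofVectorSpace k₀ K with he
  unfold Finsupp.sum at ht ⊢
  rw [map_sum] at ht
  simp only [Algebra.TensorProduct.productMap_apply_tmul, IsScalarTower.coe_toAlgHom'] at ht
  have hcoef : ∀ n : ℤ, ∑ a ∈ f.support, (⟨(ρ (f a)).coeff n, h2 _ n⟩ : k₀) • e a = 0 := by
    intro n
    have := congrArg (fun x => HahnSeries.coeff x n) ht
    simp only [HahnSeries.coeff_sum, HahnSeries.coeff_zero] at this
    rw [← this]
    refine Finset.sum_congr rfl fun a _ => ?_
    rw [algebraMap_eq_C, mul_comm, HahnSeries.C_mul_eq_smul, HahnSeries.coeff_smul, smul_eq_mul,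
      mul_comm]
    rfl
  refine Finset.sum_eq_zero fun a ha => h1 _ ?_ _
  ext n
  have := linearIndependent_iff'.mp e.linearIndependent f.support _ (hcoef n) a ha
  exact congrArg Subtype.val this

end Tensor

end Fermat.Agent.S28.AlgCore
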