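import Fermat.Agent.S28.RedK

set_option autoImplicit false

noncomputable section

namespace Fermat.Agent.S28

open HahnSeries TensorProduct

section abstract

variable {R B K : Type*} [CommRing R] [CommRing B] [Algebra R B] [Field K] [Algebra R K]

/-- the constants `K → K((q))` as an `R`-algebra homomorphism. -/
def constK (R K : Type*) [CommRing R] [Field K] [Algebra R K] : K →ₐ[R] LaurentSeries K :=
  { algebraMap K (LaurentSeries K) with
    commutes' := fun r => by
      show algebraMap K (LaurentSeries K) (algebraMap R K r) = _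
      rw [algebraMap_laurent_eq_single, algebraMap_laurent_eq_single]; rfl }

theorem constK_apply (x : K) : constK R K x = HahnSeries.single 0 x := by
  show algebraMap K (LaurentSeries K) x = _
  rw [algebraMap_laurent_eq_single]; rfl

/-- Abstract form: `R` local with principal maximal ideal `(π)` which is the kernel of `R → K`;
`ρ : B → K((q))` has coefficients in the image of `R` and kernel `π B`.  Then
`B ⊗[R] K → K((q))` is injective. -/
theorem productMap_injective_of_red (π : R)
    (hπ : ∀ r, algebraMap R K r = 0 ↔ π ∣ r) (hunit : ∀ r : R, IsUnit r ∨ π ∣ r)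
    (ρ : B →ₐ[R] LaurentSeries K)
    (hcoeff : ∀ b n, (ρ b).coeff n ∈ (algebraMap R K).range)
    (hker : ∀ b, ρ b = 0 → ∃ b', b = algebraMap R B π * b') :
    Function.Injective (Algebra.TensorProduct.productMap ρ (constK R K)) := by
  classical
  -- the residue field
  have hmax : (Ideal.span {π} : Ideal R).IsMaximal := by
    rw [Ideal.isMaximal_iff]
    constructor
    · intro h1
      rw [Ideal.mem_span_singleton] at h1
      have := (hπ 1).mpr h1
      rw [map_one] at this
      exact one_ne_zero this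
    · intro J x _ hx hxJ
      rw [Ideal.mem_span_singleton] at hx
      have hu := (hunit x).resolve_right hx
      have := Ideal.eq_top_of_isUnit_mem J hxJ hu
      rw [this]; trivial
  let _ : Field (R ⧸ Ideal.span {π}) := Ideal.Quotient.field _
  let φ : (R ⧸ Ideal.span {π}) →+* K := Ideal.Quotient.lift _ (algebraMap R K) (by
    intro a ha
    rw [Ideal.mem_span_singleton] at ha
    exact (hπ a).mpr ha)
  let _ : Algebra (R ⧸ Ideal.span {π}) K := φ.toAlgebra
  have : IsScalarTower R (R ⧸ Ideal.span {π}) K := IsScalarTower.of_algebraMap_eq (fun x => rfl)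
  let κ := Module.Basis.ofVectorSpace (R ⧸ Ideal.span {π}) K
  have hspan : Submodule.span R (Set.range κ) = ⊤ := by
    rw [← Submodule.restrictScalars_span R (R ⧸ Ideal.span {π}) Ideal.Quotient.mk_surjective,
      κ.span_eq]
    rfl
  -- every tensor is a finite sum of `b_j ⊗ κ_j`
  let Φ : (_ →₀ B) →ₗ[R] B ⊗[R] K :=
    Finsupp.lsum R (fun j => (TensorProduct.mk R B K).flip (κ j))
  have hΦ : ∀ f, Φ f = f.sum (fun j b => b ⊗ₜ[R] κ j) := fun f => rfl
  have hsurj : Function.Surjective Φ := by
    rw [← LinearMap.range_eq_top, eq_top_iff, ← TensorProduct.span_tmul_eq_top, Submodule.span_le]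
    rintro _ ⟨b, x, rfl⟩
    have hx : x ∈ (LinearMap.range Φ).comap (TensorProduct.mk R B K b) := by
      have : Submodule.span R (Set.range κ) ≤ (LinearMap.range Φ).comap (TensorProduct.mk R B K b) := by
        rw [Submodule.span_le]
        rintro _ ⟨j, rfl⟩
        refine ⟨Finsupp.single j b, ?_⟩
        rw [hΦ, Finsupp.sum_single_index (by rw [TensorProduct.zero_tmul])]
        rfl
      exact this (hspan ▸ Submodule.mem_top)
    exact hx
  rw [injective_iff_map_eq_zero]
  intro t ht
  obtain ⟨f, rfl⟩ := hsurj t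
  rw [hΦ] at ht ⊢
  rw [Finsupp.sum, map_sum] at ht
  have hzero : ∀ j ∈ f.support, ρ (f j) = 0 := by
    intro j hj
    ext n
    choose r hr using fun j => hcoeff (f j) n
    have hn := congrArg (fun z => z.coeff n) ht
    simp only [Algebra.TensorProduct.productMap_apply_tmul, constK_apply, HahnSeries.coeff_sum,
      HahnSeries.coeff_mul_single_zero, HahnSeries.coeff_zero] at hn
    have hli := (linearIndependent_iff'.mp κ.linearIndependent) f.support
      (fun j => Ideal.Quotient.mk _ (r j)) (by
        rw [← hn]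
        refine Finset.sum_congr rfl fun i _ => ?_
        rw [← hr i, Algebra.smul_def]
        rfl) j hj
    rw [← hr j, HahnSeries.coeff_zero]
    have : φ (Ideal.Quotient.mk _ (r j)) = 0 := by rw [hli, map_zero]
    exact this
  refine Finset.sum_eq_zero fun j hj => ?_
  obtain ⟨b', hb'⟩ := hker _ (hzero j hj)
  show (f j) ⊗ₜ[R] κ j = 0
  rw [hb', ← Algebra.smul_def, TensorProduct.smul_tmul, Algebra.smul_def, (hπ π).mpr dvd_rfl,
    zero_mul, TensorProduct.tmul_zero]

theorem isDomain_tensor_of_red_abstract (π : R)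
    (hπ : ∀ r, algebraMap R K r = 0 ↔ π ∣ r) (hunit : ∀ r : R, IsUnit r ∨ π ∣ r)
    (ρ : B →ₐ[R] LaurentSeries K)
    (hcoeff : ∀ b n, (ρ b).coeff n ∈ (algebraMap R K).range)
    (hker : ∀ b, ρ b = 0 → ∃ b', b = algebraMap R B π * b') :
    IsDomain (B ⊗[R] K) :=
  Function.Injective.isDomain (Algebra.TensorProduct.productMap ρ (constK R K))
    (productMap_injective_of_red π hπ hunit ρ hcoeff hker)

end abstract

/-- concrete form for `R = ℤ_(ℓ)`. -/
theorem isDomain_tensor_of_red (ℓ : ℕ) [Fact ℓ.Prime] (K : Type*) [Field K] [CharP K ℓ]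
    [Algebra ↥(GaloisRep.ratLocalizedAt ℓ) K] {B : Type*} [CommRing B]
    [Algebra ↥(GaloisRep.ratLocalizedAt ℓ) B]
    (ρ : B →ₐ[↥(GaloisRep.ratLocalizedAt ℓ)] LaurentSeries K)
    (hcoeff : ∀ b n, (ρ b).coeff n ∈ (algebraMap ↥(GaloisRep.ratLocalizedAt ℓ) K).range)
    (hker : ∀ b, ρ b = 0 → ∃ b', b = (ℓ : B) * b') :
    IsDomain (B ⊗[↥(GaloisRep.ratLocalizedAt ℓ)] K) :=
  isDomain_tensor_of_red_abstract (ℓ : ↥(GaloisRep.ratLocalizedAt ℓ))
    (RLoc.algebraMap_eq_zero_iff ℓ K) (RLoc.isUnit_or_dvd ℓ) ρ hcoeff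
    (fun b hb => by rw [map_natCast]; exact hker b hb)

end Fermat.Agent.S28
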