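import Fermat.Agent.S28.AdjoinG
import Fermat.Agent.S28.TensorInj
import Fermat.Agent.S28.AlgCore

/-! # S28/ALG : assembly lemmas for `alg_main` (helper25) -/

set_option autoImplicit false
set_option linter.unusedSectionVars false

noncomputable section

namespace Fermat.Agent.S28

open ModularCurve ModularCurve.IgusaScheme HahnSeries TensorProduct Polynomial

namespace AlgAux

variable (N : ℕ) [NeZero N] (ℓ : ℕ) [Fact ℓ.Prime]

set_option quotPrecheck false in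
local notation "R" => ↥(GaloisRep.ratLocalizedAt ℓ)
set_option quotPrecheck false in
local notation "F" => ↥(modularFunctionFieldFull N)
local notation "Ω" => LaurentSeries ℚ

theorem coe_mem_of_mem_adjoin (g : F) (hg : (g : Ω) ∈ Dl ℓ) (a : F)
    (ha : a ∈ Algebra.adjoin R {g}) : (a : Ω) ∈ Dl ℓ := by
  rw [Algebra.adjoin_singleton_eq_range_aeval] at ha
  obtain ⟨c, rfl⟩ := ha
  exact coe_aeval_F_mem_Dl ℓ g hg c

/-- the ring hom `R[g] → Dl` -/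
def adjoinToDl (g : F) (hg : (g : Ω) ∈ Dl ℓ) : ↥(Algebra.adjoin R {g}) →+* Dl ℓ :=
  (((modularFunctionFieldFull N).val : F →+* Ω).comp
    ((Algebra.adjoin R {g}).val : ↥(Algebra.adjoin R {g}) →+* F)).codRestrict (Dl ℓ)
    (fun a => coe_mem_of_mem_adjoin N ℓ g hg a a.2)

theorem isIntegral_coe (g : F) (hg : (g : Ω) ∈ Dl ℓ) (x : F) (hx : x ∈ chartAlg N ℓ {g}) :
    IsIntegral (Dl ℓ) (x : Ω) := by
  have hx' : IsIntegral (Algebra.adjoin R {g}) x := hx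
  exact hx'.map_of_comp_eq (adjoinToDl N ℓ g hg) ((modularFunctionFieldFull N).val : F →+* Ω) rfl

variable (K : Type) [Field K] [CharP K ℓ] [Algebra ↥(GaloisRep.ratLocalizedAt ℓ) K]

/-- the image of `R` in `K`, as a subfield -/
def k0 : Subfield K :=
  { (algebraMap R K).range with
    inv_mem' := by
      rintro _ ⟨r, rfl⟩
      rcases RLoc.isUnit_or_dvd ℓ r with hr | hr
      · obtain ⟨u, rfl⟩ := hr
        refine ⟨((u⁻¹ : Rˣ) : R), ?_⟩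
        symm
        apply inv_eq_of_mul_eq_one_left
        rw [← map_mul]; simp
      · rw [(RLoc.algebraMap_eq_zero_iff ℓ K r).mpr hr]
        exact ⟨0, by simp⟩ }

theorem mem_k0 (x : K) : x ∈ k0 ℓ K ↔ x ∈ (algebraMap R K).range := Iff.rfl

/-- the statement of `exists_span_normalised` -/
def SpanN (g : F) (n : ℕ) (θ : Fin n → F) : Prop :=
  ∀ x : F, ∃ (s : R[X]) (b : Fin n → R[X]) (k : ℕ), s.map (algebraMap R K) ≠ 0 ∧
    (ℓ : F) ^ k * (aeval g s * x) = ∑ i, aeval g (b i) * θ i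

include K in
theorem exists_pow_mul (n : ℕ) (b : Fin n → ℚ[X]) :
    ∃ (k : ℕ) (b' : Fin n → R[X]),
      ∀ i, Polynomial.C ((ℓ : ℚ) ^ k) * b i = (b' i).map (algebraMap R ℚ) := by
  have hl : (ℓ : ℚ) ≠ 0 := RLoc.ell_ne_zero ℓ
  by_cases hb : ∃ i, b i ≠ 0
  · obtain ⟨v, b', h, -⟩ := RLoc.exists_scaling ℓ K b hb
    refine ⟨(-v).toNat, fun i => Polynomial.C ((ℓ : R) ^ (v + (-v).toNat).toNat) * b' i, fun i => ?_⟩
    rw [h i, ← mul_assoc, ← Polynomial.C_mul, Polynomial.map_mul, Polynomial.map_C]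
    congr 2
    rw [map_pow, map_natCast, ← zpow_natCast, ← zpow_natCast, ← zpow_add₀ hl]
    congr 1
    omega
  · push Not at hb
    exact ⟨0, fun _ => 0, fun i => by simp [hb i]⟩

theorem aeval_map_F (g : F) (c : R[X]) : aeval g (c.map (algebraMap R ℚ)) = aeval g c :=
  aeval_map_algebraMap ℚ g c

theorem exists_span_normalised' (g : F) (n : ℕ) (θ : Fin n → F)
    (hspan : ∀ x : F, ∃ (s : Polynomial ℚ) (b : Fin n → Polynomial ℚ),
      s ≠ 0 ∧ Polynomial.aeval g s * x = ∑ i, Polynomial.aeval g (b i) * θ i) (x : F) :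
    ∃ (s : R[X]) (b : Fin n → R[X]) (k : ℕ), s.map (algebraMap R K) ≠ 0 ∧
      (ℓ : F) ^ k * (aeval g s * x) = ∑ i, aeval g (b i) * θ i := by
  obtain ⟨s₀, b₀, hs₀, h⟩ := hspan x
  obtain ⟨c, s, hc, hs, hsK⟩ := RLoc.exists_primitive ℓ K s₀ hs₀
  obtain ⟨k, b, hb⟩ := exists_pow_mul ℓ K n (fun i => Polynomial.C c⁻¹ * b₀ i)
  refine ⟨s, b, k, hsK, ?_⟩
  have hcF : (algebraMap ℚ F c) ≠ 0 := by simpa using hc
  have h1 : aeval g s₀ = algebraMap ℚ F c * aeval g s := by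
    rw [hs, map_mul, aeval_C, aeval_map_F]
  have h2 : ∀ i, aeval g (b i) = (ℓ : F) ^ k * ((algebraMap ℚ F c)⁻¹ * aeval g (b₀ i)) := by
    intro i
    rw [← aeval_map_F, ← hb i, map_mul, map_mul, aeval_C, aeval_C, map_pow, map_natCast, map_inv₀]
  simp only [h2]
  rw [h1] at h
  have h3 : aeval g s * x = (algebraMap ℚ F c)⁻¹ * ∑ i, aeval g (b₀ i) * θ i := by
    rw [← h]; field_simp
  rw [h3, Finset.mul_sum, Finset.mul_sum]
  refine Finset.sum_congr rfl fun i _ => ?_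
  ring

variable (g : ↥(modularFunctionFieldFull N)) (hg : (g : LaurentSeries ℚ) ∈ Dl ℓ)
    (hgt : Transcendental K (redK ℓ K ⟨g, hg⟩))
    (n : ℕ) (θ : Fin n → ↥(modularFunctionFieldFull N))
    (hθD : ∀ i, (θ i : LaurentSeries ℚ) ∈ Dl ℓ) (hsp : SpanN N ℓ K g n θ)

include hgt in
theorem redK_aeval_ne_zero (s : R[X]) (hs : s.map (algebraMap R K) ≠ 0) :
    redK ℓ K ⟨((aeval g s : F) : Ω), coe_aeval_F_mem_Dl ℓ g hg s⟩ ≠ 0 := by
  rw [redK_aeval_F ℓ K g hg]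
  exact fun h => hs ((transcendental_iff.mp hgt) _ h)

include hgt hθD hsp in
theorem exists_mul_mem (x : F) (hx : x ∈ chartAlg N ℓ {g}) :
    ∃ s : R[X], s.map (algebraMap R K) ≠ 0 ∧ ((aeval g s : F) : Ω) * (x : Ω) ∈ Dl ℓ := by
  obtain ⟨s, b, k, hs, h⟩ := hsp x
  refine ⟨s, hs, ?_⟩
  have hl : (((ℓ : Dl ℓ) : Dl ℓ) : Ω) ≠ 0 := by
    have : (((ℓ : Dl ℓ) : Dl ℓ) : Ω) = (ℓ : Ω) := by simp
    rw [this]
    have : CharZero Ω := charZero_of_injective_algebraMap (algebraMap ℚ Ω).injective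
    exact Nat.cast_ne_zero.mpr (Fact.out : ℓ.Prime).ne_zero
  refine AlgCore.mul_mem_of_isIntegral (Dl ℓ) (redKHom ℓ K) (ℓ : Dl ℓ) hl ?_ ?_
    (isIntegral_coe N ℓ g hg x hx) ⟨_, coe_aeval_F_mem_Dl ℓ g hg s⟩ k ?_
  · rw [map_natCast, ← map_natCast (algebraMap K (LaurentSeries K)), CharP.cast_eq_zero, map_zero]
  · intro y hy
    exact (redK_eq_zero_iff ℓ K y).mp hy
  · have h2 := congrArg (fun z : F => (z : Ω)) h
    simp only [IntermediateField.coe_mul, IntermediateField.coe_pow, IntermediateField.coe_sum] at h2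
    have h3 : (((ℓ : Dl ℓ) : Dl ℓ) : Ω) = (((ℓ : F) : F) : Ω) := by simp
    rw [h3]
    show _ * (_ * _) ∈ _
    rw [h2]
    exact Subring.sum_mem _ fun i _ => Subring.mul_mem _ (coe_aeval_F_mem_Dl ℓ g hg _) (hθD i)

include hgt hθD hsp in
theorem coe_mem_Oloc (x : F) (hx : x ∈ chartAlg N ℓ {g}) :
    (x : Ω) ∈ AlgCore.Oloc (Dl ℓ) (redKHom ℓ K) := by
  obtain ⟨s, hs, h⟩ := exists_mul_mem N ℓ K g hg hgt n θ hθD hsp x hx
  exact ⟨⟨_, coe_aeval_F_mem_Dl ℓ g hg s⟩, redK_aeval_ne_zero N ℓ K g hg hgt s hs, h⟩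

theorem coe_algebraMap_F (r : R) :
    ((algebraMap R F r : F) : Ω) = algebraMap ℚ Ω (r : ℚ) := by
  have h1 : algebraMap R F r = ((r : ℚ) : F) := by
    show algebraMap ℚ F (algebraMap R ℚ r) = _
    rw [eq_ratCast]; rfl
  rw [h1, eq_ratCast]
  exact map_ratCast ((modularFunctionFieldFull N).val : F →+* Ω) _

/-- `B → Oloc` -/
def toOloc (h : ∀ x ∈ chartAlg N ℓ {g}, (x : Ω) ∈ AlgCore.Oloc (Dl ℓ) (redKHom ℓ K)) :
    ↥(chartAlg N ℓ {g}) →+* ↥(AlgCore.Oloc (Dl ℓ) (redKHom ℓ K)) :=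
  (((modularFunctionFieldFull N).val : F →+* Ω).comp
    ((chartAlg N ℓ {g}).val : ↥(chartAlg N ℓ {g}) →+* F)).codRestrict _ (fun x => h x x.2)

/-- the reduction map on `B` -/
def rho (h : ∀ x ∈ chartAlg N ℓ {g}, (x : Ω) ∈ AlgCore.Oloc (Dl ℓ) (redKHom ℓ K)) :
    ↥(chartAlg N ℓ {g}) →ₐ[R] LaurentSeries K :=
  { (AlgCore.redO (Dl ℓ) (redKHom ℓ K)).comp (toOloc N ℓ K g h) with
    commutes' := fun r => by
      show AlgCore.redO (Dl ℓ) (redKHom ℓ K) (toOloc N ℓ K g h (algebraMap R _ r)) = _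
      rw [← redK_constDl ℓ K r, ← redKHom_apply, ← AlgCore.redO_coe (Dl ℓ) (redKHom ℓ K)]
      congr 1
      apply Subtype.ext
      exact coe_algebraMap_F N ℓ r }

theorem rho_mul (h : ∀ x ∈ chartAlg N ℓ {g}, (x : Ω) ∈ AlgCore.Oloc (Dl ℓ) (redKHom ℓ K))
    (x : ↥(chartAlg N ℓ {g})) (s : Dl ℓ) (hs : redK ℓ K s ≠ 0)
    (hx : (s : Ω) * ((x : F) : Ω) ∈ Dl ℓ) :
    rho N ℓ K g h x = redK ℓ K ⟨_, hx⟩ / redK ℓ K s :=
  AlgCore.redO_eq (Dl ℓ) (redKHom ℓ K) (toOloc N ℓ K g h x) s hs hx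

theorem rho_of_mem (h : ∀ x ∈ chartAlg N ℓ {g}, (x : Ω) ∈ AlgCore.Oloc (Dl ℓ) (redKHom ℓ K))
    (x : ↥(chartAlg N ℓ {g})) (hx : ((x : F) : Ω) ∈ Dl ℓ) :
    rho N ℓ K g h x = redK ℓ K ⟨_, hx⟩ :=
  AlgCore.redO_coe (Dl ℓ) (redKHom ℓ K) ⟨_, hx⟩

include hgt hθD hsp in
theorem rho_coeff_mem (h : ∀ x ∈ chartAlg N ℓ {g}, (x : Ω) ∈ AlgCore.Oloc (Dl ℓ) (redKHom ℓ K))
    (x : ↥(chartAlg N ℓ {g})) (m : ℤ) :
    (rho N ℓ K g h x).coeff m ∈ (algebraMap R K).range := by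
  obtain ⟨s, hs, hx⟩ := exists_mul_mem N ℓ K g hg hgt n θ hθD hsp x x.2
  rw [rho_mul N ℓ K g h x ⟨_, coe_aeval_F_mem_Dl ℓ g hg s⟩
    (redK_aeval_ne_zero N ℓ K g hg hgt s hs) hx, ← mem_k0]
  exact AlgCore.coeff_div_mem (k0 ℓ K) _ _ (fun _ => redK_coeff_mem_range ℓ K _ _)
    (fun _ => redK_coeff_mem_range ℓ K _ _) m

theorem aeval_mem_chartAlg (c : R[X]) : aeval g c ∈ chartAlg N ℓ {g} := by
  apply adjoin_le_chartAlg
  rw [Algebra.adjoin_singleton_eq_range_aeval]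
  exact ⟨c, rfl⟩

include hgt hθD hsp in
theorem ker_rho (h : ∀ x ∈ chartAlg N ℓ {g}, (x : Ω) ∈ AlgCore.Oloc (Dl ℓ) (redKHom ℓ K))
    (hθ : ∀ i, θ i ∈ chartAlg N ℓ {g})
    (hind : ∀ c : Fin n → R[X],
      ∑ i, aeval (redK ℓ K ⟨g, hg⟩) ((c i).map (algebraMap R K)) * redK ℓ K ⟨θ i, hθD i⟩ = 0 →
        ∀ i, (c i).map (algebraMap R K) = 0)
    (x : ↥(chartAlg N ℓ {g})) (hx : rho N ℓ K g h x = 0) :
    ∃ y : ↥(chartAlg N ℓ {g}), x = (ℓ : ↥(chartAlg N ℓ {g})) * y := by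
  have hlF : (ℓ : F) ≠ 0 := Nat.cast_ne_zero.mpr (Fact.out : ℓ.Prime).ne_zero
  set y : F := (ℓ : F)⁻¹ * x with hy
  have hly : (ℓ : F) * y = x := by rw [hy, mul_inv_cancel_left₀ hlF]
  set gB : ↥(chartAlg N ℓ {g}) := ⟨g, subset_chartAlg N ℓ _ rfl⟩ with hgB
  have hρg : rho N ℓ K g h gB = redK ℓ K ⟨g, hg⟩ := rho_of_mem N ℓ K g h gB hg
  have hρθ : ∀ i, rho N ℓ K g h ⟨θ i, hθ i⟩ = redK ℓ K ⟨θ i, hθD i⟩ := fun i =>
    rho_of_mem N ℓ K g h ⟨θ i, hθ i⟩ (hθD i)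
  have claim : ∀ (k : ℕ) (s : R[X]) (b : Fin n → R[X]),
      (ℓ : F) ^ k * (aeval g s * y) = ∑ i, aeval g (b i) * θ i →
      ∃ b' : Fin n → R[X], aeval g s * y = ∑ i, aeval g (b' i) * θ i := by
    intro k
    induction k with
    | zero => intro s b hb; exact ⟨b, by simpa using hb⟩
    | succ k ih =>
      intro s b hb
      have e : (ℓ : F) ^ k * (aeval g s * x) = ∑ i, aeval g (b i) * θ i := by
        rw [← hb, ← hly]; ring
      have eB : (ℓ : ↥(chartAlg N ℓ {g})) ^ k * (aeval gB s * x) =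
          ∑ i, aeval gB (b i) * ⟨θ i, hθ i⟩ := by
        apply Subtype.ext
        simp only [Subalgebra.coe_mul, Subalgebra.coe_pow, SubringClass.coe_natCast,
          AddSubmonoidClass.coe_finsetSum, ← Subalgebra.aeval_coe]
        exact e
      have e2 := congrArg (rho N ℓ K g h) eB
      have := isScalarTower_laurent R K
      simp only [map_mul, map_sum, hx, mul_zero, ← Polynomial.aeval_algHom_apply, hρg, hρθ,
        ← aeval_map_algebraMap K (redK ℓ K ⟨g, hg⟩)] at e2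
      have h0 := hind b e2.symm
      have h1 : ∀ i, ∃ c : R[X], b i = Polynomial.C (ℓ : R) * c := fun i =>
        (RLoc.map_eq_zero_iff ℓ K (b i)).mp (h0 i)
      choose b' hb' using h1
      apply ih s b'
      apply mul_left_cancel₀ hlF
      rw [Finset.mul_sum]
      calc (ℓ : F) * ((ℓ : F) ^ k * (aeval g s * y)) = (ℓ : F) ^ (k + 1) * (aeval g s * y) := by ring
        _ = ∑ i, aeval g (b i) * θ i := hb
        _ = _ := by
          refine Finset.sum_congr rfl fun i _ => ?_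
          rw [hb' i, map_mul, aeval_C, map_natCast]; ring
  obtain ⟨s, b, k, hs, hb⟩ := hsp y
  obtain ⟨b', hb'⟩ := claim k s b hb
  have hsy : aeval g s * y ∈ chartAlg N ℓ {g} := by
    rw [hb']
    exact Subalgebra.sum_mem _ fun i _ => Subalgebra.mul_mem _ (aeval_mem_chartAlg N ℓ g _) (hθ i)
  have := isIntegrallyClosed_adjoin ℓ K g hg hgt
  have hyB : y ∈ chartAlg N ℓ {g} := by
    refine AlgCore.isIntegral_of_smul (A := ↥(Algebra.adjoin R {g})) (prime_ell_adjoin ℓ K g hg hgt)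
      (not_ell_dvd_aeval ℓ K g hg hgt s hs) ?_ ?_
    · have : (ℓ : ↥(Algebra.adjoin R {g})) • y = x := by
        rw [← hly, Algebra.smul_def, map_natCast]
      rw [this]; exact x.2
    · exact hsy
  exact ⟨⟨y, hyB⟩, Subtype.ext (by simpa using hly.symm)⟩

end AlgAux

open AlgAux in
theorem alg_main_of_span (N : ℕ) [NeZero N] (ℓ : ℕ) [Fact ℓ.Prime]
    (K : Type) [Field K] [CharP K ℓ] [Algebra ↥(GaloisRep.ratLocalizedAt ℓ) K]
    (g : ↥(modularFunctionFieldFull N)) (hg : (g : LaurentSeries ℚ) ∈ Dl ℓ)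
    (hgt : Transcendental K (redK ℓ K ⟨g, hg⟩))
    (n : ℕ) (θ : Fin n → ↥(modularFunctionFieldFull N))
    (hθ : ∀ i, θ i ∈ chartAlg N ℓ {g})
    (hθD : ∀ i, (θ i : LaurentSeries ℚ) ∈ Dl ℓ)
    (hind : ∀ c : Fin n → Polynomial ↥(GaloisRep.ratLocalizedAt ℓ),
      ∑ i, Polynomial.aeval (redK ℓ K ⟨g, hg⟩)
          ((c i).map (algebraMap ↥(GaloisRep.ratLocalizedAt ℓ) K)) * redK ℓ K ⟨θ i, hθD i⟩ = 0 →
        ∀ i, (c i).map (algebraMap ↥(GaloisRep.ratLocalizedAt ℓ) K) = 0)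
    (hsp : SpanN N ℓ K g n θ) :
    IsDomain (↥(chartAlg N ℓ {g}) ⊗[↥(GaloisRep.ratLocalizedAt ℓ)] K) ∧
    ∃ ρ : ↥(chartAlg N ℓ {g}) →ₐ[↥(GaloisRep.ratLocalizedAt ℓ)] LaurentSeries K,
      ρ ⟨g, subset_chartAlg N ℓ _ rfl⟩ = redK ℓ K ⟨g, hg⟩ := by
  have h := coe_mem_Oloc N ℓ K g hg hgt n θ hθD hsp
  refine ⟨isDomain_tensor_of_red ℓ K (rho N ℓ K g h)
    (rho_coeff_mem N ℓ K g hg hgt n θ hθD hsp h)
    (ker_rho N ℓ K g hg hgt n θ hθD hsp h hθ hind), rho N ℓ K g h, ?_⟩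
  exact rho_of_mem N ℓ K g h _ hg

end Fermat.Agent.S28
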