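import Fermat.Agent.S28.Defs
import Fermat.Agent.S28.AlgAux

set_option autoImplicit false

noncomputable section

namespace Fermat.Agent.S28

open ModularCurve ModularCurve.IgusaScheme HahnSeries TensorProduct

/-! ## ALG : the commutative algebra core -/

theorem alg_main (N : ℕ) [NeZero N] (ℓ : ℕ) [Fact ℓ.Prime]
    (K : Type) [Field K] [CharP K ℓ] [Algebra ↥(GaloisRep.ratLocalizedAt ℓ) K]
    (g : ↥(modularFunctionFieldFull N)) (hg : (g : LaurentSeries ℚ) ∈ Dl ℓ)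
    (hgt : Transcendental K (redK ℓ K ⟨g, hg⟩))
    (n : ℕ) (θ : Fin n → ↥(modularFunctionFieldFull N))
    (hθ : ∀ i, θ i ∈ chartAlg N ℓ {g})
    (hθD : ∀ i, (θ i : LaurentSeries ℚ) ∈ Dl ℓ)
    (hind : ∀ c : Fin n → Polynomial ↥(GaloisRep.ratLocalizedAt ℓ),
      ∑ i, Polynomial.aeval (redK ℓ K ⟨g, hg⟩)
          ((c i).map (algebraMap ↥(GaloisRep.ratLocalizedAt ℓ) K)) * redK ℓ K ⟨θ i, hθD i⟩ = 0 →
        ∀ i, (c i).map (algebraMap ↥(GaloisRep.ratLocalizedAt ℓ) K) = 0)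
    (hspan : ∀ x : ↥(modularFunctionFieldFull N), ∃ (s : Polynomial ℚ) (b : Fin n → Polynomial ℚ),
      s ≠ 0 ∧ Polynomial.aeval g s * x = ∑ i, Polynomial.aeval g (b i) * θ i) :
    IsDomain (↥(chartAlg N ℓ {g}) ⊗[↥(GaloisRep.ratLocalizedAt ℓ)] K) ∧
    ∃ ρ : ↥(chartAlg N ℓ {g}) →ₐ[↥(GaloisRep.ratLocalizedAt ℓ)] LaurentSeries K,
      ρ ⟨g, subset_chartAlg N ℓ _ rfl⟩ = redK ℓ K ⟨g, hg⟩ :=
  alg_main_of_span N ℓ K g hg hgt n θ hθ hθD hind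
    (AlgAux.exists_span_normalised' N ℓ K g n θ hspan)

end Fermat.Agent.S28
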