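import Mathlib
import Fermat.Prelude.Def_ModularCurve_IgusaScheme
import Fermat.Prelude.Def_ModularCurve_JqCoeff
import Fermat.Prelude.Def_ModularCurve_LaurentCoeff
import Fermat.Prelude.Thm_ModularCurve_coeffMap_qExpand

set_option autoImplicit false

noncomputable section

namespace Fermat.Agent.S28

open ModularCurve HahnSeries

/-- Laurent series over `ℚ` with `ℓ`-integral coefficients. -/
def Dl (ℓ : ℕ) : Subring (LaurentSeries ℚ) where
  carrier := {f | ∀ n, f.coeff n ∈ GaloisRep.ratLocalizedAt ℓ}
  mul_mem' := by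
    intro a b ha hb n
    rw [HahnSeries.coeff_mul]
    exact Subring.sum_mem _ fun x _ => Subring.mul_mem _ (ha _) (hb _)
  one_mem' := by
    intro n
    rw [HahnSeries.coeff_one]
    split_ifs
    · exact Subring.one_mem _
    · exact Subring.zero_mem _
  add_mem' := by
    intro a b ha hb n
    exact Subring.add_mem _ (ha n) (hb n)
  zero_mem' := by
    intro n
    exact Subring.zero_mem _
  neg_mem' := by
    intro a ha n
    exact Subring.neg_mem _ (ha n)

/-- the series with coefficients in `ℤ_(ℓ)` underlying an element of `Dl ℓ`. -/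
def liftDl (ℓ : ℕ) (f : Dl ℓ) : LaurentSeries ↥(GaloisRep.ratLocalizedAt ℓ) where
  coeff n := ⟨f.1.coeff n, f.2 n⟩
  isPWO_support' := f.1.isPWO_support.mono (by
    intro n hn h
    exact hn (Subtype.ext h))

/-- reduction of an `ℓ`-integral Laurent series to `K`. -/
def redK (ℓ : ℕ) (K : Type*) [CommRing K] [Algebra ↥(GaloisRep.ratLocalizedAt ℓ) K] (f : Dl ℓ) :
    LaurentSeries K :=
  coeffMap (algebraMap ↥(GaloisRep.ratLocalizedAt ℓ) K) (liftDl ℓ f)

end Fermat.Agent.S28
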