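import Fermat.Agent.S28.Defs

set_option autoImplicit false

noncomputable section

namespace Fermat.Agent.S28.Final

open ModularCurve ModularCurve.IgusaScheme HahnSeries TensorProduct

/-- `ℤ_(ℓ)` -/
abbrev Zl (ℓ : ℕ) : Type := ↥(GaloisRep.ratLocalizedAt ℓ)

/-- `j(q^N)` as an element of the function field. -/
def jNFull (N : ℕ) [NeZero N] : ↥(modularFunctionFieldFull N) :=
  ⟨qExpand ℚ N jq, jqd_mem_full N dvd_rfl⟩

/-- `1/j` as an integer series. -/
def jInvZ : LaurentSeries ℤ :=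
  HahnSeries.single (1 : ℤ) 1 * HahnSeries.ofPowerSeries ℤ ℤ (jNum.invOfUnit 1)

end Fermat.Agent.S28.Final
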