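import Fermat.Agent.S28.Members
import Fermat.Prelude.Thm_ModularCurve_coeff_jqModC_pow_self
import Fermat.Prelude.Thm_ModularCurve_coeff_jqModC_pow_of_lt

set_option autoImplicit false

open UpperHalfPlane ModularForm EisensteinSeries ModularCurve
open scoped MatrixGroups Manifold Real

noncomputable section

namespace Fermat.Agent.S28

open Fermat.Agent.S24 Fermat.Agent.S24.MerAux

namespace InvAux

theorem apply_smul_of_inv (f : Hol) (hinv : ∀ g : SL(2, ℤ), holAct g f = f) (γ : SL(2, ℤ))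
    (z : ℍ) : (f : ℍ → ℂ) (γ • z) = (f : ℍ → ℂ) z := by
  have h := congrFun (congrArg Subtype.val (hinv γ⁻¹)) z
  rw [holAct_apply, inv_inv] at h
  exact h

theorem slash_of_inv (f : Hol) (hinv : ∀ g : SL(2, ℤ), holAct g f = f) (γ : SL(2, ℤ)) :
    ((f : ℍ → ℂ) ∣[(0 : ℤ)] γ) = (f : ℍ → ℂ) := by
  ext z
  rw [SL_slash_apply, apply_smul_of_inv f hinv]
  simp

/-- the level one form of weight `0` attached to a bounded invariant holomorphic function -/
def formOf (f : Hol) (hinv : ∀ g : SL(2, ℤ), holAct g f = f)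
    (hb : IsBoundedAtImInfty (f : ℍ → ℂ)) : ModularForm 𝒮ℒ 0 where
  toFun := f
  slash_action_eq' := by
    rintro _ ⟨γ, rfl⟩
    exact slash_of_inv f hinv γ
  holo' := f.2
  bdd_at_cusps' hc := by
    rw [Subgroup.IsArithmetic.isCusp_iff_isCusp_SL2Z] at hc
    rw [OnePoint.isBoundedAt_iff_forall_SL2Z hc]
    intro γ _
    show IsBoundedAtImInfty ((f : ℍ → ℂ) ∣[(0 : ℤ)] γ)
    rw [slash_of_inv f hinv γ]
    exact hb

theorem exists_const (f : Hol) (hinv : ∀ g : SL(2, ℤ), holAct g f = f)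
    (hb : IsBoundedAtImInfty (f : ℍ → ℂ)) : ∃ c : ℂ, ∀ τ : ℍ, (f : ℍ → ℂ) τ = c := by
  obtain ⟨c, hc⟩ := ModularFormClass.levelOne_weight_zero_const (formOf f hinv hb)
  exact ⟨c, fun τ => congrFun hc τ⟩

variable (N : ℕ) [NeZero N]

theorem coeff_eq_zero_of_not_dvd (f : AL N) (hf : ModularGroup.T • f = f) (n : ℤ)
    (hn : ¬ (N : ℤ) ∣ n) : (eps N f).coeff n = 0 := by
  have h := coeff_eps_T_smul N f n
  rw [hf] at h
  by_contra hne
  have hne' : (((eps N f).coeff n : Zb) : ℂ) ≠ 0 := fun h0 => hne (Subtype.ext h0)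
  have h1 : Complex.exp (-(2 * π * Complex.I * n / N)) = 1 := by
    have h2 : 1 * (((eps N f).coeff n : Zb) : ℂ) =
        Complex.exp (-(2 * π * Complex.I * n / N)) * (((eps N f).coeff n : Zb) : ℂ) := by
      rw [one_mul]; exact h
    exact (mul_right_cancel₀ hne' h2).symm
  rw [Complex.exp_eq_one_iff] at h1
  obtain ⟨m, hm⟩ := h1
  apply hn
  refine ⟨-m, ?_⟩
  have hN : (N : ℂ) ≠ 0 := by exact_mod_cast NeZero.ne N
  have h2pi : (2 * π * Complex.I : ℂ) ≠ 0 := Complex.two_pi_I_ne_zero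
  have h3 : (2 * π * Complex.I : ℂ) * (n : ℂ) = (2 * π * Complex.I : ℂ) * ((N : ℂ) * (-m)) := by
    have h5 : (2 * π * Complex.I * n / N : ℂ) * N = 2 * π * Complex.I * n :=
      div_mul_cancel₀ _ hN
    linear_combination (-(N : ℂ)) * hm - h5
  have h4 : (n : ℂ) = (N : ℂ) * (-m) := mul_left_cancel₀ h2pi h3
  exact_mod_cast h4

theorem eps_J : eps N (jA N 1 (one_dvd N)) = qExpand Zb N (jqModC Zb) := by
  rw [eps_jA]
  exact qExpand_congr (mul_one N) _

theorem coe_J (τ : ℍ) : ((jA N 1 (one_dvd N) : AL N).1 : ℍ → ℂ) τ = (jH : ℍ → ℂ) τ := by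
  show (jH : ℍ → ℂ) (scaleH 1 τ) = _
  have : scaleH 1 τ = τ := by
    apply UpperHalfPlane.ext
    simp
  rw [this]

theorem eq_zero_of_coeff (f : AL N) (hf : ∀ g : SL(2, ℤ), g • f = f)
    (h : ∀ n : ℤ, n < N → (eps N f).coeff n = 0) : f = 0 := by
  have hinv : ∀ g : SL(2, ℤ), holAct g f.1 = f.1 := fun g => congrArg Subtype.val (hf g)
  have hN : (0 : ℤ) < N := by exact_mod_cast Nat.pos_of_ne_zero (NeZero.ne N)
  obtain ⟨c, hc⟩ := exists_const f.1 hinv
    ((rel_eps N f).isBoundedAtImInfty fun n hn => h n (hn.trans hN))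
  set J := jA N 1 (one_dvd N) with hJ
  have hinv' : ∀ g : SL(2, ℤ), holAct g (f * J).1 = (f * J).1 := fun g => by
    have : g • (f * J) = f * J := by rw [smul_mul', hf g, hJ, smul_jA_one]
    exact congrArg Subtype.val this
  obtain ⟨d, hd⟩ := exists_const (f * J).1 hinv'
    ((rel_eps N (f * J)).isBoundedAtImInfty fun n hn => by
      rw [map_mul, HahnSeries.coeff_mul]
      refine Finset.sum_eq_zero fun ij hij => ?_
      rw [Finset.mem_antidiagonal] at hij
      by_cases h1 : ij.1 < N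
      · rw [h _ h1, zero_mul]
      · have h2 : (eps N J).coeff ij.2 = 0 := by
          rw [hJ, eps_J]
          by_cases h3 : (N : ℤ) ∣ ij.2
          · obtain ⟨m, hm⟩ := h3
            rw [hm, qExpand_coeff_mul]
            have h4 : (N : ℤ) * m < (N : ℤ) * (-1) := by
              have := hij.2.2
              omega
            have h5 : m < -1 := lt_of_mul_lt_mul_left h4 hN.le
            simpa using coeff_jqModC_pow_of_lt Zb (b := 1) (m := m) (by simpa using h5)
          · exact qExpand_coeff_of_not_dvd N _ h3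
        rw [h2, mul_zero])
  have e : ∀ τ : ℍ, c * (jH : ℍ → ℂ) τ = d := fun τ => by
    rw [← hd τ, ← hc τ, ← coe_J N τ]
    rfl
  have e1 := e rho
  have e2 := e I
  rw [jH_rho, mul_zero] at e1
  rw [jH_I, ← e1] at e2
  have hc0 : c = 0 := by
    rcases mul_eq_zero.mp e2 with h | h
    · exact h
    · norm_num at h
  apply Subtype.ext
  apply Subtype.ext
  funext τ
  rw [hc τ, hc0]
  rfl

theorem exists_poly_aux (k : ℕ) : ∀ f : AL N, (∀ g : SL(2, ℤ), g • f = f) →
    (∀ n : ℤ, n < (N : ℤ) * (1 - k) → (eps N f).coeff n = 0) →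
    ∃ P : Polynomial Zb, f = P.eval₂ (cA N) (jA N 1 (one_dvd N)) := by
  have hN : (0 : ℤ) < N := by exact_mod_cast Nat.pos_of_ne_zero (NeZero.ne N)
  induction k with
  | zero =>
    intro f hf h
    refine ⟨0, ?_⟩
    rw [Polynomial.eval₂_zero]
    exact eq_zero_of_coeff N f hf fun n hn => h n (by simpa using hn)
  | succ k ih =>
    intro f hf h
    set J := jA N 1 (one_dvd N) with hJ
    set c := (eps N f).coeff ((N : ℤ) * (-(k : ℤ))) with hc
    have hf' : ∀ g : SL(2, ℤ), g • (f - cA N c * J ^ k) = f - cA N c * J ^ k := fun g => by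
      rw [smul_sub, smul_mul', smul_pow', hf g, smul_cA, hJ, smul_jA_one]
    obtain ⟨P, hP⟩ := ih (f - cA N c * J ^ k) hf' fun n hn => by
      by_cases h3 : (N : ℤ) ∣ n
      · obtain ⟨m, rfl⟩ := h3
        have h5 : m < 1 - k := lt_of_mul_lt_mul_left hn hN.le
        rw [map_sub, map_mul, map_pow, eps_cA, hJ, eps_J, ← map_pow, HahnSeries.coeff_sub,
          HahnSeries.C_mul_eq_smul, HahnSeries.coeff_smul, qExpand_coeff_mul]
        rcases (show m < -(k : ℤ) ∨ m = -(k : ℤ) by omega) with h6 | h6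
        · rw [coeff_jqModC_pow_of_lt Zb h6, smul_zero, sub_zero]
          apply h
          apply mul_lt_mul_of_pos_left _ hN
          push_cast
          omega
        · rw [h6, coeff_jqModC_pow_self, ← hc]
          simp
      · exact coeff_eq_zero_of_not_dvd N _ (hf' _) n h3
    refine ⟨P + Polynomial.C c * Polynomial.X ^ k, ?_⟩
    rw [Polynomial.eval₂_add, ← hP, Polynomial.eval₂_mul, Polynomial.eval₂_C, Polynomial.eval₂_pow,
      Polynomial.eval₂_X]
    ring

end InvAux

variable (N : ℕ) [NeZero N]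

/-- KEY/A3 : the invariants of `AL N` are the polynomials in `j` with coefficients in `Zb`. -/
theorem exists_poly_of_invariant (f : AL N) (hf : ∀ g : SL(2, ℤ), g • f = f) :
    ∃ P : Polynomial Zb, f = P.eval₂ (cA N) (jA N 1 (one_dvd N)) := by
  have hN : (0 : ℤ) < N := by exact_mod_cast Nat.pos_of_ne_zero (NeZero.ne N)
  by_cases h0 : eps N f = 0
  · refine InvAux.exists_poly_aux N 0 f hf fun n _ => by rw [h0]; rfl
  · refine InvAux.exists_poly_aux N ((-(eps N f).order).toNat + 1) f hf fun n hn => ?_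
    apply HahnSeries.coeff_eq_zero_of_lt_order
    have h1 : -(eps N f).order ≤ ((-(eps N f).order).toNat : ℤ) := Int.self_le_toNat _
    push_cast at hn
    have h2 : (N : ℤ) * (1 - (((-(eps N f).order).toNat : ℤ) + 1)) =
        -((N : ℤ) * ((-(eps N f).order).toNat : ℤ)) := by ring
    rw [h2] at hn
    have h3 : ((-(eps N f).order).toNat : ℤ) ≤ (N : ℤ) * ((-(eps N f).order).toNat : ℤ) := by
      have : (0 : ℤ) ≤ ((-(eps N f).order).toNat : ℤ) := Int.natCast_nonneg _
      nlinarith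
    omega

end Fermat.Agent.S28
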