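import Fermat.Agent.S28.AL
import Fermat.Agent.S24.DegreeA

set_option autoImplicit false

open UpperHalfPlane ModularForm EisensteinSeries ModularCurve
open scoped MatrixGroups Manifold Real

noncomputable section

namespace Fermat.Agent.S28

open Fermat.Agent.S24 Fermat.Agent.S24.MerAux

namespace MembersA

theorem discriminant_smul (γ : SL(2, ℤ)) (z : ℍ) :
    discriminant (γ • z) = (((γ 1 0 : ℤ) : ℂ) * z + ((γ 1 1 : ℤ) : ℂ)) ^ 12 * discriminant z := by
  have eΔ : ((discriminant : ℍ → ℂ) ∣[(12 : ℤ)] γ) z = discriminant z := by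
    have hγ : (γ : GL (Fin 2) ℝ) ∈ 𝒮ℒ := ⟨γ, rfl⟩
    have := SlashInvariantForm.slash_action_eqn CuspForm.discriminant _ hγ
    rw [SL_slash]
    exact congrFun this z
  rw [SL_slash_apply] at eΔ
  have hd : denom γ z ≠ 0 := denom_ne_zero γ z
  have h12 : discriminant (γ • z) = discriminant z * (denom γ z) ^ (12 : ℤ) := by
    rw [← eΔ, mul_assoc, ← zpow_add₀ hd]; simp
  rw [h12, ModularGroup.denom_apply, mul_comm]
  norm_cast

theorem exists_hermite (M : ℕ) [NeZero M] (h : SL(2, ℤ)) :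
    ∃ (γ : SL(2, ℤ)) (a d : ℕ) (b : ℤ) (ha : 0 < a) (hd : 0 < d), a * d = M ∧
      ((M : ℤ) ∣ h 1 0 → d = 1) ∧
      ∀ τ : ℍ, scaleH M (h • τ) = γ • aff a d b ha hd τ ∧
        (d : ℂ) ^ 12 * discriminant (scaleH M (h • τ)) * discriminant τ =
          discriminant (aff a d b ha hd τ) * discriminant (h • τ) := by
  have hMpos : (0 : ℤ) < M := by exact_mod_cast Nat.pos_of_ne_zero (NeZero.ne M)
  obtain ⟨u, v, A, B, a, b, d, huv, ha, hd, had, h1, h2, h3, h4⟩ :=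
    IntStruct.int_factor M (h 0 0) (h 0 1) (h 1 0) (h 1 1) hMpos (IntStruct.det_eq_SL2 h)
  lift a to ℕ using ha.le
  lift d to ℕ using hd.le
  have ha' : 0 < a := by exact_mod_cast ha
  have hd' : 0 < d := by exact_mod_cast hd
  set γ : SL(2, ℤ) := ⟨!![u, -B; v, A], by rw [Matrix.det_fin_two_of]; linear_combination huv⟩
    with hγ
  have c1 : (u : ℂ) * a = M * (h 0 0 : ℤ) := by exact_mod_cast h1
  have c2 : (v : ℂ) * a = (h 1 0 : ℤ) := by exact_mod_cast h2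
  have c3 : (u : ℂ) * b - B * d = M * (h 0 1 : ℤ) := by exact_mod_cast h3
  have c4 : (v : ℂ) * b + A * d = (h 1 1 : ℤ) := by exact_mod_cast h4
  have hdC : (d : ℂ) ≠ 0 := by exact_mod_cast hd'.ne'
  have hw : ∀ τ : ℍ, ((aff a d b ha' hd' τ : ℍ) : ℂ) = ((a : ℂ) * τ + b) / d := fun τ => rfl
  have g00 : γ 0 0 = u := rfl
  have g01 : γ 0 1 = -B := rfl
  have g10 : γ 1 0 = v := rfl
  have g11 : γ 1 1 = A := rfl
  have hden : ∀ τ : ℍ, (d : ℂ) * ((v : ℂ) * ((aff a d b ha' hd' τ : ℍ) : ℂ) + A) =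
      ((h 1 0 : ℤ) : ℂ) * τ + ((h 1 1 : ℤ) : ℂ) := by
    intro τ
    rw [hw]
    field_simp
    linear_combination (τ : ℂ) * c2 + c4
  have hnum : ∀ τ : ℍ, (d : ℂ) * ((u : ℂ) * ((aff a d b ha' hd' τ : ℍ) : ℂ) - B) =
      M * (((h 0 0 : ℤ) : ℂ) * τ + ((h 0 1 : ℤ) : ℂ)) := by
    intro τ
    rw [hw]
    field_simp
    linear_combination (τ : ℂ) * c1 + c3
  have hne : ∀ τ : ℍ, ((h 1 0 : ℤ) : ℂ) * τ + ((h 1 1 : ℤ) : ℂ) ≠ 0 := by
    intro τ
    have := denom_ne_zero (h : GL (Fin 2) ℝ) τ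
    rwa [ModularGroup.denom_apply] at this
  have key : ∀ τ : ℍ, scaleH M (h • τ) = γ • aff a d b ha' hd' τ := by
    intro τ
    apply UpperHalfPlane.ext
    rw [coe_specialLinearGroup_apply]
    show (M : ℂ) * ((h • τ : ℍ) : ℂ) = _
    rw [coe_specialLinearGroup_apply, g00, g01, g10, g11]
    simp only [algebraMap_int_eq, Int.coe_castRingHom, Complex.ofReal_intCast, Int.cast_neg,
      Complex.ofReal_neg]
    rw [← sub_eq_add_neg, ← mul_div_mul_left ((u : ℂ) * _ - B) _ hdC, hden, hnum, mul_div_assoc]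
  refine ⟨γ, a, d, b, ha', hd', by exact_mod_cast had, ?_, fun τ => ⟨key τ, ?_⟩⟩
  · rintro ⟨e, he⟩
    have hv : v = d * e := by
      apply mul_right_cancel₀ ha.ne'
      rw [h2, he, ← had]; ring
    have hu : u = d * h 0 0 := by
      apply mul_right_cancel₀ ha.ne'
      rw [h1, ← had]; ring
    have h5 : (d : ℤ) ∣ 1 := ⟨h 0 0 * A + e * B, by linear_combination -huv + A * hu + B * hv⟩
    have h6 := Int.eq_one_of_dvd_one hd.le h5
    exact_mod_cast h6
  · rw [key τ, discriminant_smul, discriminant_smul, g10, g11, ← hden, mul_pow]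
    ring

theorem holAct_const (g : SL(2, ℤ)) (c : ℂ) : holAct g (algebraMap ℂ Hol c) = algebraMap ℂ Hol c :=
  rfl

theorem T_inv_smul (τ : ℍ) : (ModularGroup.T)⁻¹ • τ = aff 1 1 (-1) one_pos one_pos τ := by
  apply UpperHalfPlane.ext
  have h := UpperHalfPlane.modular_T_zpow_smul τ (-1)
  rw [zpow_neg_one] at h
  rw [h]
  show (((-1 : ℤ) : ℝ) +ᵥ τ : ℍ) = (((1 : ℕ) : ℂ) * (τ : ℂ) + ((-1 : ℤ) : ℂ)) / ((1 : ℕ) : ℂ)
  simp [add_comm]

/-- the action of `T` on expansions -/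
theorem coeff_eps_T_smul (N : ℕ) [NeZero N] (f : AL N) (n : ℤ) :
    (((eps N (ModularGroup.T • f)).coeff n : Zb) : ℂ) =
      Complex.exp (-(2 * π * Complex.I * n / N)) * (((eps N f).coeff n : Zb) : ℂ) := by
  obtain ⟨s', hs', hc, -⟩ := (rel_eps N f).affine (N := N) 1 1 (-1) one_pos one_pos 1 (by ring)
  have hfun : (((ModularGroup.T • f : AL N) : Hol) : ℍ → ℂ) =
      (f.1 : ℍ → ℂ) ∘ aff 1 1 (-1) one_pos one_pos := by
    funext τ
    rw [coe_smul_AL, holAct_apply, T_inv_smul]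
    rfl
  have h1 : eps N (ModularGroup.T • f) = s' := eps_eq N (by rw [hfun]; exact hs')
  have h2 := hc n
  rw [h1]
  simp only [Nat.cast_one, one_mul] at h2
  rw [h2]
  congr 2
  push_cast
  ring

end MembersA

end Fermat.Agent.S28
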