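import Fermat.Agent.S28.AL
import Fermat.Agent.S24.DegreeA
import Fermat.Agent.S28.MembersA
import Fermat.Prelude.Def_ModularCurve_X0ModL

set_option autoImplicit false

open UpperHalfPlane ModularForm EisensteinSeries ModularCurve
open scoped MatrixGroups Manifold Real

noncomputable section

namespace Fermat.Agent.S28

open Fermat.Agent.S24 Fermat.Agent.S24.MerAux

variable (N : ℕ) [NeZero N]

/-! ### KEY/A1 : members of `AL N` -/

/-- constants -/
theorem const_mem_AL (c : Zb) : algebraMap ℂ Hol (c : ℂ) ∈ AL N :=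
  ⟨fun γ _ => MembersA.holAct_const γ _, fun g => ⟨HahnSeries.C c, by
    rw [MembersA.holAct_const]; exact Rel.const N c⟩⟩

/-- constants, as a ring homomorphism -/
def cA : Zb →+* AL N where
  toFun c := ⟨algebraMap ℂ Hol (c : ℂ), const_mem_AL N c⟩
  map_one' := Subtype.ext (by simp)
  map_mul' a b := Subtype.ext (by simp)
  map_zero' := Subtype.ext (by simp)
  map_add' a b := Subtype.ext (by simp)

theorem smul_cA (g : SL(2, ℤ)) (c : Zb) : g • cA N c = cA N c :=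
  Subtype.ext (MembersA.holAct_const g _)

theorem eps_cA (c : Zb) : eps N (cA N c) = HahnSeries.C c :=
  eps_eq N (Rel.const N c)

/-- Hermite normal form: `M (h z) = γ ((a z + b) / d)` with `a d = M`. -/
theorem exists_hermite (M : ℕ) [NeZero M] (h : SL(2, ℤ)) :
    ∃ (γ : SL(2, ℤ)) (a d : ℕ) (b : ℤ) (ha : 0 < a) (hd : 0 < d), a * d = M ∧
      ((M : ℤ) ∣ h 1 0 → d = 1) ∧
      ∀ τ : ℍ, scaleH M (h • τ) = γ • aff a d b ha hd τ ∧
        (d : ℂ) ^ 12 * discriminant (scaleH M (h • τ)) * discriminant τ =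
          discriminant (aff a d b ha hd τ) * discriminant (h • τ) :=
  MembersA.exists_hermite M h

theorem MemAux.holAct_jHd_eq (M : ℕ) [NeZero M] (g : SL(2, ℤ)) :
    ∃ (a d : ℕ) (b : ℤ) (ha : 0 < a) (hd : 0 < d), a * d = M ∧
      (holAct g (jHd M) : ℍ → ℂ) = (jH : ℍ → ℂ) ∘ aff a d b ha hd := by
  obtain ⟨γ, a, d, b, ha, hd, had, -, h⟩ := exists_hermite M g⁻¹
  refine ⟨a, d, b, ha, hd, had, ?_⟩
  funext τ
  show JFun.jFun (scaleH M (g⁻¹ • τ)) = JFun.jFun (aff a d b ha hd τ)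
  rw [(h τ).1, JFun.jFun_smul]

theorem MemAux.aff_one (M : ℕ) [NeZero M] (hM : 0 < M) : aff M 1 0 hM one_pos = scaleH M := by
  funext τ
  apply UpperHalfPlane.ext
  simp [aff]

theorem MemAux.jH_aff_one (M : ℕ) [NeZero M] (hM : 0 < M) (b : ℤ) :
    (jH : ℍ → ℂ) ∘ aff M 1 b hM one_pos = (jHd M : ℍ → ℂ) := by
  funext τ
  show JFun.jFun (aff M 1 b hM one_pos τ) = JFun.jFun (scaleH M τ)
  have : aff M 1 b hM one_pos τ = ModularGroup.T ^ b • scaleH M τ := by
    apply UpperHalfPlane.ext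
    rw [ModularGroup.coe_T_zpow_smul_eq]
    simp [aff]
  rw [this, JFun.jFun_smul]

theorem jHd_mem_AL (M : ℕ) [NeZero M] (hM : M ∣ N) : jHd M ∈ AL N := by
  refine ⟨fun γ hγ => holAct_jHd N M hM ?_, fun g => ?_⟩
  · rw [CongruenceSubgroup.Gamma0_mem]
    exact (CongruenceSubgroup.Gamma_mem.mp hγ).2.2.1
  · obtain ⟨a, d, b, ha, hd, had, h⟩ := MemAux.holAct_jHd_eq M g
    have hdN : d ∣ N := (Dvd.intro_left a had).trans hM
    obtain ⟨e, he⟩ := hdN
    obtain ⟨s', hs', -⟩ := Rel.affine (N := N) rel_j a d b ha hd (a * e) (by rw [he]; ring)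
    exact ⟨s', h ▸ hs'⟩


/-- `j(Mz)` -/
def jA (M : ℕ) [NeZero M] (hM : M ∣ N) : AL N := ⟨jHd M, jHd_mem_AL N M hM⟩

theorem eps_jA (M : ℕ) [NeZero M] (hM : M ∣ N) :
    eps N (jA N M hM) = qExpand Zb (N * M) (jqModC Zb) := by
  have hM0 : 0 < M := Nat.pos_of_ne_zero (NeZero.ne M)
  obtain ⟨s', hs', h1, h2⟩ := Rel.affine (N := N) rel_j M 1 0 hM0 one_pos (N * M) (by ring)
  rw [MemAux.aff_one] at hs'
  rw [eps_eq N (f := jA N M hM) hs']
  ext k
  by_cases hk : ((N * M : ℕ) : ℤ) ∣ k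
  · obtain ⟨n, rfl⟩ := hk
    rw [qExpand_coeff_mul, h1 n]
    simp
  · rw [h2 k hk, qExpand_coeff_of_not_dvd _ _ hk]


theorem smul_jA_one (g : SL(2, ℤ)) : g • jA N 1 (one_dvd N) = jA N 1 (one_dvd N) := by
  apply Subtype.ext
  refine holAct_jHd 1 1 dvd_rfl ?_
  rw [CongruenceSubgroup.Gamma0_mem]
  exact Subsingleton.elim _ _


/-- a conjugate of `j(Nz)` different from `j(Nz)` has a pole of smaller order -/
theorem smul_jA_eq_or (g : SL(2, ℤ)) : g • jA N N dvd_rfl = jA N N dvd_rfl ∨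
    (eps N (g • jA N N dvd_rfl)).coeff (-((N : ℤ) * N)) = 0 := by
  obtain ⟨a, d, b, ha, hd, had, h⟩ := MemAux.holAct_jHd_eq N g
  by_cases hd1 : d = 1
  · left
    subst hd1
    have haN : a = N := by simpa using had
    subst haN
    apply Subtype.ext
    apply Subtype.ext
    show (holAct g (jHd a) : ℍ → ℂ) = _
    rw [h, MemAux.jH_aff_one]
    rfl
  · right
    obtain ⟨s', hs', h1, -⟩ := Rel.affine (N := N) rel_j a d b ha hd (a * a)
      (by rw [← had]; ring)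
    have hs'' : Rel N ((g • jA N N dvd_rfl : AL N).1 : ℍ → ℂ) s' := by
      show Rel N (holAct g (jHd N) : ℍ → ℂ) s'
      rw [h]; exact hs'
    rw [eps_eq N hs'']
    have e : -((N : ℤ) * N) = ((a * a : ℕ) : ℤ) * (-((d : ℤ) * d)) := by
      rw [← had]; push_cast; ring
    apply Subtype.ext
    rw [e, h1]
    have hd2 : 2 ≤ d := by omega
    have hlt : -((d : ℤ) * d) < -1 := by
      have : (2 : ℤ) ≤ d := by exact_mod_cast hd2
      nlinarith
    rw [coeff_jqModC_of_lt Zb hlt]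
    simp

theorem MemAux.mdiff_uH (r : ℕ) [NeZero r] :
    MDiff (fun τ : ℍ => (r : ℂ) ^ 12 * discriminant (scaleH r τ) / discriminant τ) := by
  have hd : MDiff (discriminant : ℍ → ℂ) := CuspForm.discriminant.holo'
  have hr : MDiff (fun τ : ℍ => discriminant (scaleH r τ)) := hd.comp (mdiff_scaleH r)
  rw [UpperHalfPlane.mdifferentiable_iff] at hd hr ⊢
  have : ((fun τ : ℍ => (r : ℂ) ^ 12 * discriminant (scaleH r τ) / discriminant τ) ∘ ofComplex)
      = fun z => (r : ℂ) ^ 12 * ((fun τ : ℍ => discriminant (scaleH r τ)) ∘ ofComplex) z /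
        ((discriminant : ℍ → ℂ) ∘ ofComplex) z := rfl
  rw [this]
  exact (hr.const_mul _).div hd (fun z _ => discriminant_ne_zero _)

/-- `r^12 Δ(rz) / Δ(z)` -/
def uH (r : ℕ) [NeZero r] : Hol :=
  ⟨fun τ => (r : ℂ) ^ 12 * discriminant (scaleH r τ) / discriminant τ, MemAux.mdiff_uH r⟩

theorem MemAux.discriminant_T_zpow (b : ℤ) (τ : ℍ) :
    discriminant (ModularGroup.T ^ b • τ) = discriminant τ := by
  have hper : Function.Periodic ((discriminant : ℍ → ℂ) ∘ ofComplex) 1 :=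
    SlashInvariantFormClass.periodic_comp_ofComplex CuspForm.discriminant one_mem_strictPeriods_SL
  have h1 := (hper.int_mul b) (τ : ℂ)
  have h2 : ((ModularGroup.T ^ b • τ : ℍ) : ℂ) = (τ : ℂ) + (b : ℂ) * 1 := by
    rw [ModularGroup.coe_T_zpow_smul_eq]; ring
  rw [← h2] at h1
  simpa using h1

theorem MemAux.holAct_uH_eq (r : ℕ) [NeZero r] (g : SL(2, ℤ)) :
    ∃ (a d : ℕ) (b : ℤ) (ha : 0 < a) (hd : 0 < d), a * d = r ∧ ((r : ℤ) ∣ g 1 0 → d = 1) ∧
      (holAct g (uH r) : ℍ → ℂ) = (fun _ => (((a : Zb) ^ 12 : Zb) : ℂ)) *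
        ((discriminant : ℍ → ℂ) ∘ aff a d b ha hd) * (fun τ : ℍ => (discriminant τ)⁻¹) := by
  obtain ⟨γ, a, d, b, ha, hd, had, h1, h⟩ := exists_hermite r g⁻¹
  refine ⟨a, d, b, ha, hd, had, fun hg => h1 ?_, ?_⟩
  · have : g⁻¹ 1 0 = - g 1 0 := by
      rw [Matrix.SpecialLinearGroup.SL2_inv_expl]; simp
    rw [this]; exact (dvd_neg).mpr hg
  · funext τ
    show (r : ℂ) ^ 12 * discriminant (scaleH r (g⁻¹ • τ)) / discriminant (g⁻¹ • τ) =
      (((a : Zb) ^ 12 : Zb) : ℂ) * discriminant (aff a d b ha hd τ) * (discriminant τ)⁻¹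
    have h2 := (h τ).2
    have h3 := discriminant_ne_zero τ
    have h4 := discriminant_ne_zero (g⁻¹ • τ)
    have h5 : (r : ℂ) = a * d := by rw [← had]; push_cast; ring
    have h6 : (((a : Zb) ^ 12 : Zb) : ℂ) = (a : ℂ) ^ 12 := by simp
    rw [h6, h5]
    field_simp
    linear_combination (a : ℂ) ^ 12 * h2

theorem MemAux.coeff_zero_ofPS (p : PowerSeries ℤ) (hp : PowerSeries.constantCoeff p = 1) :
    (HahnSeries.ofPowerSeries ℤ Zb (p.map (Int.castRingHom Zb))).coeff 0 = 1 := by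
  rw [show (0 : ℤ) = ((0 : ℕ) : ℤ) from rfl, HahnSeries.ofPowerSeries_apply_coeff,
    PowerSeries.coeff_map, PowerSeries.coeff_zero_eq_constantCoeff_apply, hp]
  simp

theorem MemAux.aff_id : aff 1 1 0 one_pos one_pos = id := by
  funext τ
  apply UpperHalfPlane.ext
  simp [aff]

theorem MemAux.rel_Delta_inv_N : ∃ s : LaurentSeries Zb, Rel N (fun τ : ℍ => (discriminant τ)⁻¹) s ∧
    s.coeff (-(N : ℤ)) = 1 ∧ ∀ k : ℤ, k < -(N : ℤ) → s.coeff k = 0 := by
  obtain ⟨s, hs, h1, h2⟩ := Rel.affine (N := N) rel_Delta_inv 1 1 0 one_pos one_pos N (by ring)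
  rw [MemAux.aff_id] at hs
  refine ⟨s, hs, ?_, fun k hk => ?_⟩
  · apply Subtype.ext
    have := h1 (-1)
    rw [mul_neg_one] at this
    rw [this, HahnSeries.coeff_single_mul]
    simp [MemAux.coeff_zero_ofPS _ constantCoeff_dedekindEtaUnitInv]
  · by_cases hd : (N : ℤ) ∣ k
    · obtain ⟨n, rfl⟩ := hd
      have hN : (0 : ℤ) < N := by exact_mod_cast Nat.pos_of_ne_zero (NeZero.ne N)
      have hn : n < -1 := by nlinarith
      apply Subtype.ext
      rw [h1 n, HahnSeries.coeff_single_mul, ofPowerSeries_coeff_of_neg _ (by omega)]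
      simp
    · exact h2 k hd

theorem MemAux.rel_Delta_aff (a d : ℕ) (b : ℤ) (ha : 0 < a) (hd : 0 < d) (e : ℕ) (he : N = d * e) :
    ∃ s : LaurentSeries Zb, Rel N ((discriminant : ℍ → ℂ) ∘ aff a d b ha hd) s ∧
    (b = 0 → s.coeff ((a * e : ℕ) : ℤ) = 1) ∧ ∀ k : ℤ, k < ((a * e : ℕ) : ℤ) → s.coeff k = 0 := by
  obtain ⟨s, hs, h1, h2⟩ := Rel.affine (N := N) rel_Delta a d b ha hd (a * e) (by rw [he]; ring)
  have he0 : 0 < e := by
    rcases Nat.eq_zero_or_pos e with h | h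
    · exact absurd (by rw [he, h, mul_zero]) (NeZero.ne N)
    · exact h
  refine ⟨s, hs, fun hb => ?_, fun k hk => ?_⟩
  · apply Subtype.ext
    have := h1 1
    rw [mul_one] at this
    rw [this, HahnSeries.coeff_single_mul, hb]
    simp [MemAux.coeff_zero_ofPS _ constantCoeff_dedekindEtaUnit]
  · by_cases hdv : ((a * e : ℕ) : ℤ) ∣ k
    · obtain ⟨n, rfl⟩ := hdv
      have hN : (0 : ℤ) < ((a * e : ℕ) : ℤ) := by exact_mod_cast Nat.mul_pos ha he0
      have hn : n < 1 := by nlinarith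
      apply Subtype.ext
      rw [h1 n, HahnSeries.coeff_single_mul, ofPowerSeries_coeff_of_neg _ (by omega)]
      simp
    · exact h2 k hdv

theorem uH_mem_AL (r : ℕ) [NeZero r] (hr : r ∣ N) : uH r ∈ AL N := by
  have key : ∀ g : SL(2, ℤ), (r : ℤ) ∣ g 1 0 → holAct g (uH r) = uH r := by
    intro g hg
    obtain ⟨a, d, b, ha, hd, had, h1, h⟩ := MemAux.holAct_uH_eq r g
    have hd1 := h1 hg
    subst hd1
    have har : a = r := by simpa using had
    subst har
    apply Subtype.ext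
    rw [h]
    funext τ
    show (((a : Zb) ^ 12 : Zb) : ℂ) * discriminant (aff a 1 b ha hd τ) * (discriminant τ)⁻¹ =
      (a : ℂ) ^ 12 * discriminant (scaleH a τ) / discriminant τ
    have : aff a 1 b ha hd τ = ModularGroup.T ^ b • scaleH a τ := by
      apply UpperHalfPlane.ext
      rw [ModularGroup.coe_T_zpow_smul_eq]
      simp [aff]
    rw [this, MemAux.discriminant_T_zpow, div_eq_mul_inv]
    simp
  refine ⟨fun γ hγ => key γ ?_, fun g => ?_⟩
  · have h1 := (CongruenceSubgroup.Gamma_mem.mp hγ).2.2.1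
    have h2 : (N : ℤ) ∣ γ 1 0 := (ZMod.intCast_zmod_eq_zero_iff_dvd _ _).mp h1
    exact (Int.natCast_dvd_natCast.mpr hr).trans h2
  · obtain ⟨a, d, b, ha, hd, had, -, h⟩ := MemAux.holAct_uH_eq r g
    have hdN : d ∣ N := (Dvd.intro_left a had).trans hr
    obtain ⟨e, he⟩ := hdN
    obtain ⟨s1, hs1, -⟩ := MemAux.rel_Delta_aff N a d b ha hd e he
    obtain ⟨s2, hs2, -⟩ := MemAux.rel_Delta_inv_N N
    exact ⟨_, h ▸ ((Rel.const N ((a : Zb) ^ 12)).mul hs1).mul hs2⟩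


/-- `r^12 Δ(rz) / Δ(z)` -/
def uA (r : ℕ) [NeZero r] (hr : r ∣ N) : AL N := ⟨uH r, uH_mem_AL N r hr⟩

theorem smul_uA (r : ℕ) [NeZero r] (hr : r ∣ N) (g : SL(2, ℤ)) (hg : (r : ℤ) ∣ g 1 0) :
    g • uA N r hr = uA N r hr := by
  apply Subtype.ext
  show holAct g (uH r) = uH r
  obtain ⟨a, d, b, ha, hd, had, h1, h⟩ := MemAux.holAct_uH_eq r g
  have hd1 := h1 hg
  subst hd1
  have har : a = r := by simpa using had
  subst har
  apply Subtype.ext
  rw [h]
  funext τ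
  show (((a : Zb) ^ 12 : Zb) : ℂ) * discriminant (aff a 1 b ha hd τ) * (discriminant τ)⁻¹ =
    (a : ℂ) ^ 12 * discriminant (scaleH a τ) / discriminant τ
  have : aff a 1 b ha hd τ = ModularGroup.T ^ b • scaleH a τ := by
    apply UpperHalfPlane.ext
    rw [ModularGroup.coe_T_zpow_smul_eq]
    simp [aff]
  rw [this, MemAux.discriminant_T_zpow, div_eq_mul_inv]
  simp


theorem MemAux.coeff_mul_of_lower {x y : LaurentSeries Zb} {a b : ℤ} (hxa : x.coeff a = 1)
    (hx : ∀ k < a, x.coeff k = 0) (hyb : y.coeff b = 1) (hy : ∀ k < b, y.coeff k = 0) :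
    (x * y).coeff (a + b) = 1 ∧ ∀ k < a + b, (x * y).coeff k = 0 := by
  have hx0 : x ≠ 0 := fun h => by rw [h] at hxa; simp at hxa
  have hy0 : y ≠ 0 := fun h => by rw [h] at hyb; simp at hyb
  have hxo : x.order = a := le_antisymm
    (HahnSeries.order_le_of_coeff_ne_zero (by rw [hxa]; exact one_ne_zero))
    ((HahnSeries.le_order_iff_forall hx0).mpr hx)
  have hyo : y.order = b := le_antisymm
    (HahnSeries.order_le_of_coeff_ne_zero (by rw [hyb]; exact one_ne_zero))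
    ((HahnSeries.le_order_iff_forall hy0).mpr hy)
  constructor
  · rw [← hxo, ← hyo, HahnSeries.coeff_mul_order_add_order, HahnSeries.leadingCoeff_eq,
      HahnSeries.leadingCoeff_eq, hxo, hyo, hxa, hyb, one_mul]
  · intro k hk
    apply HahnSeries.coeff_eq_zero_of_lt_order
    rw [HahnSeries.order_mul hx0 hy0, hxo, hyo]
    exact hk

theorem coeff_eps_uA (r : ℕ) [NeZero r] (hr : r ∣ N) :
    (eps N (uA N r hr)).coeff ((N : ℤ) * (r - 1)) = (r : Zb) ^ 12 ∧
      ∀ n : ℤ, n < (N : ℤ) * (r - 1) → (eps N (uA N r hr)).coeff n = 0 := by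
  have hr0 : 0 < r := Nat.pos_of_ne_zero (NeZero.ne r)
  obtain ⟨s1, hs1, h1a, h1b⟩ := MemAux.rel_Delta_aff N r 1 0 hr0 one_pos N (by ring)
  obtain ⟨s2, hs2, h2a, h2b⟩ := MemAux.rel_Delta_inv_N N
  have hrel : Rel N ((uA N r hr).1 : ℍ → ℂ) (HahnSeries.C ((r : Zb) ^ 12) * (s1 * s2)) := by
    have h := (Rel.const N ((r : Zb) ^ 12)).mul (hs1.mul hs2)
    convert h using 1
    funext τ
    show (r : ℂ) ^ 12 * discriminant (scaleH r τ) / discriminant τ =
      (((r : Zb) ^ 12 : Zb) : ℂ) * (discriminant (aff r 1 0 hr0 one_pos τ) * (discriminant τ)⁻¹)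
    have : aff r 1 0 hr0 one_pos τ = scaleH r τ := by
      apply UpperHalfPlane.ext
      simp [aff]
    rw [this, div_eq_mul_inv]
    simp [mul_assoc]
  rw [eps_eq N hrel]
  obtain ⟨h3, h4⟩ := MemAux.coeff_mul_of_lower (h1a rfl) h1b h2a h2b
  have e : (N : ℤ) * (r - 1) = ((r * N : ℕ) : ℤ) + -(N : ℤ) := by push_cast; ring
  constructor
  · rw [HahnSeries.C_mul_eq_smul, HahnSeries.coeff_smul, e, h3, smul_eq_mul, mul_one]
  · intro n hn
    rw [HahnSeries.C_mul_eq_smul, HahnSeries.coeff_smul, h4 n (e ▸ hn), smul_zero]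

/-- the action of `T` on expansions -/
theorem coeff_eps_T_smul (f : AL N) (n : ℤ) :
    (((eps N (ModularGroup.T • f)).coeff n : Zb) : ℂ) =
      Complex.exp (-(2 * π * Complex.I * n / N)) * (((eps N f).coeff n : Zb) : ℂ) :=
  MembersA.coeff_eps_T_smul N f n

end Fermat.Agent.S28
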