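import Fermat.Agent.S28.Defs
import Fermat.Agent.S28.RLoc

set_option autoImplicit false

noncomputable section

namespace Fermat.Agent.S28

open ModularCurve HahnSeries Polynomial

variable (ℓ : ℕ)

@[simp] theorem liftDl_coeff (f : Dl ℓ) (n : ℤ) :
    ((liftDl ℓ f).coeff n : ℚ) = (f : LaurentSeries ℚ).coeff n := rfl

theorem coeffMap_subtype_liftDl (f : Dl ℓ) :
    coeffMap (GaloisRep.ratLocalizedAt ℓ).subtype (liftDl ℓ f) = (f : LaurentSeries ℚ) := by
  ext n; rfl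

theorem coeffMap_subtype_injective :
    Function.Injective (coeffMap (GaloisRep.ratLocalizedAt ℓ).subtype) := by
  intro x y h
  ext n
  have := congrArg (fun z => z.coeff n) h
  exact this

/-- `liftDl` as a ring homomorphism. -/
def liftDlHom : Dl ℓ →+* LaurentSeries ↥(GaloisRep.ratLocalizedAt ℓ) where
  toFun := liftDl ℓ
  map_one' := by
    apply coeffMap_subtype_injective
    rw [coeffMap_subtype_liftDl, map_one]; rfl
  map_mul' x y := by
    apply coeffMap_subtype_injective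
    rw [coeffMap_subtype_liftDl, map_mul, coeffMap_subtype_liftDl, coeffMap_subtype_liftDl]; rfl
  map_zero' := by
    apply coeffMap_subtype_injective
    rw [coeffMap_subtype_liftDl, map_zero]; rfl
  map_add' x y := by
    apply coeffMap_subtype_injective
    rw [coeffMap_subtype_liftDl, map_add, coeffMap_subtype_liftDl, coeffMap_subtype_liftDl]; rfl

theorem algebraMap_laurent_eq_single {S K : Type*} [CommRing S] [CommRing K] [Algebra S K] (r : S) :
    algebraMap S (LaurentSeries K) r = HahnSeries.single 0 (algebraMap S K r) := by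
  rw [HahnSeries.algebraMap_apply', PowerSeries.algebraMap_apply, HahnSeries.ofPowerSeries_C]
  rfl

theorem isScalarTower_laurent (S K : Type*) [CommRing S] [CommRing K] [Algebra S K] :
    @IsScalarTower S K (LaurentSeries K) Algebra.toSMul Algebra.toSMul Algebra.toSMul :=
  IsScalarTower.of_algebraMap_eq (fun x => by
    rw [algebraMap_laurent_eq_single, algebraMap_laurent_eq_single]; rfl)

section general

variable (K : Type*) [CommRing K] [Algebra ↥(GaloisRep.ratLocalizedAt ℓ) K]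

/-- `redK` as a ring homomorphism. -/
def redKHom : Dl ℓ →+* LaurentSeries K :=
  (coeffMap (algebraMap ↥(GaloisRep.ratLocalizedAt ℓ) K)).comp (liftDlHom ℓ)

@[simp] theorem redKHom_apply (f : Dl ℓ) : redKHom ℓ K f = redK ℓ K f := rfl

theorem redK_coeff (f : Dl ℓ) (n : ℤ) :
    (redK ℓ K f).coeff n =
      algebraMap ↥(GaloisRep.ratLocalizedAt ℓ) K ⟨(f : LaurentSeries ℚ).coeff n, f.2 n⟩ := rfl

theorem redK_coeff_mem_range (f : Dl ℓ) (n : ℤ) :
    (redK ℓ K f).coeff n ∈ (algebraMap ↥(GaloisRep.ratLocalizedAt ℓ) K).range :=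
  ⟨_, rfl⟩

theorem redK_zero : redK ℓ K 0 = 0 := map_zero (redKHom ℓ K)
theorem redK_one : redK ℓ K 1 = 1 := map_one (redKHom ℓ K)
theorem redK_add (f g : Dl ℓ) : redK ℓ K (f + g) = redK ℓ K f + redK ℓ K g :=
  map_add (redKHom ℓ K) f g
theorem redK_mul (f g : Dl ℓ) : redK ℓ K (f * g) = redK ℓ K f * redK ℓ K g :=
  map_mul (redKHom ℓ K) f g
theorem redK_neg (f : Dl ℓ) : redK ℓ K (-f) = -redK ℓ K f := map_neg (redKHom ℓ K) f
theorem redK_sub (f g : Dl ℓ) : redK ℓ K (f - g) = redK ℓ K f - redK ℓ K g :=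
  map_sub (redKHom ℓ K) f g
theorem redK_pow (f : Dl ℓ) (n : ℕ) : redK ℓ K (f ^ n) = redK ℓ K f ^ n :=
  map_pow (redKHom ℓ K) f n
theorem redK_sum {ι : Type*} (s : Finset ι) (f : ι → Dl ℓ) :
    redK ℓ K (∑ i ∈ s, f i) = ∑ i ∈ s, redK ℓ K (f i) := map_sum (redKHom ℓ K) f s
theorem redK_natCast (n : ℕ) : redK ℓ K (n : Dl ℓ) = (n : LaurentSeries K) :=
  map_natCast (redKHom ℓ K) n

/-- constants of `ℤ_(ℓ)` are `ℓ`-integral series. -/
theorem algebraMap_mem_Dl (r : ↥(GaloisRep.ratLocalizedAt ℓ)) :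
    algebraMap ℚ (LaurentSeries ℚ) (r : ℚ) ∈ Dl ℓ := by
  intro n
  rw [algebraMap_laurentSeries_eq_single]
  by_cases h : n = 0
  · subst h; rw [HahnSeries.coeff_single_same]; exact r.2
  · rw [HahnSeries.coeff_single_of_ne h]; exact Subring.zero_mem _

/-- the structure map `ℤ_(ℓ) → Dl ℓ`. -/
def constDl : ↥(GaloisRep.ratLocalizedAt ℓ) →+* Dl ℓ :=
  ((algebraMap ℚ (LaurentSeries ℚ)).comp (GaloisRep.ratLocalizedAt ℓ).subtype).codRestrict (Dl ℓ)
    (algebraMap_mem_Dl ℓ)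

@[simp] theorem coe_constDl (r : ↥(GaloisRep.ratLocalizedAt ℓ)) :
    (constDl ℓ r : LaurentSeries ℚ) = algebraMap ℚ (LaurentSeries ℚ) (r : ℚ) := rfl

instance algebraDl : Algebra ↥(GaloisRep.ratLocalizedAt ℓ) (Dl ℓ) := (constDl ℓ).toAlgebra

theorem algebraMap_Dl_eq (r : ↥(GaloisRep.ratLocalizedAt ℓ)) :
    algebraMap ↥(GaloisRep.ratLocalizedAt ℓ) (Dl ℓ) r = constDl ℓ r := rfl

theorem redK_constDl (r : ↥(GaloisRep.ratLocalizedAt ℓ)) :
    redK ℓ K (constDl ℓ r) = algebraMap ↥(GaloisRep.ratLocalizedAt ℓ) (LaurentSeries K) r := by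
  ext n
  rw [redK_coeff, algebraMap_laurent_eq_single]
  by_cases h : n = 0
  · subst h
    rw [HahnSeries.coeff_single_same]
    congr 1
    apply Subtype.ext
    show (algebraMap ℚ (LaurentSeries ℚ) (r : ℚ)).coeff 0 = r
    rw [algebraMap_laurentSeries_eq_single, HahnSeries.coeff_single_same]
  · rw [HahnSeries.coeff_single_of_ne h]
    have : (⟨(constDl ℓ r : LaurentSeries ℚ).coeff n, (constDl ℓ r).2 n⟩ :
        ↥(GaloisRep.ratLocalizedAt ℓ)) = 0 := by
      apply Subtype.ext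
      show (algebraMap ℚ (LaurentSeries ℚ) (r : ℚ)).coeff n = 0
      rw [algebraMap_laurentSeries_eq_single, HahnSeries.coeff_single_of_ne h]
    rw [this, map_zero]

/-- `redK` as a `ℤ_(ℓ)`-algebra homomorphism. -/
def redKAlgHom : Dl ℓ →ₐ[↥(GaloisRep.ratLocalizedAt ℓ)] LaurentSeries K :=
  { redKHom ℓ K with
    commutes' := fun r => redK_constDl ℓ K r }

@[simp] theorem redKAlgHom_apply (f : Dl ℓ) : redKAlgHom ℓ K f = redK ℓ K f := rfl

/-- `Dl ℓ → ℚ((q))` as a `ℤ_(ℓ)`-algebra homomorphism. -/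
def valDl : Dl ℓ →ₐ[↥(GaloisRep.ratLocalizedAt ℓ)] LaurentSeries ℚ :=
  { (Dl ℓ).subtype with
    commutes' := fun r => by
      show algebraMap ℚ (LaurentSeries ℚ) (r : ℚ) = _
      rw [algebraMap_laurent_eq_single, algebraMap_laurent_eq_single]
      rfl }

@[simp] theorem valDl_apply (f : Dl ℓ) : valDl ℓ f = (f : LaurentSeries ℚ) := rfl

/-- polynomials with `ℓ`-integral coefficients in an `ℓ`-integral series. -/
theorem coe_aeval_Dl (g : Dl ℓ) (p : Polynomial ↥(GaloisRep.ratLocalizedAt ℓ)) :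
    ((aeval g p : Dl ℓ) : LaurentSeries ℚ) =
      aeval (g : LaurentSeries ℚ) (p.map (algebraMap ↥(GaloisRep.ratLocalizedAt ℓ) ℚ)) := by
  have := isScalarTower_laurent ↥(GaloisRep.ratLocalizedAt ℓ) ℚ
  rw [aeval_map_algebraMap, ← valDl_apply, ← Polynomial.aeval_algHom_apply, valDl_apply]

theorem aeval_mem_Dl {g : LaurentSeries ℚ} (hg : g ∈ Dl ℓ)
    (p : Polynomial ↥(GaloisRep.ratLocalizedAt ℓ)) :
    aeval g (p.map (algebraMap ↥(GaloisRep.ratLocalizedAt ℓ) ℚ)) ∈ Dl ℓ := by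
  rw [← coe_aeval_Dl ℓ ⟨g, hg⟩ p]
  exact Subtype.property _

theorem redK_aeval_Dl (g : Dl ℓ) (p : Polynomial ↥(GaloisRep.ratLocalizedAt ℓ)) :
    redK ℓ K (aeval g p) =
      aeval (redK ℓ K g) (p.map (algebraMap ↥(GaloisRep.ratLocalizedAt ℓ) K)) := by
  have := isScalarTower_laurent ↥(GaloisRep.ratLocalizedAt ℓ) K
  rw [aeval_map_algebraMap, ← redKAlgHom_apply, ← Polynomial.aeval_algHom_apply,
    redKAlgHom_apply]

theorem redK_aeval {g : LaurentSeries ℚ} (hg : g ∈ Dl ℓ)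
    (p : Polynomial ↥(GaloisRep.ratLocalizedAt ℓ)) :
    redK ℓ K ⟨aeval g (p.map (algebraMap ↥(GaloisRep.ratLocalizedAt ℓ) ℚ)), aeval_mem_Dl ℓ hg p⟩ =
      aeval (redK ℓ K ⟨g, hg⟩) (p.map (algebraMap ↥(GaloisRep.ratLocalizedAt ℓ) K)) := by
  rw [← redK_aeval_Dl]
  congr 1
  exact Subtype.ext (coe_aeval_Dl ℓ ⟨g, hg⟩ p).symm

end general

section field

variable [Fact ℓ.Prime] (K : Type*) [Field K] [CharP K ℓ] [Algebra ↥(GaloisRep.ratLocalizedAt ℓ) K]

/-- the kernel of `redK` is `ℓ · Dl ℓ`. -/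
theorem redK_eq_zero_iff (f : Dl ℓ) : redK ℓ K f = 0 ↔ ∃ g : Dl ℓ, f = (ℓ : Dl ℓ) * g := by
  constructor
  · intro h
    have hc : ∀ n, (ℓ : ↥(GaloisRep.ratLocalizedAt ℓ)) ∣
        ⟨(f : LaurentSeries ℚ).coeff n, f.2 n⟩ := by
      intro n
      rw [← RLoc.algebraMap_eq_zero_iff ℓ K, ← redK_coeff, h]; rfl
    have hmem : (algebraMap ℚ (LaurentSeries ℚ) ((ℓ : ℚ)⁻¹)) * (f : LaurentSeries ℚ) ∈ Dl ℓ := by
      intro n
      rw [algebraMap_laurentSeries_eq_single, HahnSeries.coeff_single_zero_mul]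
      obtain ⟨s, hs⟩ := hc n
      have hs' : (f : LaurentSeries ℚ).coeff n = (ℓ : ℚ) * (s : ℚ) := by
        have := congrArg Subtype.val hs
        simpa using this
      rw [hs', inv_mul_cancel_left₀ (RLoc.ell_ne_zero ℓ)]
      exact s.2
    refine ⟨⟨_, hmem⟩, Subtype.ext ?_⟩
    show (f : LaurentSeries ℚ) = ((ℓ : Dl ℓ) : LaurentSeries ℚ) *
      ((algebraMap ℚ (LaurentSeries ℚ) ((ℓ : ℚ)⁻¹)) * (f : LaurentSeries ℚ))
    have h1 : ((ℓ : Dl ℓ) : LaurentSeries ℚ) = algebraMap ℚ (LaurentSeries ℚ) (ℓ : ℚ) := by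
      rw [map_natCast]; rfl
    rw [h1, ← mul_assoc, ← map_mul,
      mul_inv_cancel₀ (RLoc.ell_ne_zero ℓ), map_one, one_mul]
  · rintro ⟨g, rfl⟩
    rw [redK_mul, redK_natCast]
    have : ((ℓ : ℕ) : LaurentSeries K) = 0 := by
      rw [← map_natCast (algebraMap K (LaurentSeries K)), CharP.cast_eq_zero, map_zero]
    rw [this, zero_mul]

theorem redK_eq_zero_iff' (f : Dl ℓ) :
    redK ℓ K f = 0 ↔ ∃ g : Dl ℓ, (f : LaurentSeries ℚ) = (ℓ : LaurentSeries ℚ) * g := by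
  rw [redK_eq_zero_iff]
  constructor
  · rintro ⟨g, rfl⟩; exact ⟨g, by push_cast; rfl⟩
  · rintro ⟨g, hg⟩; exact ⟨g, Subtype.ext (by push_cast; exact hg)⟩

end field

end Fermat.Agent.S28
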