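import Fermat.Agent.S24.JFun
import Fermat.Agent.S24.QExp
import Fermat.Agent.S28.RelAff

set_option autoImplicit false

open UpperHalfPlane ModularForm EisensteinSeries ModularCurve
open scoped MatrixGroups Manifold Real

noncomputable section

namespace Fermat.Agent.S28

open Fermat.Agent.S24

/-- the ring of algebraic integers inside `ℂ` -/
abbrev Zb : Type := ↥(integralClosure ℤ ℂ)

/-- `q = e(z)` as a function on the upper half plane -/
def qq (τ : ℍ) : ℂ := Function.Periodic.qParam 1 (τ : ℂ)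

/-- `Rel N f s`: the function `f` has the Laurent expansion `s` in the variable `q_N = e(z/N)`,
with finite polar part and coefficients in `Zb`.  (`f(Nz)` is expanded in `q = e(z)`.) -/
def Rel (N : ℕ) [NeZero N] (f : ℍ → ℂ) (s : LaurentSeries Zb) : Prop :=
  ∃ (m : ℕ) (p : PowerSeries Zb), IsQ ((f ∘ scaleH N) * qq ^ m) ∧
    qExpansion 1 ((f ∘ scaleH N) * qq ^ m) = p.map (algebraMap Zb ℂ) ∧
    s = HahnSeries.single (-(m : ℤ)) 1 * HahnSeries.ofPowerSeries ℤ Zb p

/-- the affine map `z ↦ (a z + b) / d` -/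
def aff (a d : ℕ) (b : ℤ) (ha : 0 < a) (hd : 0 < d) (τ : ℍ) : ℍ :=
  ⟨((a : ℂ) * τ + b) / d, by
    have h1 : (((a : ℂ) * τ + b) / d).im = a * τ.im / d := by
      have : ((a : ℂ) * τ + b) / d = ((a : ℂ) * τ + b) * (((d : ℝ)⁻¹ : ℝ) : ℂ) := by
        rw [div_eq_mul_inv]; push_cast; rfl
      rw [this, Complex.im_mul_ofReal]
      simp [div_eq_mul_inv]
    rw [h1]
    have := τ.im_pos
    positivity⟩

variable {N : ℕ} [NeZero N]

/-! ### auxiliary lemmas for KEY/A2a (helper25) -/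

namespace RelAux

theorem qq_ne_zero (τ : ℍ) : qq τ ≠ 0 := Complex.exp_ne_zero _

theorem hasSum_qq (τ : ℍ) :
    HasSum (fun m : ℕ ↦ (if m = 1 then (1 : ℂ) else 0) •
      Function.Periodic.qParam (1 : ℝ) (τ : ℂ) ^ m) (qq τ) := by
  have h := hasSum_ite_eq (1 : ℕ) (qq τ)
  convert h using 2 with m
  by_cases hm : m = 1
  · subst hm; simp [qq]
  · simp [hm]

theorem isQ_qq : IsQ qq := by
  refine ⟨?_, ?_, isBoundedAtImInfty_of_hasSum_qExpansion one_pos hasSum_qq⟩
  · rw [UpperHalfPlane.mdifferentiable_iff]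
    have : DifferentiableOn ℂ (fun z : ℂ => Function.Periodic.qParam 1 z) {z | 0 < z.im} := by
      unfold Function.Periodic.qParam
      fun_prop
    refine this.congr fun z hz => ?_
    simp only [Function.comp_apply, qq, ofComplex_apply_of_im_pos hz]
  · intro z
    by_cases hz : 0 < z.im
    · have hz1 : 0 < (z + 1).im := by simpa using hz
      simp only [Function.comp_apply, qq, ofComplex_apply_of_im_pos hz,
        ofComplex_apply_of_im_pos hz1]
      show Function.Periodic.qParam 1 (z + 1) = Function.Periodic.qParam 1 z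
      unfold Function.Periodic.qParam
      have : 2 * (π : ℂ) * Complex.I * (z + 1) / ((1 : ℝ) : ℂ) =
          2 * π * Complex.I * z / ((1 : ℝ) : ℂ) + 2 * π * Complex.I := by
        push_cast; ring
      rw [this, Complex.exp_add, Complex.exp_two_pi_mul_I, mul_one]
    · have hz1 : ¬ 0 < (z + 1).im := by simpa using hz
      simp only [Function.comp_apply, ofComplex_apply_of_im_nonpos (not_lt.mp hz),
        ofComplex_apply_of_im_nonpos (not_lt.mp hz1)]

theorem qExpansion_qq : qExpansion 1 qq = PowerSeries.X := by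
  ext m
  rw [← qExpansion_coeff_unique' isQ_qq.analytic hasSum_qq m, PowerSeries.coeff_X]

theorem isQ_qq_pow (m : ℕ) : IsQ (qq ^ m) := by
  induction m with
  | zero => simpa using IsQ.one
  | succ m ih => rw [pow_succ]; exact ih.mul isQ_qq

theorem qExpansion_qq_pow (m : ℕ) : qExpansion 1 (qq ^ m) = PowerSeries.X ^ m := by
  induction m with
  | zero => simpa using qExpansion_one 1
  | succ m ih =>
    rw [pow_succ, qExpansion_mul (isQ_qq_pow m).analytic isQ_qq.analytic, ih, qExpansion_qq,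
      pow_succ]

/-- the data of `Rel` with a prescribed pole bound -/
def RelAt (N : ℕ) [NeZero N] (f : ℍ → ℂ) (m : ℕ) (p : PowerSeries Zb) : Prop :=
  IsQ ((f ∘ scaleH N) * qq ^ m) ∧
    qExpansion 1 ((f ∘ scaleH N) * qq ^ m) = p.map (algebraMap Zb ℂ)

/-- the Laurent series attached to `(m, p)` -/
def ser (m : ℕ) (p : PowerSeries Zb) : LaurentSeries Zb :=
  HahnSeries.single (-(m : ℤ)) 1 * HahnSeries.ofPowerSeries ℤ Zb p

theorem rel_iff {f : ℍ → ℂ} {s : LaurentSeries Zb} :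
    Rel N f s ↔ ∃ m p, RelAt N f m p ∧ s = ser m p :=
  ⟨fun ⟨m, p, h1, h2, h3⟩ => ⟨m, p, ⟨h1, h2⟩, h3⟩, fun ⟨m, p, ⟨h1, h2⟩, h3⟩ => ⟨m, p, h1, h2, h3⟩⟩

theorem RelAt.shift {f : ℍ → ℂ} {m : ℕ} {p : PowerSeries Zb} (h : RelAt N f m p) (k : ℕ) :
    RelAt N f (m + k) (PowerSeries.X ^ k * p) := by
  have e : (f ∘ scaleH N) * qq ^ (m + k) = qq ^ k * ((f ∘ scaleH N) * qq ^ m) := by
    rw [pow_add]; ring
  refine ⟨?_, ?_⟩
  · rw [e]; exact (isQ_qq_pow k).mul h.1
  · rw [e, qExpansion_mul (isQ_qq_pow k).analytic h.1.analytic, qExpansion_qq_pow, h.2, map_mul,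
      map_pow, PowerSeries.map_X]

theorem ser_shift (m k : ℕ) (p : PowerSeries Zb) : ser (m + k) (PowerSeries.X ^ k * p) = ser m p := by
  unfold ser
  rw [map_mul, map_pow, HahnSeries.ofPowerSeries_X, HahnSeries.single_pow, one_pow, ← mul_assoc,
    HahnSeries.single_mul_single, one_mul]
  congr 2
  simp

theorem ser_injective (m : ℕ) : Function.Injective (ser m) := by
  intro p p' h
  unfold ser at h
  have h1 : HahnSeries.single (m : ℤ) (1 : Zb) * HahnSeries.single (-(m : ℤ)) (1 : Zb) = 1 := by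
    rw [HahnSeries.single_mul_single]; simp
  have h2 := congrArg (fun x => HahnSeries.single (m : ℤ) (1 : Zb) * x) h
  simp only [← mul_assoc, h1, one_mul] at h2
  exact HahnSeries.ofPowerSeries_injective h2

theorem map_injective : Function.Injective (PowerSeries.map (algebraMap Zb ℂ)) :=
  PowerSeries.map_injective _ Subtype.val_injective

theorem ser_add (m : ℕ) (p p' : PowerSeries Zb) : ser m (p + p') = ser m p + ser m p' := by
  unfold ser; rw [map_add, mul_add]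

theorem ser_neg (m : ℕ) (p : PowerSeries Zb) : ser m (-p) = -ser m p := by
  have h : ser m (-p) + ser m p = 0 := by
    rw [← ser_add, neg_add_cancel]
    unfold ser
    rw [map_zero, mul_zero]
  exact eq_neg_of_add_eq_zero_left h

theorem ser_mul (m m' : ℕ) (p p' : PowerSeries Zb) :
    ser (m + m') (p * p') = ser m p * ser m' p' := by
  unfold ser
  have h : -((m + m' : ℕ) : ℤ) = -(m : ℤ) + -(m' : ℤ) := by push_cast; ring
  rw [map_mul, mul_mul_mul_comm, HahnSeries.single_mul_single, one_mul, h]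

theorem coeff_ser (m : ℕ) (p : PowerSeries Zb) (k : ℕ) :
    (ser m p).coeff ((k : ℤ) - m) = p.coeff k := by
  unfold ser
  have : ((k : ℤ) - m) = (k : ℤ) + (-(m : ℤ)) := by ring
  rw [this, HahnSeries.coeff_single_mul_add, one_mul, HahnSeries.ofPowerSeries_apply_coeff]

theorem RelAt.unique {f : ℍ → ℂ} {m : ℕ} {p p' : PowerSeries Zb} (h : RelAt N f m p)
    (h' : RelAt N f m p') : p = p' :=
  map_injective (h.2.symm.trans h'.2)

theorem scaleH_surjective (N : ℕ) [NeZero N] : Function.Surjective (scaleH N) := by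
  intro τ
  have hN : (0 : ℝ) < N := by exact_mod_cast Nat.pos_of_ne_zero (NeZero.ne N)
  have him : 0 < ((τ : ℂ) / (N : ℂ)).im := by
    have : ((τ : ℂ) / (N : ℂ)).im = τ.im / N := by
      have h2 : ((τ : ℂ) / (N : ℂ)) = (τ : ℂ) / ((N : ℝ) : ℂ) := by push_cast; rfl
      rw [h2, Complex.div_ofReal_im]; rfl
    rw [this]
    exact div_pos τ.im_pos hN
  refine ⟨⟨(τ : ℂ) / N, him⟩, ?_⟩
  ext
  rw [coe_scaleH]
  show (N : ℂ) * ((τ : ℂ) / N) = τ
  have : (N : ℂ) ≠ 0 := by exact_mod_cast NeZero.ne N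
  field_simp

theorem RelAt.eq_of {f g : ℍ → ℂ} {m : ℕ} {p : PowerSeries Zb} (h : RelAt N f m p)
    (h' : RelAt N g m p) : f = g := by
  have h0 : (f ∘ scaleH N) * qq ^ m + -((g ∘ scaleH N) * qq ^ m) = 0 := by
    apply (h.1.add h'.1.neg).eq_zero_of_qExpansion
    rw [qExpansion_add h.1.analytic h'.1.neg.analytic, qExpansion_neg h'.1.analytic, h.2, h'.2,
      add_neg_cancel]
  funext τ
  obtain ⟨τ', rfl⟩ := scaleH_surjective N τ
  have h1 := congrFun h0 τ'
  simp only [Pi.add_apply, Pi.mul_apply, Pi.neg_apply, Function.comp_apply, Pi.pow_apply,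
    Pi.zero_apply] at h1
  have h2 : (f (scaleH N τ') - g (scaleH N τ')) * qq τ' ^ m = 0 := by linear_combination h1
  rcases mul_eq_zero.mp h2 with h3 | h3
  · exact sub_eq_zero.mp h3
  · exact absurd h3 (pow_ne_zero _ (qq_ne_zero τ'))

end RelAux

open RelAux

/-! ### KEY/A2 : general theory -/

theorem Rel.add {f g : ℍ → ℂ} {s t : LaurentSeries Zb} (hf : Rel N f s) (hg : Rel N g t) :
    Rel N (f + g) (s + t) := by
  obtain ⟨m, p, hp, rfl⟩ := rel_iff.mp hf
  obtain ⟨m', p', hp', rfl⟩ := rel_iff.mp hg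
  have h1 := hp.shift m'
  have h2 := hp'.shift m
  rw [add_comm m' m] at h2
  have e : ((f + g) ∘ scaleH N) * qq ^ (m + m') =
      (f ∘ scaleH N) * qq ^ (m + m') + (g ∘ scaleH N) * qq ^ (m + m') := by
    ext τ; simp [add_mul]
  refine rel_iff.mpr ⟨m + m', PowerSeries.X ^ m' * p + PowerSeries.X ^ m * p', ⟨?_, ?_⟩, ?_⟩
  · rw [e]; exact h1.1.add h2.1
  · rw [e, qExpansion_add h1.1.analytic h2.1.analytic, h1.2, h2.2, map_add]
  · rw [ser_add, ser_shift, add_comm m m', ser_shift]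

theorem Rel.mul {f g : ℍ → ℂ} {s t : LaurentSeries Zb} (hf : Rel N f s) (hg : Rel N g t) :
    Rel N (f * g) (s * t) := by
  obtain ⟨m, p, hp, rfl⟩ := rel_iff.mp hf
  obtain ⟨m', p', hp', rfl⟩ := rel_iff.mp hg
  have e : ((f * g) ∘ scaleH N) * qq ^ (m + m') =
      ((f ∘ scaleH N) * qq ^ m) * ((g ∘ scaleH N) * qq ^ m') := by
    ext τ; simp [pow_add]; ring
  refine rel_iff.mpr ⟨m + m', p * p', ⟨?_, ?_⟩, ?_⟩
  · rw [e]; exact hp.1.mul hp'.1
  · rw [e, qExpansion_mul hp.1.analytic hp'.1.analytic, hp.2, hp'.2, map_mul]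
  · rw [ser_mul]

theorem Rel.neg {f : ℍ → ℂ} {s : LaurentSeries Zb} (hf : Rel N f s) : Rel N (-f) (-s) := by
  obtain ⟨m, p, hp, rfl⟩ := rel_iff.mp hf
  have e : ((-f) ∘ scaleH N) * qq ^ m = -((f ∘ scaleH N) * qq ^ m) := by
    ext τ; simp
  refine rel_iff.mpr ⟨m, -p, ⟨?_, ?_⟩, ?_⟩
  · rw [e]; exact hp.1.neg
  · rw [e, qExpansion_neg hp.1.analytic, hp.2, map_neg]
  · rw [ser_neg]

theorem Rel.const (N : ℕ) [NeZero N] (c : Zb) : Rel N (fun _ => (c : ℂ)) (HahnSeries.C c) := by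
  have e : ((fun _ : ℍ => (c : ℂ)) ∘ scaleH N) * qq ^ 0 = fun _ => (c : ℂ) := by
    ext τ; simp
  refine rel_iff.mpr ⟨0, PowerSeries.C c, ⟨?_, ?_⟩, ?_⟩
  · rw [e]; exact IsQ.const _
  · rw [e, qExpansion_const, PowerSeries.map_C]; rfl
  · unfold ser
    rw [HahnSeries.ofPowerSeries_C]
    simp

/-- the expansion is unique -/
theorem Rel.unique {f : ℍ → ℂ} {s t : LaurentSeries Zb} (hs : Rel N f s) (ht : Rel N f t) :
    s = t := by
  obtain ⟨m, p, hp, rfl⟩ := rel_iff.mp hs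
  obtain ⟨m', p', hp', rfl⟩ := rel_iff.mp ht
  have h1 := hp.shift m'
  have h2 := hp'.shift m
  rw [add_comm m' m] at h2
  rw [← ser_shift m m' p, ← ser_shift m' m p', add_comm m' m, h1.unique h2]

/-- the expansion determines the function -/
theorem Rel.eq_of {f g : ℍ → ℂ} {s : LaurentSeries Zb} (hf : Rel N f s) (hg : Rel N g s) :
    f = g := by
  obtain ⟨m, p, hp, rfl⟩ := rel_iff.mp hf
  obtain ⟨m', p', hp', hs⟩ := rel_iff.mp hg
  have h1 := hp.shift m'
  have h2 := hp'.shift m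
  rw [add_comm m' m] at h2
  rw [← ser_shift m m' p, ← ser_shift m' m p', add_comm m' m] at hs
  rw [← ser_injective _ hs] at h2
  exact h1.eq_of h2

/-- no polar part: bounded at infinity -/
theorem Rel.isBoundedAtImInfty {f : ℍ → ℂ} {s : LaurentSeries Zb} (hf : Rel N f s)
    (hs : ∀ n : ℤ, n < 0 → s.coeff n = 0) : IsBoundedAtImInfty f := by
  obtain ⟨m, p, hp, rfl⟩ := rel_iff.mp hf
  have hp0 : ∀ k < m, p.coeff k = 0 := fun k hk => by
    rw [← coeff_ser m p k]; exact hs _ (by omega)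
  set c : ℕ → ℂ := fun k => (qExpansion 1 ((f ∘ scaleH N) * qq ^ m)).coeff k with hc
  have hc0 : ∀ k < m, c k = 0 := by
    intro k hk
    simp only [hc, hp.2, PowerSeries.coeff_map, hp0 k hk, map_zero]
  have hsum : ∀ τ : ℍ, HasSum (fun k => c k • Function.Periodic.qParam (1 : ℝ) (τ : ℂ) ^ k)
      (f (scaleH N τ) * qq τ ^ m) := fun τ =>
    hasSum_qExpansion one_pos hp.1.per hp.1.holo hp.1.bdd τ
  have hsum2 : ∀ τ : ℍ, HasSum (fun k => c (k + m) • Function.Periodic.qParam (1 : ℝ) (τ : ℂ) ^ k)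
      ((f ∘ scaleH N) τ) := by
    intro τ
    have h1 := (hasSum_nat_add_iff' m).mpr (hsum τ)
    have h2 : ∑ i ∈ Finset.range m, c i • Function.Periodic.qParam (1 : ℝ) (τ : ℂ) ^ i = 0 :=
      Finset.sum_eq_zero fun i hi => by rw [hc0 i (Finset.mem_range.mp hi), zero_smul]
    rw [h2, sub_zero] at h1
    have h3 := h1.mul_right ((qq τ ^ m)⁻¹)
    have hq : qq τ ^ m ≠ 0 := pow_ne_zero _ (qq_ne_zero τ)
    rw [mul_assoc, mul_inv_cancel₀ hq, mul_one] at h3
    refine h3.congr_fun ?_ |>.congr_fun fun _ => rfl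
    intro k
    show c (k + m) • qq τ ^ k = c (k + m) • qq τ ^ (k + m) * (qq τ ^ m)⁻¹
    rw [pow_add, smul_eq_mul, smul_eq_mul]
    field_simp
  have hb : IsBoundedAtImInfty (f ∘ scaleH N) :=
    isBoundedAtImInfty_of_hasSum_qExpansion one_pos hsum2
  rw [isBoundedAtImInfty_iff] at hb ⊢
  obtain ⟨M, A, h⟩ := hb
  have hN : (0 : ℝ) < N := by exact_mod_cast Nat.pos_of_ne_zero (NeZero.ne N)
  refine ⟨M, N * A, fun z hz => ?_⟩
  obtain ⟨z', rfl⟩ := scaleH_surjective N z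
  rw [im_scaleH] at hz
  exact h z' (le_of_mul_le_mul_left hz hN)

/-- substitution `z ↦ (a z + b) / d`: `q_M ↦ e(b/(dM)) q_N^A` if `a N = A d M`. -/
theorem Rel.affine {M : ℕ} [NeZero M] {F : ℍ → ℂ} {s : LaurentSeries Zb} (h : Rel M F s)
    (a d : ℕ) (b : ℤ) (ha : 0 < a) (hd : 0 < d) (A : ℕ) (hA : a * N = A * (d * M)) :
    ∃ s' : LaurentSeries Zb, Rel N (F ∘ aff a d b ha hd) s' ∧
      (∀ n : ℤ, ((s'.coeff ((A : ℤ) * n) : Zb) : ℂ) =
        Complex.exp (2 * π * Complex.I * b * n / (d * M)) * ((s.coeff n : Zb) : ℂ)) ∧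
      ∀ k : ℤ, ¬ (A : ℤ) ∣ k → s'.coeff k = 0 := by
  obtain ⟨m, p, hQ, hp, rfl⟩ := h
  have hN0 : 0 < N := Nat.pos_of_ne_zero (NeZero.ne N)
  have hM0 : 0 < M := Nat.pos_of_ne_zero (NeZero.ne M)
  have hD : 0 < d * M := Nat.mul_pos hd hM0
  have hA0 : 0 < A := by
    rcases Nat.eq_zero_or_pos A with rfl | h
    · rw [zero_mul] at hA
      exact absurd hA (Nat.mul_pos ha hN0).ne'
    · exact h
  have hAZ : (0 : ℤ) < A := by exact_mod_cast hA0
  obtain ⟨p', hQ', hp', hc⟩ := RelAff.affine_core (N := N) (M := M) (F := F) m p hQ hp a d b hd A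
    hA0 hA hD (aff a d b ha hd) (fun _ => rfl)
  refine ⟨HahnSeries.single (-((A * m : ℕ) : ℤ)) 1 * HahnSeries.ofPowerSeries ℤ Zb p',
    ⟨A * m, p', hQ', hp', rfl⟩, fun n => ?_, fun k hk => ?_⟩
  · rw [RelAff.coeff_single_neg_mul, RelAff.coeff_single_neg_mul]
    have e1 : (A : ℤ) * n + ((A * m : ℕ) : ℤ) = A * (n + m) := by push_cast; ring
    by_cases hn : 0 ≤ n + (m : ℤ)
    · have h1 : 0 ≤ (A : ℤ) * n + ((A * m : ℕ) : ℤ) := by rw [e1]; positivity
      rw [if_pos hn, if_pos h1, hc]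
      obtain ⟨t, ht⟩ := Int.eq_ofNat_of_zero_le hn
      have e2 : ((A : ℤ) * n + ((A * m : ℕ) : ℤ)).toNat = A * t := by
        rw [e1, ht]
        exact_mod_cast Int.toNat_natCast (A * t)
      have e3 : (n + (m : ℤ)).toNat = t := by rw [ht]; exact Int.toNat_natCast t
      rw [e2, e3, if_pos (dvd_mul_right A t), Nat.mul_div_cancel_left _ hA0]
      have e4 : ((t : ℕ) : ℤ) - m = n := by omega
      rw [e4]
      show ((p.coeff t : Zb) : ℂ) * ((RelAff.rootZ b (d * M) hD n : Zb) : ℂ) = _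
      rw [RelAff.coe_rootZ, mul_comm]
      push_cast
      rfl
    · have h1 : ¬ 0 ≤ (A : ℤ) * n + ((A * m : ℕ) : ℤ) := by
        rw [e1]
        intro h2
        exact hn (nonneg_of_mul_nonneg_right h2 hAZ)
      rw [if_neg hn, if_neg h1]
      simp
  · rw [RelAff.coeff_single_neg_mul]
    by_cases h1 : 0 ≤ k + ((A * m : ℕ) : ℤ)
    · rw [if_pos h1, hc, if_neg]
      intro h2
      apply hk
      have h3 : (A : ℤ) ∣ ((k + ((A * m : ℕ) : ℤ)).toNat : ℤ) := by exact_mod_cast h2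
      rw [Int.toNat_of_nonneg h1] at h3
      have h4 : (A : ℤ) ∣ ((A * m : ℕ) : ℤ) := by push_cast; exact dvd_mul_right _ _
      exact (Int.dvd_add_left h4).mp h3
    · rw [if_neg h1]

/-! ### KEY/A0 : the basic expansions (level one) -/

theorem scaleH_one' (τ : ℍ) : scaleH 1 τ = τ := by
  ext
  show ((1 : ℕ) : ℂ) * (τ : ℂ) = τ
  simp

theorem comp_scaleH_one (f : ℍ → ℂ) : f ∘ scaleH 1 = f := by
  ext τ
  simp only [Function.comp_apply, scaleH_one']

theorem map_map_int (u : PowerSeries ℤ) :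
    (u.map (Int.castRingHom Zb)).map (algebraMap Zb ℂ) = u.map (Int.castRingHom ℂ) := by
  ext n
  simp

theorem rel_Delta_inv : Rel 1 (fun τ : ℍ => (discriminant τ)⁻¹)
    (HahnSeries.single (-1 : ℤ) 1 *
      HahnSeries.ofPowerSeries ℤ Zb (dedekindEtaUnitInv.map (Int.castRingHom Zb))) := by
  have e : ((fun τ : ℍ => (discriminant τ)⁻¹) ∘ scaleH 1) * qq ^ 1 = RelAff.qDivΔ := by
    rw [comp_scaleH_one, pow_one]; rfl
  refine ⟨1, dedekindEtaUnitInv.map (Int.castRingHom Zb), ?_, ?_, by simp⟩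
  · rw [e]; exact RelAff.isQ_qDivΔ
  · rw [e, RelAff.qExpansion_qDivΔ, map_map_int]

theorem rel_Delta : Rel 1 (discriminant : ℍ → ℂ)
    (HahnSeries.single (1 : ℤ) 1 *
      HahnSeries.ofPowerSeries ℤ Zb (dedekindEtaUnit.map (Int.castRingHom Zb))) := by
  have e : ((discriminant : ℍ → ℂ) ∘ scaleH 1) * qq ^ 0 = discriminant := by
    rw [comp_scaleH_one, pow_zero, mul_one]
  refine ⟨0, (PowerSeries.X * dedekindEtaUnit).map (Int.castRingHom Zb), ?_, ?_, ?_⟩
  · rw [e]; exact RelAff.isQ_discriminant'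
  · rw [e, qExpansion_discriminant, map_map_int]
  · rw [map_mul, PowerSeries.map_X, map_mul, HahnSeries.ofPowerSeries_X]
    simp

theorem rel_j : Rel 1 (jH : ℍ → ℂ) (jqModC Zb) := by
  have e : ((jH : ℍ → ℂ) ∘ scaleH 1) * qq ^ 1 = (E₄ : ℍ → ℂ) ^ 3 * RelAff.qDivΔ := by
    rw [comp_scaleH_one, pow_one]
    ext τ
    show E₄ τ ^ 3 / discriminant τ * RelAff.qf τ = E₄ τ ^ 3 * ((discriminant τ)⁻¹ * RelAff.qf τ)
    rw [div_eq_mul_inv, mul_assoc]
  have h4 : IsQ (E₄ : ℍ → ℂ) := isQ_of_modularForm E₄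
  have h43 : IsQ ((E₄ : ℍ → ℂ) ^ 3) := by
    rw [pow_succ, pow_succ, pow_one]; exact (h4.mul h4).mul h4
  have q43 : qExpansion 1 ((E₄ : ℍ → ℂ) ^ 3) = (eisenstein4 ^ 3).map (Int.castRingHom ℂ) := by
    rw [pow_succ, pow_succ, pow_one, qExpansion_mul (h4.mul h4).analytic h4.analytic,
      qExpansion_mul h4.analytic h4.analytic, qExpansion_E₄, map_pow]
    ring
  refine ⟨1, jNum.map (Int.castRingHom Zb), ?_, ?_, by simp [jqModC]⟩
  · rw [e]; exact h43.mul RelAff.isQ_qDivΔ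
  · rw [e, qExpansion_mul h43.analytic RelAff.isQ_qDivΔ.analytic, q43, RelAff.qExpansion_qDivΔ,
      map_map_int, jNum, map_mul]

end Fermat.Agent.S28
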