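import Fermat.Agent.S28.RLoc

set_option autoImplicit false

noncomputable section

namespace Fermat.Agent.S28

open ModularCurve ModularCurve.IgusaScheme Polynomial

theorem exists_span_normalised (N : ℕ) [NeZero N] (ℓ : ℕ) [Fact ℓ.Prime]
    (K : Type) [Field K] [CharP K ℓ] [Algebra ↥(GaloisRep.ratLocalizedAt ℓ) K]
    (g : ↥(modularFunctionFieldFull N)) (n : ℕ) (θ : Fin n → ↥(modularFunctionFieldFull N))
    (hspan : ∀ x : ↥(modularFunctionFieldFull N), ∃ (s : Polynomial ℚ) (b : Fin n → Polynomial ℚ),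
      s ≠ 0 ∧ Polynomial.aeval g s * x = ∑ i, Polynomial.aeval g (b i) * θ i)
    (x : ↥(modularFunctionFieldFull N)) :
    ∃ (s : Polynomial ↥(GaloisRep.ratLocalizedAt ℓ))
      (b : Fin n → Polynomial ↥(GaloisRep.ratLocalizedAt ℓ)) (k : ℕ),
      s.map (algebraMap ↥(GaloisRep.ratLocalizedAt ℓ) K) ≠ 0 ∧
      (ℓ : ↥(modularFunctionFieldFull N)) ^ k * (Polynomial.aeval g s * x) =
        ∑ i, Polynomial.aeval g (b i) * θ i := by
  obtain ⟨s, b, hs, hsb⟩ := hspan x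
  obtain ⟨c, s0, hc, hs0, hs0K⟩ := RLoc.exists_primitive ℓ K s hs
  have hcF : algebraMap ℚ ↥(modularFunctionFieldFull N) c ≠ 0 := by
    rw [Ne, map_eq_zero]; exact hc
  have hℓF : (ℓ : ↥(modularFunctionFieldFull N)) ≠ 0 := by
    exact_mod_cast (Fact.out : ℓ.Prime).ne_zero
  -- the relation with `s0`
  have h1 : aeval g s0 * x = ∑ i, aeval g (C c⁻¹ * b i) * θ i := by
    have h2 : aeval g s = algebraMap ℚ ↥(modularFunctionFieldFull N) c * aeval g s0 := by
      rw [hs0, map_mul, aeval_C, aeval_map_algebraMap]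
    rw [h2] at hsb
    have h3 : ∀ i, aeval g (C c⁻¹ * b i) * θ i =
        (algebraMap ℚ ↥(modularFunctionFieldFull N) c)⁻¹ * (aeval g (b i) * θ i) := by
      intro i
      rw [map_mul, aeval_C, map_inv₀, mul_assoc]
    simp_rw [h3]
    rw [← Finset.mul_sum, ← hsb, mul_assoc, inv_mul_cancel_left₀ hcF]
  by_cases hb : ∃ i, C c⁻¹ * b i ≠ 0
  · obtain ⟨v, b', hb', -⟩ := RLoc.exists_scaling ℓ K (fun i => C c⁻¹ * b i) hb
    refine ⟨s0, fun i => C ((ℓ : ↥(GaloisRep.ratLocalizedAt ℓ)) ^ v.toNat) * b' i, (-v).toNat,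
      hs0K, ?_⟩
    rw [h1, Finset.mul_sum]
    refine Finset.sum_congr rfl fun i _ => ?_
    rw [hb' i, map_mul, map_mul, aeval_C, aeval_C, aeval_map_algebraMap, map_zpow₀, map_natCast,
      map_pow, map_natCast, ← mul_assoc, ← mul_assoc]
    congr 2
    rw [← zpow_natCast, ← zpow_natCast, ← zpow_add₀ hℓF]
    congr 1
    omega
  · push Not at hb
    refine ⟨s0, fun _ => 0, 0, hs0K, ?_⟩
    rw [h1]
    simp [hb]

end Fermat.Agent.S28
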